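import Mathlib
import Fermat.Agent.CFT.SLevTame
import Fermat.Agent.CFT.SLevFin
import Fermat.Agent.CFT.Loc.Unram
import Fermat.Agent.CFT.Loc.Dict

/-!
# Tame pairs: a Frobenius element and a generator of tame inertia
-/

set_option autoImplicit false

namespace Fermat.Agent.Patch

open Fermat.Agent.CFT Fermat.Agent.CFT.Loc
open scoped Pointwise

local notation "Qb" => AlgebraicClosure ℚ
local notation "Γ" => (AlgebraicClosure ℚ ≃ₐ[ℚ] AlgebraicClosure ℚ)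

/-- a proper subgroup of a finite `p`-group is killed by a nontrivial character of order `p` -/
theorem exists_hom_of_ne_top {P : Type*} [Group P] [Finite P] {p : ℕ} [hp : Fact p.Prime]
    (hP : IsPGroup p P) (H : Subgroup P) (hH : H ≠ ⊤) :
    ∃ χ : P →* Multiplicative (ZMod p), (∃ x, χ x ≠ 1) ∧ ∀ h ∈ H, χ h = 1 := by
  obtain ⟨M, hM, hHM⟩ := (eq_top_or_exists_le_coatom H).resolve_left hH
  have hnil : Group.IsNilpotent P := hP.isNilpotent
  have hnorm : M.Normal := Subgroup.NormalizerCondition.normal_of_coatom M Group.normalizerCondition_of_isNilpotent hM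
  have hQ : IsPGroup p (P ⧸ M) := hP.to_quotient M
  have hnt : Nontrivial (P ⧸ M) := by
    rw [QuotientGroup.nontrivial_iff]
    exact hM.1
  obtain ⟨n, hn0, hn⟩ := hQ.nontrivial_iff_card.mp hnt
  obtain ⟨x, hx⟩ := exists_prime_orderOf_dvd_card' (G := P ⧸ M) p (by
    rw [hn]; exact dvd_pow_self _ hn0.ne')
  have hx1 : x ≠ 1 := by
    rintro rfl
    rw [orderOf_one] at hx
    exact hp.out.one_lt.ne hx
  obtain ⟨y, rfl⟩ := QuotientGroup.mk_surjective x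
  have hy : y ∉ M := fun h => hx1 ((QuotientGroup.eq_one_iff y).2 h)
  have htop : (Subgroup.zpowers (y : P ⧸ M)).comap (QuotientGroup.mk' M) = ⊤ := by
    apply hM.2
    refine lt_of_le_of_ne ?_ ?_
    · intro z hz
      rw [Subgroup.mem_comap]
      have : (QuotientGroup.mk' M) z = 1 := (QuotientGroup.eq_one_iff z).2 hz
      rw [this]; exact one_mem _
    · intro h
      apply hy
      rw [h, Subgroup.mem_comap]
      exact Subgroup.mem_zpowers _
  have hcyc : ∀ z : P ⧸ M, z ∈ Subgroup.zpowers (y : P ⧸ M) := by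
    intro z
    obtain ⟨w, rfl⟩ := QuotientGroup.mk_surjective z
    have : w ∈ (Subgroup.zpowers (y : P ⧸ M)).comap (QuotientGroup.mk' M) := by
      rw [htop]; trivial
    exact this
  have hcard : Nat.card (P ⧸ M) = p := by
    rw [← hx]
    exact (orderOf_eq_card_of_forall_mem_zpowers hcyc).symm
  have e : P ⧸ M ≃* Multiplicative (ZMod p) := mulEquivOfPrimeCardEq (p := p) hcard (by simp)
  refine ⟨e.toMonoidHom.comp (QuotientGroup.mk' M), ⟨y, ?_⟩, ?_⟩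
  · intro h
    have h1 : e (y : P ⧸ M) = 1 := h
    rw [map_eq_one_iff e e.injective] at h1
    exact hx1 h1
  · intro h hh
    show e (h : P ⧸ M) = 1
    rw [(QuotientGroup.eq_one_iff h).2 (hHM hh), map_one]

section

variable {p ℓ : ℕ} [Fact p.Prime] {A : ValuationSubring Qb} {ζ : Qb}

/-- the image of inertia in a finite `p`-group is generated by one element `τ`, chosen once and
for all. -/
theorem mem_zpowers_of_inertia (hζ : IsPrimitiveRoot ζ p) (hℓ : ℓ.Prime) (hℓp : ℓ ≠ p)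
    (hA : A.LiesOverPrime ℓ) {Q : Qb} (hQ : Q ^ p = ℓ) {τ : Γ}
    (hτ : τ ∈ A.inertiaSubgroupIn ℚ) (hτQ : kummer p ζ Q τ ≠ 0) {G : Type*} [Group G] [Finite G]
    (f : A.inertiaSubgroupIn ℚ →* G)
    (hf : ∃ F : IntermediateField ℚ Qb, FiniteDimensional ℚ F ∧
      ∀ t : A.inertiaSubgroupIn ℚ, (t : Γ) ∈ F.fixingSubgroup → f t = 1)
    (hp : ∀ t, ∃ k : ℕ, f t ^ p ^ k = 1) (t : A.inertiaSubgroupIn ℚ) :
    f t ∈ Subgroup.zpowers (f ⟨τ, hτ⟩) := by
  classical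
  set P := f.range with hP
  have hPp : IsPGroup p P := by
    rintro ⟨_, ⟨t, rfl⟩⟩
    obtain ⟨k, hk⟩ := hp t
    exact ⟨k, Subtype.ext hk⟩
  set c : P := ⟨f ⟨τ, hτ⟩, ⟨_, rfl⟩⟩ with hc
  have htop : Subgroup.zpowers c = ⊤ := by
    by_contra hne
    obtain ⟨χ, ⟨x, hx⟩, hχ⟩ := exists_hom_of_ne_top hPp _ hne
    have hχc : χ c = 1 := hχ c (Subgroup.mem_zpowers c)
    let χ' : A.inertiaSubgroupIn ℚ → ZMod p := fun t => Multiplicative.toAdd (χ (f.rangeRestrict t))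
    obtain ⟨F, hF, hFf⟩ := hf
    obtain ⟨n, hn⟩ := exists_eq_mul_kummer_inertia (χ := χ') hζ hℓ hA hℓp (inertUnif hℓ hA) hQ (by
      refine ⟨F.fixingSubgroup.subgroupOf _, ⟨F.fixingSubgroup, fixingSubgroup_mem_galLevels F,
        le_rfl⟩, fun g s hs => ?_⟩
      have h1 : f.rangeRestrict (g * s) = f.rangeRestrict g := by
        apply Subtype.ext
        show f (g * s) = f g
        rw [map_mul, hFf s hs, mul_one]
      show Multiplicative.toAdd (χ (f.rangeRestrict (g * s))) = _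
      rw [h1]) (by
      intro g h
      show Multiplicative.toAdd (χ (f.rangeRestrict (g * h))) = _
      rw [map_mul, map_mul, toAdd_mul])
    have h1 := hn ⟨τ, hτ⟩
    have h2 : χ' ⟨τ, hτ⟩ = 0 := by
      show Multiplicative.toAdd (χ c) = 0
      rw [hχc]; rfl
    rw [h2] at h1
    have hn0 : n = 0 := (mul_eq_zero.mp h1.symm).resolve_right hτQ
    obtain ⟨_, ⟨t, rfl⟩⟩ := x
    apply hx
    have h3 := hn t
    rw [hn0, zero_mul] at h3
    exact Multiplicative.toAdd.injective h3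
  have h1 : (⟨f t, ⟨t, rfl⟩⟩ : P) ∈ Subgroup.zpowers c := by rw [htop]; trivial
  obtain ⟨k, hk⟩ := h1
  exact ⟨k, congrArg Subtype.val hk⟩

/-- Frobenius acts on roots of unity of order prime to the residue characteristic by the `ℓ`-th
power map. -/
theorem frob_apply_rootOfUnity (hℓ : ℓ.Prime) (hA : A.LiesOverPrime ℓ) {m : ℕ} (hm : ¬ ℓ ∣ m)
    {φ : Γ} (hφ : A.IsFrobeniusAt φ ℓ) {η : Qb} (hη : η ^ m = 1) : φ η = η ^ ℓ := by
  have hm0 : m ≠ 0 := by rintro rfl; exact hm (dvd_zero ℓ)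
  have hη0 : η ≠ 0 := by rintro rfl; rw [zero_pow hm0] at hη; exact zero_ne_one hη
  have hηv : A.valuation η = 1 := by
    have h2 : A.valuation η ^ m = 1 := by rw [← map_pow, hη, map_one]
    exact eq_one_of_pow_eq_one_val hm0 h2
  have hηA : η ∈ A := (A.valuation_le_one_iff _).1 hηv.le
  have h1 := ((Frob.isFrobeniusAt_iff A φ ℓ).1 hφ).2 η hηA
  have h2 : A.valuation (φ η - η ^ ℓ) < 1 := (ValuationSubring.mem_nonunits_iff _).1 h1
  have h3 : φ η / η ^ ℓ = 1 := by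
    apply eq_one_of_pow_eq_one hℓ hA hm
    · rw [div_pow, ← map_pow, hη, map_one, ← pow_mul, mul_comm, pow_mul, hη, one_pow, div_one]
    · have h4 : φ η / η ^ ℓ - 1 = (φ η - η ^ ℓ) / η ^ ℓ := by
        field_simp
      rw [h4, map_div₀, map_pow, hηv, one_pow, div_one]
      exact h2
  rwa [div_eq_one_iff_eq (pow_ne_zero _ hη0)] at h3

/-- **the tame relation.** -/
theorem tame_relation (hζ : IsPrimitiveRoot ζ p) (hℓ : ℓ.Prime) (hℓp : ℓ ≠ p)
    (hA : A.LiesOverPrime ℓ) {Q : Qb} (hQ : Q ^ p = ℓ) {τ : Γ}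
    (hτ : τ ∈ A.inertiaSubgroupIn ℚ) (hτQ : kummer p ζ Q τ ≠ 0) {φ : Γ}
    (hφ : A.IsFrobeniusAt φ ℓ) (hφτ : φ * τ * φ⁻¹ ∈ A.inertiaSubgroupIn ℚ)
    {G : Type*} [Group G] [Finite G] (f : A.inertiaSubgroupIn ℚ →* G)
    (hf : ∃ F : IntermediateField ℚ Qb, FiniteDimensional ℚ F ∧
      ∀ t : A.inertiaSubgroupIn ℚ, (t : Γ) ∈ F.fixingSubgroup → f t = 1)
    (hp : ∀ t, ∃ k : ℕ, f t ^ p ^ k = 1) :
    f ⟨φ * τ * φ⁻¹, hφτ⟩ = f ⟨τ, hτ⟩ ^ ℓ := by
  classical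
  have hpr : p.Prime := Fact.out
  have hp0 : p ≠ 0 := hpr.ne_zero
  have : NeZero p := ⟨hp0⟩
  have hndvd : ∀ m, ¬ ℓ ∣ p ^ m := fun m h =>
    hℓp ((Nat.prime_dvd_prime_iff_eq hℓ hpr).1 (hℓ.dvd_of_dvd_pow h))
  have hℓ0 : (ℓ : Qb) ≠ 0 := by exact_mod_cast hℓ.ne_zero
  -- exponent
  set m := Nat.card G + 1 with hm
  have hexp : ∀ t, f t ^ p ^ m = 1 := by
    intro t
    obtain ⟨k, hk⟩ := hp t
    obtain ⟨j, hj, hj'⟩ := (Nat.dvd_prime_pow hpr).1 (orderOf_dvd_of_pow_eq_one hk)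
    rw [← orderOf_dvd_iff_pow_eq_one, hj']
    refine pow_dvd_pow p ?_
    have h1 : p ^ j ≤ Nat.card G := by
      rw [← hj']; exact orderOf_le_card
    have h2 : j < p ^ j := Nat.lt_pow_self hpr.one_lt
    omega
  obtain ⟨x, hx⟩ := IsAlgClosed.exists_pow_nat_eq Q (n := p ^ (Nat.card G)) (pow_pos hpr.pos _)
  have hxm : x ^ p ^ m = ℓ := by
    rw [hm, pow_succ, pow_mul, hx, hQ]
  have hx0 : x ≠ 0 := by
    rintro rfl
    rw [zero_pow (pow_ne_zero _ hp0)] at hxm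
    exact hℓ0 hxm.symm
  have hroot : ∀ σ : Γ, (σ x / x) ^ p ^ m = 1 := by
    intro σ
    rw [div_pow, ← map_pow, hxm, map_natCast, div_self hℓ0]
  have hfixr : ∀ t ∈ A.inertiaSubgroupIn ℚ, ∀ η : Qb, η ^ p ^ m = 1 → t η = η := fun t ht η hη =>
    inertia_apply_rootOfUnity hℓ hA (hndvd m) ht hη
  have hneZ : NeZero (p ^ m) := ⟨pow_ne_zero _ hp0⟩
  let h : A.inertiaSubgroupIn ℚ →* rootsOfUnity (p ^ m) Qb :=
    { toFun := fun t => rootsOfUnity.mkOfPowEq ((t : Γ) x / x) (hroot t)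
      map_one' := by
        apply Subtype.ext; apply Units.ext
        show x / x = 1
        exact div_self hx0
      map_mul' := fun s t => by
        apply Subtype.ext; apply Units.ext
        show (s : Γ) ((t : Γ) x) / x = (s : Γ) x / x * ((t : Γ) x / x)
        have h1 : (s : Γ) ((t : Γ) x / x) = (t : Γ) x / x := hfixr s s.2 _ (hroot t)
        rw [map_div₀] at h1
        have hsx : (s : Γ) x ≠ 0 := by rw [Ne, EmbeddingLike.map_eq_zero_iff]; exact hx0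
        rw [div_eq_iff hsx] at h1
        rw [h1]; ring }
  have hh : ∀ t, (((h t : rootsOfUnity (p ^ m) Qb) : Qbˣ) : Qb) = (t : Γ) x / x := fun t => rfl
  obtain ⟨F, hF, hFf⟩ := hf
  have hFx : FiniteDimensional ℚ (IntermediateField.adjoin ℚ {x}) :=
    IntermediateField.adjoin.finiteDimensional (Algebra.IsIntegral.isIntegral x)
  obtain ⟨k, hk⟩ := mem_zpowers_of_inertia hζ hℓ hℓp hA hQ hτ hτQ (f.prod h)
    ⟨F ⊔ IntermediateField.adjoin ℚ {x}, IntermediateField.finiteDimensional_sup _ _, fun t ht => by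
      have ht' := ht
      rw [IntermediateField.fixingSubgroup_sup] at ht'
      have h1 : (t : Γ) x = x := (IntermediateField.mem_fixingSubgroup_iff _ _).1 ht'.2 x
        (IntermediateField.mem_adjoin_simple_self ℚ x)
      refine Prod.ext (hFf t ht'.1) ?_
      apply Subtype.ext; apply Units.ext
      show (t : Γ) x / x = 1
      rw [h1, div_self hx0]⟩
    (fun t => ⟨m, by
      refine Prod.ext (hexp t) ?_
      apply Subtype.ext; apply Units.ext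
      show ((t : Γ) x / x) ^ p ^ m = 1
      exact hroot t⟩) ⟨φ * τ * φ⁻¹, hφτ⟩
  have hk1 : f ⟨τ, hτ⟩ ^ k = f ⟨φ * τ * φ⁻¹, hφτ⟩ := congrArg Prod.fst hk
  have hk2 : h ⟨τ, hτ⟩ ^ k = h ⟨φ * τ * φ⁻¹, hφτ⟩ := congrArg Prod.snd hk
  -- the relation for `h`
  have hrel : h ⟨φ * τ * φ⁻¹, hφτ⟩ = h ⟨τ, hτ⟩ ^ ℓ := by
    apply Subtype.ext; apply Units.ext
    show φ (τ (φ⁻¹ x)) / x = (τ x / x) ^ ℓ
    have h1 : φ⁻¹ x = (φ⁻¹ x / x) * x := by field_simp
    have h2 : τ (φ⁻¹ x) = (φ⁻¹ x / x) * τ x := by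
      conv_lhs => rw [h1]
      rw [map_mul, hfixr τ hτ _ (hroot φ⁻¹)]
    have h3 : τ (φ⁻¹ x) = (τ x / x) * φ⁻¹ x := by rw [h2]; field_simp
    rw [h3, map_mul, frob_apply_rootOfUnity hℓ hA (hndvd m) hφ (hroot τ)]
    have h4 : φ (φ⁻¹ x) = x := smul_inv_smul φ x
    rw [h4]
    field_simp
  have hord : orderOf (h ⟨τ, hτ⟩) = p ^ m := by
    refine orderOf_eq_prime_pow (n := Nat.card G) ?_ ?_
    · intro h1
      apply hτQ
      have h2 := congrArg (fun z : rootsOfUnity (p ^ m) Qb => ((z : Qbˣ) : Qb)) h1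
      have h3 : (τ x / x) ^ p ^ Nat.card G = 1 := h2
      rw [div_pow, ← map_pow, hx] at h3
      have hQ0 : Q ≠ 0 := by
        rintro rfl
        rw [zero_pow hp0] at hQ
        exact hℓ0 hQ.symm
      rw [div_eq_one_iff_eq hQ0] at h3
      exact kummer_of_fixed hζ hQ0 h3
    · apply Subtype.ext; apply Units.ext
      show (τ x / x) ^ p ^ m = 1
      exact hroot τ
  rw [hrel, ← zpow_natCast, zpow_eq_zpow_iff_modEq, hord] at hk2
  rw [← hk1, ← zpow_natCast, zpow_eq_zpow_iff_modEq]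
  refine hk2.of_dvd ?_
  exact_mod_cast orderOf_dvd_of_pow_eq_one (hexp ⟨τ, hτ⟩)

end

/-- Frobenius elements of the local Galois group give Frobenius elements at the place. -/
theorem isFrobeniusAt_rg (l : ℕ) [Fact l.Prime] (g : Γ) {φ : GalLoc l}
    (hφ : ∀ x : PadicAlgCl l, ‖x‖ ≤ 1 → ‖φ x - x ^ l‖ < 1) :
    (g • padicPlace l).IsFrobeniusAt (rg l g φ) l := by
  rw [Frob.isFrobeniusAt_iff]
  refine ⟨rg_mem_decomposition l g φ, fun x hx => ?_⟩
  rw [mem_nonunits_smul_padicPlace_iff, map_sub, jg_rg, map_pow]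
  exact hφ _ ((mem_smul_padicPlace_iff l g x).1 hx)

/-- The decomposition group is generated, modulo every open subgroup, by a Frobenius element
and inertia. -/
theorem exists_frob_pow_mul (l : ℕ) [Fact l.Prime] (g : Γ) {φ : GalLoc l}
    (hφ : ∀ x : PadicAlgCl l, ‖x‖ ≤ 1 → ‖φ x - x ^ l‖ < 1) {σ : Γ}
    (hσ : σ ∈ (g • padicPlace l).decompositionSubgroup ℚ) (F : IntermediateField ℚ Qb)
    [FiniteDimensional ℚ F] :
    ∃ i : ℕ, ∃ h ∈ F.fixingSubgroup, ∃ t ∈ (g • padicPlace l).inertiaSubgroupIn ℚ,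
      σ = (rg l g φ) ^ i * h * t := by
  rw [← range_rg] at hσ
  obtain ⟨σ', rfl⟩ := hσ
  have hφ' : ∀ r : ResF l, resAct l φ r = r ^ l := by
    intro r
    obtain ⟨x, hx, rfl⟩ := exists_red_eq r
    rw [resAct_red, red, red, ← map_pow]
    exact (red_eq_red_iff (l := l) _ (by rw [norm_pow]; exact pow_le_one₀ (norm_nonneg _) hx)).2
      (hφ x hx)
  obtain ⟨j, hj⟩ := exists_frobenius_pow l (resAct l σ') (n := resDeg l (KL l F g))
    (resDeg_ne_zero l _)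
  obtain ⟨h, hh, hh'⟩ := exists_fixing_of_resAct (K := KL l F g) ((φ ^ j)⁻¹ * σ') (by
    intro r hr
    rw [resAct_mul_apply, hj r ((mem_resSub_iff l _ r).1 hr), ← resAct_pow_apply hφ',
      resAct_inv_apply])
  refine ⟨j, rg l g h, ?_, rg l g (h⁻¹ * ((φ ^ j)⁻¹ * σ')), ?_, ?_⟩
  · rw [← comap_rg_fixingSubgroup] at hh
    exact hh
  · rw [rg_mem_inertia_iff]
    exact inv_mul_mem_inertiaLoc_iff.2 hh'
  · rw [← map_pow, ← map_mul, ← map_mul]
    congr 1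
    group

/-- A tame pair at a place `A` over `ℓ`: a Frobenius element and a generator of tame inertia. -/
structure TamePair (p ℓ : ℕ) (A : ValuationSubring Qb) (φ τ : Γ) : Prop where
  frob : A.IsFrobeniusAt φ ℓ
  inertia : τ ∈ A.inertiaSubgroupIn ℚ
  /-- tame relation -/
  rel : ∀ {G : Type} [Group G] [Finite G] (f : Γ →* G),
    (∃ F : IntermediateField ℚ Qb, FiniteDimensional ℚ F ∧ F.fixingSubgroup ≤ f.ker) →
    (∀ t ∈ A.inertiaSubgroupIn ℚ, ∃ k : ℕ, f t ^ p ^ k = 1) → f φ * f τ * (f φ)⁻¹ = f τ ^ ℓ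
  /-- inertia is generated by `τ` -/
  zpow : ∀ {G : Type} [Group G] [Finite G] (f : Γ →* G),
    (∃ F : IntermediateField ℚ Qb, FiniteDimensional ℚ F ∧ F.fixingSubgroup ≤ f.ker) →
    (∀ t ∈ A.inertiaSubgroupIn ℚ, ∃ k : ℕ, f t ^ p ^ k = 1) →
    ∀ t ∈ A.inertiaSubgroupIn ℚ, f t ∈ Subgroup.zpowers (f τ)
  /-- the decomposition group is generated by `φ` and `τ` -/
  gen : ∀ {G : Type} [Group G] [Finite G] (f : Γ →* G),
    (∃ F : IntermediateField ℚ Qb, FiniteDimensional ℚ F ∧ F.fixingSubgroup ≤ f.ker) →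
    (∀ t ∈ A.inertiaSubgroupIn ℚ, ∃ k : ℕ, f t ^ p ^ k = 1) →
    ∀ σ ∈ A.decompositionSubgroup ℚ, f σ ∈ Subgroup.closure {f φ, f τ}

theorem exists_tamePair {p ℓ : ℕ} [Fact p.Prime] (hℓ : ℓ.Prime) (hℓp : ℓ ≠ p)
    {A : ValuationSubring Qb} (hA : A.LiesOverPrime ℓ) : ∃ φ τ : Γ, TamePair p ℓ A φ τ := by
  have : Fact ℓ.Prime := ⟨hℓ⟩
  have hp0 : p ≠ 0 := (Fact.out : p.Prime).ne_zero
  have : NeZero p := ⟨hp0⟩
  obtain ⟨ζ, hζ⟩ := HasEnoughRootsOfUnity.exists_primitiveRoot Qb p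
  obtain ⟨g, rfl⟩ := exists_eq_smul_padicPlace ℓ hA
  obtain ⟨φ, hφ⟩ := exists_frobenius_loc ℓ
  obtain ⟨Q, hQ⟩ := IsAlgClosed.exists_pow_nat_eq (ℓ : Qb) (n := p) (Fact.out : p.Prime).pos
  obtain ⟨τ, hτ, hτQ⟩ := exists_inertia_kummer_ne_zero hζ hℓ hA (inertUnif hℓ hA) hQ
  have hfrob := isFrobeniusAt_rg ℓ g hφ
  have hdec : rg ℓ g φ ∈ (g • padicPlace ℓ).decompositionSubgroup ℚ := rg_mem_decomposition ℓ g φ
  have hconj : ∀ d ∈ (g • padicPlace ℓ).decompositionSubgroup ℚ,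
      ∀ t ∈ (g • padicPlace ℓ).inertiaSubgroupIn ℚ,
      d * t * d⁻¹ ∈ (g • padicPlace ℓ).inertiaSubgroupIn ℚ := by
    intro d hd t ht
    rw [Frob.mem_inertiaSubgroupIn_iff] at ht ⊢
    refine ⟨mul_mem (mul_mem hd ht.1) (inv_mem hd), fun x hx => ?_⟩
    have hx' : d⁻¹ x ∈ g • padicPlace ℓ := (Frob.apply_mem_iff (inv_mem hd)).2 hx
    have h1 := ht.2 _ hx'
    have h2 := (Frob.apply_mem_nonunits_iff hd).2 h1
    have h3 : d (t (d⁻¹ x) - d⁻¹ x) = (d * t * d⁻¹) x - x := by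
      rw [map_sub]
      congr 1
      exact smul_inv_smul d x
    rwa [h3] at h2
  -- restriction to inertia
  have hres : ∀ {G : Type} [Group G] [Finite G] (f : Γ →* G),
      (∃ F : IntermediateField ℚ Qb, FiniteDimensional ℚ F ∧ F.fixingSubgroup ≤ f.ker) →
      (∀ t ∈ (g • padicPlace ℓ).inertiaSubgroupIn ℚ, ∃ k : ℕ, f t ^ p ^ k = 1) →
      ∀ t ∈ (g • padicPlace ℓ).inertiaSubgroupIn ℚ, f t ∈ Subgroup.zpowers (f τ) := by
    intro G _ _ f ⟨F, hF, hFf⟩ hp t ht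
    exact mem_zpowers_of_inertia hζ hℓ hℓp hA hQ hτ hτQ
      (f.comp ((g • padicPlace ℓ).inertiaSubgroupIn ℚ).subtype)
      ⟨F, hF, fun t ht => hFf ht⟩ (fun t => hp t t.2) ⟨t, ht⟩
  refine ⟨rg ℓ g φ, τ, hfrob, hτ, ?_, hres, ?_⟩
  · intro G _ _ f ⟨F, hF, hFf⟩ hp
    have := tame_relation hζ hℓ hℓp hA hQ hτ hτQ hfrob (hconj _ hdec _ hτ)
      (f.comp ((g • padicPlace ℓ).inertiaSubgroupIn ℚ).subtype)
      ⟨F, hF, fun t ht => hFf ht⟩ (fun t => hp t t.2)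
    rw [← map_inv, ← map_mul, ← map_mul]
    exact this
  · intro G _ _ f hf hp σ hσ
    obtain ⟨F, hF, hFf⟩ := hf
    obtain ⟨i, h, hh, t, ht, rfl⟩ := exists_frob_pow_mul ℓ g hφ hσ F
    rw [map_mul, map_mul, map_pow, show f h = 1 from hFf hh, mul_one]
    refine mul_mem (pow_mem (Subgroup.subset_closure (by simp)) i) ?_
    obtain ⟨k, hk⟩ := hres f ⟨F, hF, hFf⟩ hp t ht
    have hk' : f τ ^ k = f t := hk
    rw [← hk']
    exact zpow_mem (Subgroup.subset_closure (by simp)) k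

end Fermat.Agent.Patch
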