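import Mathlib
import Fermat.Agent.DefRing.PowerSeriesComplete

/-!
# Evaluation of power series at topologically nilpotent elements of complete local rings
-/

set_option autoImplicit false

namespace Fermat.Agent.Patch

open IsLocalRing MvPowerSeries

/-- Evaluation of multivariate power series over a local ring `A` at elements of the maximal ideal
of a complete local `A`-algebra. -/
theorem exists_eval {A R : Type*} [CommRing A] [IsLocalRing A] [CommRing R] [IsLocalRing R]
    [IsAdicComplete (maximalIdeal R) R] [Algebra A R] [IsLocalHom (algebraMap A R)]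
    {σ : Type*} [Finite σ] (x : σ → R) (hx : ∀ i, x i ∈ maximalIdeal R) :
    ∃ γ : MvPowerSeries σ A →ₐ[A] R, (∀ i, γ (X i) = x i) ∧
      ∀ s ∈ maximalIdeal (MvPowerSeries σ A), γ s ∈ maximalIdeal R := by
  classical
  set ψ : MvPolynomial σ A →ₐ[A] R := MvPolynomial.aeval x with hψ
  have hvars : ∀ n, (MvPolynomial.idealOfVars σ A) ^ n ≤ (maximalIdeal R ^ n).comap ψ := by
    intro n
    have h1 : MvPolynomial.idealOfVars σ A ≤ (maximalIdeal R).comap ψ := by
      rw [MvPolynomial.idealOfVars, Ideal.span_le]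
      rintro _ ⟨i, rfl⟩
      show ψ (MvPolynomial.X i) ∈ maximalIdeal R
      rw [hψ, MvPolynomial.aeval_X]
      exact hx i
    calc (MvPolynomial.idealOfVars σ A) ^ n ≤ ((maximalIdeal R).comap ψ) ^ n :=
          Ideal.pow_right_mono h1 n
      _ ≤ (maximalIdeal R ^ n).comap ψ := Ideal.le_comap_pow ψ n
  let S := MvPowerSeries σ A
  let π : ∀ n, S →ₐ[A] R ⧸ maximalIdeal R ^ n := fun n =>
    (Ideal.quotientMapₐ (maximalIdeal R ^ n) ψ (hvars n)).comp
      ((truncTotalAlgHom σ A n).restrictScalars A)
  have hπ : ∀ n s, π n s = Ideal.Quotient.mk (maximalIdeal R ^ n) (ψ (truncTotal n s)) :=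
    fun n s => rfl
  have hcompat : ∀ {m n : ℕ} (hmn : m ≤ n),
      (Ideal.Quotient.factorₐ A (Ideal.pow_le_pow_right hmn)).comp (π n) = π m := by
    intro m n hmn
    ext s
    simp only [AlgHom.comp_apply]
    rw [hπ, hπ]
    show Ideal.Quotient.mk (maximalIdeal R ^ m) (ψ (truncTotal n s)) = _
    rw [Ideal.Quotient.eq, ← map_sub, ← Ideal.mem_comap]
    apply hvars m
    have h2 := truncTotal_sub_truncTotal_mem_pow_idealOfVars (le_refl m) hmn s
    rw [← neg_mem_iff]
    simpa using h2
  let γ : S →ₐ[A] R := IsAdicComplete.liftAlgHom (R := A) (maximalIdeal R) π hcompat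
  have hγ : ∀ n s, Ideal.Quotient.mk (maximalIdeal R ^ n) (γ s) = π n s := fun n s =>
    IsAdicComplete.mk_liftAlgHom _ _ hcompat n s
  have heq : ∀ a b : R, (∀ n, Ideal.Quotient.mk (maximalIdeal R ^ n) a =
      Ideal.Quotient.mk (maximalIdeal R ^ n) b) → a = b := by
    intro a b h
    rw [← sub_eq_zero]
    refine IsHausdorff.haus (I := maximalIdeal R) inferInstance _ (fun n => ?_)
    rw [SModEq.zero, smul_eq_mul, Ideal.mul_top, ← Ideal.Quotient.eq]
    exact h n
  have hγq : ∀ q : MvPolynomial σ A, γ (q : MvPowerSeries σ A) = ψ q := by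
    intro q
    apply heq
    intro n
    rw [hγ, hπ, Ideal.Quotient.eq, ← map_sub, ← Ideal.mem_comap]
    apply hvars n
    rw [MvPolynomial.mem_pow_idealOfVars_iff']
    intro e he
    rw [MvPolynomial.coeff_sub, coeff_truncTotal _ he, MvPolynomial.coeff_coe, sub_self]
  have hγX : ∀ i, γ (X i) = x i := by
    intro i
    have h1 := hγq (MvPolynomial.X i)
    rw [MvPolynomial.coe_X] at h1
    rw [h1, hψ, MvPolynomial.aeval_X]
  have hγC : ∀ c : A, γ (C c) = algebraMap A R c := by
    intro c
    exact γ.commutes c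
  refine ⟨γ, hγX, ?_⟩
  intro s hs
  have hc : constantCoeff s ∈ maximalIdeal A := by
    rw [mem_maximalIdeal, mem_nonunits_iff] at hs ⊢
    rw [isUnit_iff_constantCoeff] at hs
    exact hs
  have h1 : γ s = γ (C (constantCoeff s)) + γ (s - C (constantCoeff s)) := by
    rw [← map_add]; congr 1; ring
  rw [h1, hγC]
  refine Ideal.add_mem _ (map_nonunit (algebraMap A R) _ hc) ?_
  have h2 := hγ 1 (s - C (constantCoeff s))
  have h3 : truncTotal 1 (s - C (constantCoeff s)) = 0 := by
    ext e
    rw [coeff_truncTotal_eq_ite]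
    split_ifs with he
    · have : e = 0 := (Finsupp.degree_eq_zero_iff e).mp (by omega)
      subst this
      simp
    · simp
  rw [hπ, h3, map_zero, map_zero, Ideal.Quotient.eq_zero_iff_mem, pow_one] at h2
  exact h2

end Fermat.Agent.Patch
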