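import Mathlib

/-!
# The ideal of `2 × 2` minors of a generic `2 × 3` matrix is toric
-/

set_option autoImplicit false

namespace Fermat.Agent.Patch

open MvPolynomial Finsupp

section

variable (C : Type*) [CommRing C]

/-- The ideal of `2 × 2` minors of the generic `2 × 3` matrix. -/
noncomputable def minorsIdeal : Ideal (MvPolynomial (Bool × Fin 3) C) :=
  Ideal.span (Set.range fun p : Fin 3 × Fin 3 =>
    (X (false, p.1) * X (true, p.2) - X (false, p.2) * X (true, p.1) :
      MvPolynomial (Bool × Fin 3) C))

/-- exponent map of the toric parametrisation -/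
noncomputable def kexp (m : Bool × Fin 3 →₀ ℕ) : Fin 3 ⊕ Bool →₀ ℕ :=
  Finsupp.equivFunOnFinite.symm
    (Sum.elim (fun i => m (false, i) + m (true, i)) (fun b => ∑ i, m (b, i)))

theorem kexp_inl (m : Bool × Fin 3 →₀ ℕ) (i : Fin 3) :
    kexp m (Sum.inl i) = m (false, i) + m (true, i) := rfl

theorem kexp_inr (m : Bool × Fin 3 →₀ ℕ) (b : Bool) :
    kexp m (Sum.inr b) = ∑ i, m (b, i) := rfl

theorem kexp_add (m m' : Bool × Fin 3 →₀ ℕ) : kexp (m + m') = kexp m + kexp m' := by
  ext x
  rcases x with i | b
  · simp only [Finsupp.add_apply, kexp_inl]; ring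
  · simp only [Finsupp.add_apply, kexp_inr, Finset.sum_add_distrib]

theorem kexp_zero : kexp 0 = 0 := by
  ext x
  rcases x with i | b
  · simp [kexp_inl]
  · simp [kexp_inr]

/-- toric parametrisation -/
noncomputable def kap : MvPolynomial (Bool × Fin 3) C →ₐ[C] MvPolynomial (Fin 3 ⊕ Bool) C :=
  aeval fun p => X (Sum.inr p.1) * X (Sum.inl p.2)

theorem kap_X (p : Bool × Fin 3) : kap C (X p) = X (Sum.inr p.1) * X (Sum.inl p.2) := by
  simp [kap]

theorem kexp_single (p : Bool × Fin 3) :
    kexp (Finsupp.single p 1) = Finsupp.single (Sum.inr p.1) 1 + Finsupp.single (Sum.inl p.2) 1 := by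
  obtain ⟨b, i⟩ := p
  ext x
  rcases x with j | b'
  · rw [kexp_inl, Finsupp.add_apply]
    cases b
    · by_cases h : i = j
      · subst h; simp
      · simp [h]
    · by_cases h : i = j
      · subst h; simp
      · simp [h]
  · rw [kexp_inr, Finsupp.add_apply]
    by_cases h : b = b'
    · subst h
      simp [Finsupp.single_apply]
    · simp [h]

/-- `kexp` as an additive map -/
noncomputable def kexpHom : (Bool × Fin 3 →₀ ℕ) →+ (Fin 3 ⊕ Bool →₀ ℕ) where
  toFun := kexp
  map_zero' := kexp_zero
  map_add' := kexp_add

theorem kap_monomial_one (m : Bool × Fin 3 →₀ ℕ) :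
    kap C (monomial m 1) = monomial (kexp m) 1 := by
  induction m using Finsupp.induction_linear with
  | zero =>
    rw [kexp_zero]
    exact (kap C).commutes 1
  | add f g hf hg =>
    rw [kexp_add, show (monomial (f + g) (1 : C)) = monomial f 1 * monomial g 1 by
      rw [monomial_mul, one_mul], map_mul, hf, hg, monomial_mul, one_mul]
  | single p n =>
    have h1 : kexp (Finsupp.single p n) = n • kexp (Finsupp.single p 1) := by
      have := kexpHom.map_nsmul n (Finsupp.single p 1)
      rw [Finsupp.smul_single, smul_eq_mul, mul_one] at this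
      exact this
    rw [h1, kexp_single, ← X_pow_eq_monomial, map_pow, kap_X]
    have h2 : (monomial (Finsupp.single (Sum.inr p.1) 1 + Finsupp.single (Sum.inl p.2) 1) (1 : C)
        : MvPolynomial (Fin 3 ⊕ Bool) C) = X (Sum.inr p.1) * X (Sum.inl p.2) := by
      rw [X, X, monomial_mul, one_mul]
    rw [← h2, monomial_pow, one_pow]

theorem kap_monomial (m : Bool × Fin 3 →₀ ℕ) (c : C) :
    kap C (monomial m c) = monomial (kexp m) c := by
  rw [← mul_one c, ← smul_eq_mul, ← smul_monomial, map_smul, kap_monomial_one, smul_monomial]

/-- one move -/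
theorem move_mem (r : Bool × Fin 3 →₀ ℕ) (i j : Fin 3) :
    (monomial (r + Finsupp.single (false, i) 1 + Finsupp.single (true, j) 1) (1 : C) -
      monomial (r + Finsupp.single (false, j) 1 + Finsupp.single (true, i) 1) (1 : C)) ∈
      minorsIdeal C := by
  have h : (monomial (r + Finsupp.single (false, i) 1 + Finsupp.single (true, j) 1) (1 : C) -
      monomial (r + Finsupp.single (false, j) 1 + Finsupp.single (true, i) 1) (1 : C)) =
      monomial r 1 * (X (false, i) * X (true, j) - X (false, j) * X (true, i)) := by
    simp only [X, mul_sub, monomial_mul, mul_one, add_assoc]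
  rw [h]
  exact Ideal.mul_mem_left _ _ (Ideal.subset_span ⟨(i, j), rfl⟩)

theorem monomial_sub_mem (n : ℕ) : ∀ m m' : Bool × Fin 3 →₀ ℕ, kexp m = kexp m' →
    ∑ i, (m (false, i) - m' (false, i)) = n →
    (monomial m (1 : C) - monomial m' 1) ∈ minorsIdeal C := by
  induction n with
  | zero =>
    intro m m' hk hn
    have h1 : ∀ i, m (false, i) ≤ m' (false, i) := by
      intro i
      have := (Finset.sum_eq_zero_iff.mp hn) i (Finset.mem_univ i)
      omega
    have h2 : ∑ i, m (false, i) = ∑ i, m' (false, i) := by
      have := DFunLike.congr_fun hk (Sum.inr false)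
      simpa only [kexp_inr] using this
    have h3 : ∀ i, m (false, i) = m' (false, i) := by
      intro i
      exact (Finset.sum_eq_sum_iff_of_le (fun i _ => h1 i)).mp h2 i (Finset.mem_univ i)
    have h4 : m = m' := by
      ext ⟨b, i⟩
      cases b
      · exact h3 i
      · have := DFunLike.congr_fun hk (Sum.inl i)
        simp only [kexp_inl] at this
        have := h3 i
        omega
    rw [h4, sub_self]
    exact Ideal.zero_mem _
  | succ n ih =>
    intro m m' hk hn
    obtain ⟨i, -, hi⟩ : ∃ i ∈ (Finset.univ : Finset (Fin 3)),
        m (false, i) - m' (false, i) ≠ 0 := by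
      by_contra hcon
      push Not at hcon
      rw [Finset.sum_eq_zero hcon] at hn
      omega
    have h2 : ∑ i, m (false, i) = ∑ i, m' (false, i) := by
      have := DFunLike.congr_fun hk (Sum.inr false)
      simpa only [kexp_inr] using this
    obtain ⟨j, hj⟩ : ∃ j, m (false, j) < m' (false, j) := by
      by_contra hcon
      push Not at hcon
      have := (Finset.sum_eq_sum_iff_of_le (fun i _ => hcon i)).mp h2.symm i (Finset.mem_univ i)
      omega
    have hij : i ≠ j := by rintro rfl; omega
    have h5 : m (false, j) + m (true, j) = m' (false, j) + m' (true, j) := by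
      have := DFunLike.congr_fun hk (Sum.inl j)
      simpa only [kexp_inl] using this
    set r : Bool × Fin 3 →₀ ℕ :=
      m - Finsupp.single (false, i) 1 - Finsupp.single (true, j) 1 with hr
    have hm : m = r + Finsupp.single (false, i) 1 + Finsupp.single (true, j) 1 := by
      ext x
      simp only [hr, Finsupp.add_apply, Finsupp.tsub_apply]
      by_cases hx1 : x = (false, i)
      · subst hx1
        have : ((true, j) : Bool × Fin 3) ≠ (false, i) := by simp
        rw [Finsupp.single_eq_same, Finsupp.single_eq_of_ne (Ne.symm this)]
        omega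
      · by_cases hx2 : x = (true, j)
        · subst hx2
          rw [Finsupp.single_eq_same, Finsupp.single_eq_of_ne hx1]
          omega
        · rw [Finsupp.single_eq_of_ne hx1, Finsupp.single_eq_of_ne hx2]
          omega
    set m'' : Bool × Fin 3 →₀ ℕ :=
      r + Finsupp.single (false, j) 1 + Finsupp.single (true, i) 1 with hm''
    have h6 : kexp m'' = kexp m := by
      rw [hm, hm'', kexp_add, kexp_add, kexp_add, kexp_add, kexp_single, kexp_single, kexp_single,
        kexp_single]
      simp only
      abel
    have h7 : (monomial m (1 : C) - monomial m'' 1) ∈ minorsIdeal C := by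
      have h := move_mem C r i j
      rw [← hm] at h
      exact h
    have h8 : ∑ k, (m'' (false, k) - m' (false, k)) = n := by
      have hval : ∀ k, m'' (false, k) =
          if k = j then m (false, k) + 1 else if k = i then m (false, k) - 1 else m (false, k) := by
        intro k
        have hmk := DFunLike.congr_fun hm (false, k)
        simp only [Finsupp.add_apply] at hmk
        simp only [hm'', Finsupp.add_apply]
        have ht : ∀ l : Fin 3, (Finsupp.single ((true, l) : Bool × Fin 3) 1) (false, k) = 0 := by
          intro l
          rw [Finsupp.single_eq_of_ne]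
          simp
        rw [ht] at hmk ⊢
        by_cases hkj : k = j
        · subst hkj
          rw [if_pos rfl, Finsupp.single_eq_same]
          rw [Finsupp.single_eq_of_ne (by simpa using hij.symm)] at hmk
          omega
        · rw [if_neg hkj]
          rw [Finsupp.single_eq_of_ne (by simpa using hkj)]
          by_cases hki : k = i
          · subst hki
            rw [if_pos rfl]
            rw [Finsupp.single_eq_same] at hmk
            omega
          · rw [if_neg hki]
            rw [Finsupp.single_eq_of_ne (by simpa using hki)] at hmk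
            omega
      have hsum : ∑ k, (m'' (false, k) - m' (false, k)) + 1 =
          ∑ k, (m (false, k) - m' (false, k)) := by
        rw [← Finset.add_sum_erase _ _ (Finset.mem_univ i),
          ← Finset.add_sum_erase Finset.univ (fun k => m (false, k) - m' (false, k))
            (Finset.mem_univ i)]
        have h9 : ∑ x ∈ Finset.univ.erase i, (m'' (false, x) - m' (false, x)) =
            ∑ x ∈ Finset.univ.erase i, (m (false, x) - m' (false, x)) := by
          apply Finset.sum_congr rfl
          intro x hx
          have hxi : x ≠ i := Finset.ne_of_mem_erase hx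
          rw [hval x, if_neg hxi]
          by_cases hxj : x = j
          · subst hxj
            rw [if_pos rfl]
            omega
          · rw [if_neg hxj]
        rw [h9, hval i, if_neg hij, if_pos rfl]
        omega
      omega
    have h10 := ih m'' m' (h6.trans hk) h8
    have := Ideal.add_mem _ h7 h10
    simpa using this

/-- representative exponents -/
noncomputable def repExp (e : Fin 3 ⊕ Bool →₀ ℕ) : Bool × Fin 3 →₀ ℕ :=
  Function.invFun kexp e

theorem kexp_repExp (m : Bool × Fin 3 →₀ ℕ) : kexp (repExp (kexp m)) = kexp m :=
  Function.invFun_eq ⟨m, rfl⟩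

/-- linear section -/
noncomputable def secL : MvPolynomial (Fin 3 ⊕ Bool) C →ₗ[C] MvPolynomial (Bool × Fin 3) C :=
  (basisMonomials (Fin 3 ⊕ Bool) C).constr C (fun e => monomial (repExp e) (1 : C))

theorem secL_monomial (e : Fin 3 ⊕ Bool →₀ ℕ) :
    secL C (monomial e 1) = monomial (repExp e) 1 := by
  have := (basisMonomials (Fin 3 ⊕ Bool) C).constr_basis C
    (fun e => (monomial (repExp e) (1 : C) : MvPolynomial (Bool × Fin 3) C)) e
  rw [coe_basisMonomials] at this
  exact this

theorem sub_secL_mem (g : MvPolynomial (Bool × Fin 3) C) :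
    g - secL C (kap C g) ∈ minorsIdeal C := by
  induction g using MvPolynomial.induction_on' with
  | monomial m c =>
    rw [kap_monomial, ← mul_one c, ← smul_eq_mul, ← smul_monomial, ← smul_monomial, map_smul,
      secL_monomial, ← smul_sub, smul_eq_C_mul]
    refine Ideal.mul_mem_left _ _ ?_
    exact monomial_sub_mem C _ m _ (kexp_repExp m).symm rfl
  | add p q hp hq =>
    have := Ideal.add_mem _ hp hq
    rw [map_add, map_add]
    convert this using 1
    ring

theorem mem_minorsIdeal_of_kap_eq_zero (g : MvPolynomial (Bool × Fin 3) C)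
    (hg : kap C g = 0) : g ∈ minorsIdeal C := by
  have := sub_secL_mem C g
  rwa [hg, map_zero, sub_zero] at this

end

end Fermat.Agent.Patch
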