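import Mathlib
import Fermat.Agent.Patch.Toric

/-!
# The kernel of the polynomial parametrisation
-/

set_option autoImplicit false

namespace Fermat.Agent.Patch

open MvPolynomial

section Regular

variable {C σ : Type*} [CommRing C] [DecidableEq σ]

theorem isRegular_of_ringEquiv {R S : Type*} [CommRing R] [CommRing S] (e : R ≃+* S) {x : R}
    (h : IsRegular (e x)) : IsRegular x := by
  rw [isRegular_iff] at h ⊢
  constructor
  · intro a b hab
    apply e.injective
    apply h.1
    simp only at hab ⊢
    rw [← map_mul, ← map_mul, hab]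
  · intro a b hab
    apply e.injective
    apply h.2
    simp only at hab ⊢
    rw [← map_mul, ← map_mul, hab]

theorem optionEquivLeft_rename_some {τ : Type*} (p : MvPolynomial τ C) :
    optionEquivLeft C τ (rename some p) = Polynomial.C p := by
  have h : ((optionEquivLeft C τ).toAlgHom.comp (rename some)) =
      (Algebra.ofId (MvPolynomial τ C) (Polynomial (MvPolynomial τ C))).restrictScalars C := by
    ext j
    simp [Algebra.ofId_apply]
  have := DFunLike.congr_fun h p
  simpa [Algebra.ofId_apply] using this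

theorem isRegular_X_sq_add (i : σ) (p : MvPolynomial {b // b ≠ i} C) :
    IsRegular ((X i) ^ 2 + rename Subtype.val p : MvPolynomial σ C) := by
  let e : Option {b // b ≠ i} ≃ σ := Equiv.optionSubtypeNe i
  have he1 : e.symm i = none := by simp [e]
  have he2 : (e.symm ∘ Subtype.val : {b // b ≠ i} → Option {b // b ≠ i}) = some := by
    funext b
    simp [e, b.2]
  apply isRegular_of_ringEquiv (renameEquiv C e.symm).toRingEquiv
  apply isRegular_of_ringEquiv (optionEquivLeft C {b // b ≠ i}).toRingEquiv
  have h1 : (renameEquiv C e.symm).toRingEquiv ((X i) ^ 2 + rename Subtype.val p) =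
      X none ^ 2 + rename some p := by
    show rename e.symm ((X i) ^ 2 + rename Subtype.val p) = _
    rw [map_add, map_pow, rename_X, he1, rename_rename, he2]
  rw [h1]
  have h2 : (optionEquivLeft C {b // b ≠ i}).toRingEquiv (X none ^ 2 + rename some p) =
      Polynomial.X ^ 2 + Polynomial.C p := by
    show optionEquivLeft C {b // b ≠ i} (X none ^ 2 + rename some p) = _
    rw [map_add, map_pow, optionEquivLeft_X_none, optionEquivLeft_rename_some]
  rw [h2]
  exact (Polynomial.monic_X_pow_add_C _ two_ne_zero).isRegular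

end Regular

section

variable (C : Type*) [CommRing C]

/-- index type of the variables `δ, f_i, s_i` -/
abbrev GV := Option (Bool × Fin 3)

/-- relations ideal in the polynomial ring -/
noncomputable def relIdeal : Ideal (MvPolynomial GV C) :=
  Ideal.span (Set.range (fun p : Fin 3 × Fin 3 =>
    (X (some (false, p.1)) * X (some (true, p.2)) - X (some (false, p.2)) * X (some (true, p.1)) :
      MvPolynomial GV C)) ∪
    {X (some (true, 0)) ^ 2 + X (some (true, 1)) * X (some (true, 2)) - X none ^ 2})

/-- the point of the quadric -/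
noncomputable def xpt {E : Type*} [CommRing E] (v z : E) : Fin 3 → E :=
  ![1 + v * z, -(v * (v * z + 2)), z]

theorem xpt_quad {E : Type*} [CommRing E] (v z : E) :
    xpt v z 0 ^ 2 + xpt v z 1 * xpt v z 2 = 1 := by
  simp [xpt]; ring

/-- parametrisation: variables `v = X 0`, `z = X 1`, `w = X 2`, `δ = X 3`. -/
noncomputable def gam : MvPolynomial GV C →ₐ[C] MvPolynomial (Fin 4) C :=
  aeval fun o => match o with
    | none => X 3
    | some (false, i) => X 2 * xpt (X 0) (X 1) i
    | some (true, i) => X 3 * xpt (X 0) (X 1) i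

/-- quadric -/
noncomputable def qT : MvPolynomial (Fin 3 ⊕ Bool) C :=
  X (Sum.inr true) ^ 2 * (X (Sum.inl 0) ^ 2 + X (Sum.inl 1) * X (Sum.inl 2))

theorem isRegular_qT : IsRegular (qT C) := by
  have h := isRegular_X_sq_add (C := C) (Sum.inl 0 : Fin 3 ⊕ Bool)
    (X ⟨Sum.inl 1, by simp⟩ * X ⟨Sum.inl 2, by simp⟩)
  rw [map_mul, rename_X, rename_X] at h
  exact (isRegular_X_pow 2).mul h

/-- the quadratic extension -/
abbrev TT := AdjoinRoot (Polynomial.X ^ 2 - Polynomial.C (qT C))

theorem monic_pol : (Polynomial.X ^ 2 - Polynomial.C (qT C)).Monic :=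
  Polynomial.monic_X_pow_sub_C _ two_ne_zero

theorem root_sq : (AdjoinRoot.root (Polynomial.X ^ 2 - Polynomial.C (qT C))) ^ 2 =
    AdjoinRoot.of _ (qT C) := by
  have := AdjoinRoot.eval₂_root (Polynomial.X ^ 2 - Polynomial.C (qT C))
  simpa [sub_eq_zero] using this

theorem of_qT (P : Polynomial (MvPolynomial (Fin 3 ⊕ Bool) C)) :
    AdjoinRoot.of P (qT C) = AdjoinRoot.of P (X (Sum.inr true)) ^ 2 *
      (AdjoinRoot.of P (X (Sum.inl 0)) ^ 2 +
        AdjoinRoot.of P (X (Sum.inl 1)) * AdjoinRoot.of P (X (Sum.inl 2))) := by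
  simp [qT]

theorem lin_eq_zero (a b : MvPolynomial (Fin 3 ⊕ Bool) C)
    (h : AdjoinRoot.of (Polynomial.X ^ 2 - Polynomial.C (qT C)) a +
      AdjoinRoot.of _ b * AdjoinRoot.root _ = 0) : a = 0 ∧ b = 0 := by
  have h1 : AdjoinRoot.mk (Polynomial.X ^ 2 - Polynomial.C (qT C))
      (Polynomial.C a + Polynomial.C b * Polynomial.X) = 0 := by
    rw [map_add, map_mul, AdjoinRoot.mk_C, AdjoinRoot.mk_C, AdjoinRoot.mk_X]
    exact h
  rcases subsingleton_or_nontrivial (MvPolynomial (Fin 3 ⊕ Bool) C) with hs | hn
  · exact ⟨Subsingleton.elim _ _, Subsingleton.elim _ _⟩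
  have h2 : Polynomial.C a + Polynomial.C b * Polynomial.X = 0 := by
    by_contra hne
    refine AdjoinRoot.mk_ne_zero_of_degree_lt (monic_pol C) hne ?_ h1
    rw [Polynomial.degree_X_pow_sub_C two_pos, add_comm]
    exact lt_of_le_of_lt Polynomial.degree_linear_le (by norm_num)
  have h3 := congrArg (fun p => Polynomial.coeff p 0) h2
  have h4 := congrArg (fun p => Polynomial.coeff p 1) h2
  simp at h3 h4
  exact ⟨h3, h4⟩

/-- decomposition of every element of the quadratic extension -/
theorem exists_lin (x : TT C) : ∃ a b : MvPolynomial (Fin 3 ⊕ Bool) C,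
    x = AdjoinRoot.of _ a + AdjoinRoot.of _ b * AdjoinRoot.root _ := by
  induction x using AdjoinRoot.induction_on with
  | ih p =>
    induction p using Polynomial.induction_on' with
    | add p q hp hq =>
      obtain ⟨a, b, h⟩ := hp
      obtain ⟨a', b', h'⟩ := hq
      refine ⟨a + a', b + b', ?_⟩
      rw [map_add, h, h', map_add, map_add]; ring
    | monomial n c =>
      induction n with
      | zero => exact ⟨c, 0, by simp⟩
      | succ n ih =>
        obtain ⟨a, b, h⟩ := ih
        refine ⟨b * qT C, a, ?_⟩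
        have h1 : Polynomial.monomial (n + 1) c = Polynomial.monomial n c * Polynomial.X := by
          rw [Polynomial.monomial_mul_X]
        rw [h1, map_mul, h, AdjoinRoot.mk_X, map_mul, ← root_sq]
        ring

theorem root_regular (x : TT C) (h : AdjoinRoot.root _ * x = 0) : x = 0 := by
  obtain ⟨a, b, rfl⟩ := exists_lin C x
  have h1 : AdjoinRoot.of (Polynomial.X ^ 2 - Polynomial.C (qT C)) (b * qT C) +
      AdjoinRoot.of _ a * AdjoinRoot.root _ = 0 := by
    rw [map_mul, ← root_sq, ← h]; ring
  obtain ⟨h2, h3⟩ := lin_eq_zero C _ _ h1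
  have h4 : b = 0 := by
    refine (isRegular_qT C).right ?_
    simpa using h2
  rw [h3, h4]; simp

theorem of_regular {t : MvPolynomial (Fin 3 ⊕ Bool) C} (ht : IsRegular t) (x : TT C)
    (h : AdjoinRoot.of _ t * x = 0) : x = 0 := by
  obtain ⟨a, b, rfl⟩ := exists_lin C x
  have h1 : AdjoinRoot.of (Polynomial.X ^ 2 - Polynomial.C (qT C)) (t * a) +
      AdjoinRoot.of _ (t * b) * AdjoinRoot.root _ = 0 := by
    rw [map_mul, map_mul, ← h]; ring
  obtain ⟨h2, h3⟩ := lin_eq_zero C _ _ h1
  have h4 : a = 0 := ht.left (by simpa using h2)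
  have h5 : b = 0 := ht.left (by simpa using h3)
  rw [h4, h5]; simp

/-- toric parametrisation with `δ ↦ root` -/
noncomputable def eta : MvPolynomial GV C →ₐ[C] TT C :=
  aeval fun o => match o with
    | none => AdjoinRoot.root _
    | some p => AdjoinRoot.of _ (X (Sum.inr p.1) * X (Sum.inl p.2))

theorem eta_rename (g : MvPolynomial (Bool × Fin 3) C) :
    eta C (rename some g) = AdjoinRoot.of _ (kap C g) := by
  have h : (eta C).comp (rename some) = (IsScalarTower.toAlgHom C _ (TT C)).comp (kap C) := by
    ext p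
    simp [eta, kap_X]
  exact DFunLike.congr_fun h g

theorem exists_decomp (G : MvPolynomial GV C) :
    ∃ g₀ g₁ : MvPolynomial (Bool × Fin 3) C,
      G - (rename some g₀ + rename some g₁ * X none) ∈ relIdeal C := by
  induction G using MvPolynomial.induction_on with
  | C a => exact ⟨MvPolynomial.C a, 0, by simp⟩
  | add p q hp hq =>
    obtain ⟨a, b, h⟩ := hp
    obtain ⟨a', b', h'⟩ := hq
    refine ⟨a + a', b + b', ?_⟩
    have := Ideal.add_mem _ h h'
    rw [map_add, map_add]
    convert this using 1
    ring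
  | mul_X p o hp =>
    obtain ⟨a, b, h⟩ := hp
    rcases o with _ | j
    · refine ⟨b * (X (true, 0) ^ 2 + X (true, 1) * X (true, 2)), a, ?_⟩
      have h1 : (X (some (true, 0)) ^ 2 + X (some (true, 1)) * X (some (true, 2)) - X none ^ 2 :
          MvPolynomial GV C) ∈ relIdeal C := Ideal.subset_span (Or.inr rfl)
      have h2 := Ideal.sub_mem _ (Ideal.mul_mem_right (X none) _ h)
        (Ideal.mul_mem_left _ (rename some b) h1)
      rw [map_mul, map_add, map_pow, map_mul, rename_X, rename_X, rename_X]
      convert h2 using 1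
      ring
    · refine ⟨a * X j, b * X j, ?_⟩
      have h2 := Ideal.mul_mem_right (X (some j)) _ h
      rw [map_mul, map_mul, rename_X]
      convert h2 using 1
      ring

theorem rename_minorsIdeal_le (g : MvPolynomial (Bool × Fin 3) C) (hg : g ∈ minorsIdeal C) :
    (rename some g : MvPolynomial GV C) ∈ relIdeal C := by
  have h : minorsIdeal C ≤ (relIdeal C).comap (rename some : _ →ₐ[C] MvPolynomial GV C) := by
    rw [minorsIdeal, Ideal.span_le]
    rintro _ ⟨⟨i, j⟩, rfl⟩
    show rename some _ ∈ relIdeal C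
    simp only [map_sub, map_mul, rename_X]
    exact Ideal.subset_span (Or.inl ⟨(i, j), rfl⟩)
  exact h hg

theorem mem_relIdeal_of_eta_eq_zero (G : MvPolynomial GV C) (hG : eta C G = 0) :
    G ∈ relIdeal C := by
  obtain ⟨g₀, g₁, h⟩ := exists_decomp C G
  have hle : relIdeal C ≤ RingHom.ker (eta C) := by
    rw [relIdeal, Ideal.span_le]
    rintro x (⟨⟨i, j⟩, rfl⟩ | rfl)
    · show eta C _ = 0
      simp only [eta, map_sub, map_mul, aeval_X]
      ring
    · show eta C _ = 0
      simp only [eta, map_sub, map_add, map_pow, map_mul, aeval_X]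
      rw [root_sq, of_qT]
      ring
  have h1 : eta C (rename some g₀ + rename some g₁ * X none) = 0 := by
    have := hle h
    rw [RingHom.mem_ker, map_sub, hG, zero_sub, neg_eq_zero] at this
    exact this
  rw [map_add, map_mul, eta_rename, eta_rename, show eta C (X none) = AdjoinRoot.root _ by
    simp [eta]] at h1
  obtain ⟨h2, h3⟩ := lin_eq_zero C _ _ h1
  have h4 := rename_minorsIdeal_le C _ (mem_minorsIdeal_of_kap_eq_zero C g₀ h2)
  have h5 := rename_minorsIdeal_le C _ (mem_minorsIdeal_of_kap_eq_zero C g₁ h3)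
  have := Ideal.add_mem _ h (Ideal.add_mem _ h4 (Ideal.mul_mem_right (X none) _ h5))
  simpa using this

theorem exists_beta {M : Type*} [CommRing M] (c : C →+* M) (rt nu mu u : M) (y : Fin 3 → M)
    (hu : rt * (nu * y 2) * u = 1) (hq : rt ^ 2 = nu ^ 2 * (y 0 ^ 2 + y 1 * y 2)) :
    ∃ β : MvPolynomial (Fin 4) C →+* M, ∀ H : MvPolynomial GV C, β (gam C H) =
      eval₂Hom c (fun o : GV => match o with
        | none => rt
        | some (false, i) => mu * y i
        | some (true, i) => nu * y i) H := by
  set a : M := rt * u with ha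
  set b : M := nu * y 2 * u with hb
  have hab : nu * y 2 * a = 1 := by rw [ha, ← hu]; ring
  have hbb : rt * b = 1 := by rw [hb, ← hu]; ring
  let β : MvPolynomial (Fin 4) C →+* M :=
    eval₂Hom c ![(nu * y 0 - rt) * a, nu * y 2 * b, mu * y 2 * rt * a, rt]
  have hβ0 : β (X 0) = (nu * y 0 - rt) * a := by simp [β]
  have hβ1 : β (X 1) = nu * y 2 * b := by simp [β]
  have hβ2 : β (X 2) = mu * y 2 * rt * a := by simp [β]
  have hβ3 : β (X 3) = rt := by simp [β]
  have hβt : β 2 = 2 := map_ofNat β 2
  refine ⟨β, fun H => ?_⟩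
  induction H using MvPolynomial.induction_on with
  | C c' =>
    rw [MvPolynomial.algHom_C]
    simp only [β, MvPolynomial.algebraMap_eq, coe_eval₂Hom, eval₂_C]
  | add p q hp hq => simp only [map_add, hp, hq]
  | mul_X p o hp =>
    rw [map_mul, map_mul, map_mul, hp]
    congr 1
    rcases o with _ | ⟨b', i⟩
    · simp only [gam, aeval_X, coe_eval₂Hom, eval₂_X]
      exact hβ3
    · cases b'
      · simp only [gam, aeval_X, coe_eval₂Hom, eval₂_X]
        rw [map_mul, hβ2]
        fin_cases i
        · simp [xpt, hβ0, hβ1]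
          linear_combination (mu * y 2 * a * (nu * y 0 - rt) * rt * b) * hab +
            (mu * y 2 * a * (nu * y 0 - rt)) * hbb + mu * y 0 * hab
        · simp [xpt, hβ0, hβ1, hβt]
          linear_combination (mu * y 2 * a) * ((-rt * (nu * y 0 - rt) ^ 2 * a * b) * hab -
            (nu * y 0 - rt) ^ 2 * a * hbb + a * hq + nu * y 1 * hab) + mu * y 1 * hab
        · simp [xpt, hβ1]
          linear_combination (mu * y 2 * rt * b) * hab + mu * y 2 * hbb
      · simp only [gam, aeval_X, coe_eval₂Hom, eval₂_X]
        rw [map_mul, hβ3]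
        fin_cases i
        · simp [xpt, hβ0, hβ1]
          linear_combination ((nu * y 0 - rt) * rt * b) * hab +
            ((nu * y 0 - rt)) * hbb
        · simp [xpt, hβ0, hβ1, hβt]
          linear_combination (-rt * (nu * y 0 - rt) ^ 2 * a * b) * hab -
            (nu * y 0 - rt) ^ 2 * a * hbb + a * hq + nu * y 1 * hab
        · simp [xpt, hβ1]
          linear_combination nu * y 2 * hbb

theorem eta_eq_zero_of_gam_eq_zero (G : MvPolynomial GV C) (hG : gam C G = 0) : eta C G = 0 := by
  set P := (Polynomial.X ^ 2 - Polynomial.C (qT C)) with hP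
  set t : TT C := AdjoinRoot.root P * AdjoinRoot.of P (X (Sum.inr true) * X (Sum.inl 2)) with ht
  have hreg : ∀ n : ℕ, ∀ x : TT C, t ^ n * x = 0 → x = 0 := by
    intro n
    induction n with
    | zero => intro x hx; simpa using hx
    | succ n ih =>
      intro x hx
      apply ih
      have h1 : AdjoinRoot.root P *
        (AdjoinRoot.of P (X (Sum.inr true) * X (Sum.inl 2)) * (t ^ n * x)) = 0 := by
        rw [← hx, ht]; ring
      have h2 := root_regular C _ h1
      exact of_regular C (isRegular_X.mul isRegular_X) _ h2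
  let M := Localization.Away t
  let j : TT C →+* M := algebraMap (TT C) M
  have hj : Function.Injective j := by
    rw [injective_iff_map_eq_zero]
    intro x hx
    rw [show j = algebraMap (TT C) M from rfl,
      IsLocalization.map_eq_zero_iff (Submonoid.powers t)] at hx
    obtain ⟨⟨_, n, rfl⟩, hm⟩ := hx
    exact hreg n x hm
  have hunit : IsUnit (j t) := IsLocalization.Away.algebraMap_isUnit t
  obtain ⟨u, hu⟩ := hunit.exists_right_inv
  have hjt : j t = j (AdjoinRoot.root P) * (j (AdjoinRoot.of P (X (Sum.inr true))) *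
      j (AdjoinRoot.of P (X (Sum.inl 2)))) := by
    show j (AdjoinRoot.root P * AdjoinRoot.of P (X (Sum.inr true) * X (Sum.inl 2))) = _
    rw [map_mul (AdjoinRoot.of P), map_mul, map_mul]
  rw [hjt] at hu
  obtain ⟨β, hβ⟩ := exists_beta C (j.comp (algebraMap C (TT C))) (j (AdjoinRoot.root P))
    (j (AdjoinRoot.of P (X (Sum.inr true)))) (j (AdjoinRoot.of P (X (Sum.inr false)))) u
    (fun i => j (AdjoinRoot.of P (X (Sum.inl i))))
    hu
    (by
      rw [← map_pow, root_sq, of_qT]
      simp only [map_mul, map_add, map_pow]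
      rfl)
  have key : (j.comp (eta C : MvPolynomial GV C →+* TT C)) = eval₂Hom (j.comp (algebraMap C (TT C)))
      (fun o : GV => match o with
        | none => (j (AdjoinRoot.root P))
        | some (false, i) => (j (AdjoinRoot.of P (X (Sum.inr false)))) *
            j (AdjoinRoot.of P (X (Sum.inl i)))
        | some (true, i) => (j (AdjoinRoot.of P (X (Sum.inr true)))) *
            j (AdjoinRoot.of P (X (Sum.inl i)))) := by
    apply MvPolynomial.ringHom_ext
    · intro c
      rw [RingHom.comp_apply, coe_eval₂Hom, eval₂_C]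
      show j (eta C (algebraMap C _ c)) = _
      rw [AlgHom.commutes]
      rfl
    · intro o
      rw [RingHom.comp_apply, coe_eval₂Hom, eval₂_X]
      rcases o with _ | ⟨b, i⟩
      · show j (eta C (X none)) = _
        simp [eta]
        rfl
      · cases b
        · show j (eta C (X (some (false, i)))) = _
          simp [eta]
          rfl
        · show j (eta C (X (some (true, i)))) = _
          simp [eta]
          rfl
  apply hj
  rw [map_zero]
  have h3 := DFunLike.congr_fun key G
  rw [← hβ, hG, map_zero] at h3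
  exact h3

/-- **The graded statement**: the kernel of the polynomial parametrisation. -/
theorem mem_relIdeal_of_gam_eq_zero (G : MvPolynomial GV C) (hG : gam C G = 0) :
    G ∈ relIdeal C :=
  mem_relIdeal_of_eta_eq_zero C G (eta_eq_zero_of_gam_eq_zero C G hG)

end

end Fermat.Agent.Patch
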