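import Mathlib
import Fermat.Agent.Patch.Graded
import Fermat.Agent.Patch.Eval

/-!
# The kernel of the power series parametrisation of the local ring `R^χ`
-/

set_option autoImplicit false

namespace Fermat.Agent.Patch

open MvPolynomial IsLocalRing

section

variable {A : Type*} [CommRing A]

/-- power series ring in the entries of the traceless parts of `Φ` and `Σ`. -/
abbrev PA (A : Type*) := MvPowerSeries (Bool × Fin 3) A

/-- target power series ring in `v, z, w`. -/
abbrev EA (A : Type*) := MvPowerSeries (Fin 3) A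

/-- relations ideal -/
noncomputable def relPS (d : A) : Ideal (PA A) :=
  Ideal.span (Set.range (fun p : Fin 3 × Fin 3 =>
    (MvPowerSeries.X (false, p.1) * MvPowerSeries.X (true, p.2) -
      MvPowerSeries.X (false, p.2) * MvPowerSeries.X (true, p.1) : PA A)) ∪
    {MvPowerSeries.X (true, 0) ^ 2 + MvPowerSeries.X (true, 1) * MvPowerSeries.X (true, 2) -
      MvPowerSeries.C d ^ 2})

/-- the generators of `J` -/
noncomputable def genJ (d : A) : GV → PA A
  | none => MvPowerSeries.C d
  | some p => MvPowerSeries.X p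

/-- the ideal `J = (d, f, s)` -/
noncomputable def idJ (d : A) : Ideal (PA A) := Ideal.span (Set.range (genJ d))

/-- evaluation -/
noncomputable def evJ (d : A) : MvPolynomial GV A →ₐ[A] PA A := aeval (genJ d)

theorem evJ_relIdeal (d : A) {R : MvPolynomial GV A} (hR : R ∈ relIdeal A) :
    evJ d R ∈ relPS d := by
  have h : relIdeal A ≤ (relPS d).comap (evJ d) := by
    rw [relIdeal, Ideal.span_le]
    rintro x (⟨⟨i, j⟩, rfl⟩ | rfl)
    · show evJ d _ ∈ relPS d
      simp only [evJ, map_sub, map_mul, aeval_X, genJ]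
      exact Ideal.subset_span (Or.inl ⟨(i, j), rfl⟩)
    · show evJ d _ ∈ relPS d
      simp only [evJ, map_sub, map_mul, map_add, map_pow, aeval_X, genJ]
      exact Ideal.subset_span (Or.inr rfl)
  exact h hR

theorem sub_C_mem_idJ (d : A) (c : PA A) :
    c - MvPowerSeries.C (MvPowerSeries.constantCoeff c) ∈ idJ d := by
  have h1 : c - MvPowerSeries.C (MvPowerSeries.constantCoeff c) ∈
      (Ideal.span (Set.range (MvPowerSeries.X : Bool × Fin 3 → PA A))) ^ 1 := by
    apply DefRing.mem_span_X_pow_of_coeff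
    intro e he
    have : e = 0 := (Finsupp.degree_eq_zero_iff e).mp (by omega)
    subst this
    simp
  rw [pow_one] at h1
  refine Ideal.span_mono ?_ h1
  rintro _ ⟨p, rfl⟩
  exact ⟨some p, rfl⟩

theorem eval_mem_of_coeff {P : Type*} [CommRing P] {ι : Type*} (x : ι → P) (I J : Ideal P)
    (hJ : ∀ i, x i ∈ J) (n : ℕ) (q : MvPolynomial ι P) (hq : q.IsHomogeneous n)
    (hc : ∀ m, q.coeff m ∈ I) : MvPolynomial.eval x q ∈ I * J ^ n := by
  rw [MvPolynomial.eval_eq]
  refine Ideal.sum_mem _ fun m hm => ?_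
  refine Ideal.mul_mem_mul (hc m) ?_
  have hdeg : ∑ i ∈ m.support, m i = n := by
    have := hq (mem_support_iff.mp hm)
    rw [Finsupp.weight_apply, Finsupp.sum] at this
    simpa using this
  rw [← hdeg, ← Finset.prod_pow_eq_pow_sum]
  exact Ideal.prod_mem_prod fun i _ => Ideal.pow_mem_pow (hJ i) _

theorem genJ_mem (d : A) (o : GV) : genJ d o ∈ idJ d := Ideal.subset_span ⟨o, rfl⟩

theorem evJ_mem_of_homogeneous (d : A) (n : ℕ) (G : MvPolynomial GV A) (hG : G.IsHomogeneous n) :
    evJ d G ∈ idJ d ^ n := by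
  have h1 : evJ d G = MvPolynomial.eval (genJ d) (MvPolynomial.map MvPowerSeries.C G) := by
    rw [MvPolynomial.eval_map]
    rfl
  rw [h1]
  have := eval_mem_of_coeff (genJ d) ⊤ (idJ d) (genJ_mem d) n _
    (hG.map MvPowerSeries.C) (fun _ => trivial)
  rwa [Ideal.top_mul] at this

/-- Lemma 1 -/
theorem exists_homogeneous (d : A) (n : ℕ) (g : PA A) (hg : g ∈ idJ d ^ n) :
    ∃ G : MvPolynomial GV A, G.IsHomogeneous n ∧ g - evJ d G ∈ idJ d ^ (n + 1) := by
  obtain ⟨p, hp, rfl⟩ := (Ideal.mem_span_pow_iff_exists_isHomogeneous (genJ d) g).mp hg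
  refine ⟨MvPolynomial.map MvPowerSeries.constantCoeff p, hp.map _, ?_⟩
  have h1 : evJ d (MvPolynomial.map MvPowerSeries.constantCoeff p) =
      MvPolynomial.eval (genJ d) (MvPolynomial.map MvPowerSeries.C
        (MvPolynomial.map MvPowerSeries.constantCoeff p)) := by
    rw [MvPolynomial.eval_map]
    rfl
  rw [h1, ← map_sub, pow_succ']
  apply eval_mem_of_coeff (genJ d) (idJ d) (idJ d) (genJ_mem d) n
  · exact hp.sub ((hp.map _).map _)
  · intro m
    rw [coeff_sub, coeff_map, coeff_map]
    exact sub_C_mem_idJ d _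

/-- filtration by powers of `(d, w)` on the target -/
noncomputable def filtE (d : A) (N : ℕ) : Ideal (EA A) where
  carrier := {F | ∀ e : Fin 3 →₀ ℕ, MvPowerSeries.coeff e F ∈ Ideal.span {d ^ (N - e 2)}}
  zero_mem' e := by simp
  add_mem' ha hb e := by
    rw [map_add]; exact Ideal.add_mem _ (ha e) (hb e)
  smul_mem' c x hx e := by
    classical
    rw [smul_eq_mul, MvPowerSeries.coeff_mul]
    refine Ideal.sum_mem _ fun p hp => Ideal.mul_mem_left _ _ ?_
    have h1 := hx p.2
    have h2 : p.1 + p.2 = e := Finset.HasAntidiagonal.mem_antidiagonal.mp hp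
    have h3 : p.1 2 + p.2 2 = e 2 := by rw [← h2]; rfl
    rw [Ideal.mem_span_singleton] at h1 ⊢
    exact (pow_dvd_pow d (by omega)).trans h1

theorem mem_filtE {d : A} {N : ℕ} {F : EA A} :
    F ∈ filtE d N ↔ ∀ e : Fin 3 →₀ ℕ, MvPowerSeries.coeff e F ∈ Ideal.span {d ^ (N - e 2)} :=
  Iff.rfl

/-- the ideal `(d, w)` -/
noncomputable def idK (d : A) : Ideal (EA A) := Ideal.span {MvPowerSeries.C d, MvPowerSeries.X 2}

theorem idK_pow_le (d : A) (N : ℕ) : idK d ^ N ≤ filtE d N := by
  classical
  induction N with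
  | zero =>
    intro F _
    rw [mem_filtE]
    intro e
    simp
  | succ N ih =>
    rw [pow_succ', Ideal.mul_le]
    intro a ha b hb
    have hb' := ih hb
    rw [idK, Ideal.mem_span_pair] at ha
    obtain ⟨x, y, rfl⟩ := ha
    rw [add_mul, mul_assoc, mul_assoc]
    refine Ideal.add_mem _ (Ideal.mul_mem_left _ _ ?_) (Ideal.mul_mem_left _ _ ?_)
    · rw [mem_filtE]
      intro e
      rw [MvPowerSeries.coeff_C_mul]
      have := hb' e
      rw [Ideal.mem_span_singleton] at this ⊢
      exact (pow_dvd_pow d (show N + 1 - e 2 ≤ N - e 2 + 1 by omega)).trans (by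
        rw [pow_succ']; exact mul_dvd_mul_left d this)
    · rw [mem_filtE]
      intro e
      rw [MvPowerSeries.X_def, MvPowerSeries.coeff_monomial_mul]
      split_ifs with he
      · rw [one_mul]
        have h1 := hb' (e - Finsupp.single 2 1)
        have h2 : 1 ≤ e 2 := by simpa using he 2
        have h3 : (e - Finsupp.single 2 1 : Fin 3 →₀ ℕ) 2 = e 2 - 1 := by
          rw [Finsupp.tsub_apply, Finsupp.single_eq_same]
        rw [h3] at h1
        rw [Ideal.mem_span_singleton] at h1 ⊢
        exact (pow_dvd_pow d (by omega)).trans h1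
      · exact Ideal.zero_mem _

/-- evaluation on the target -/
noncomputable def evE (d : A) : MvPolynomial (Fin 4) A →ₐ[A] EA A :=
  aeval ![MvPowerSeries.X 0, MvPowerSeries.X 1, MvPowerSeries.X 2, MvPowerSeries.C d]

/-- weights -/
def wt : Fin 4 → ℕ := ![0, 0, 1, 1]

theorem gam_weighted (C : Type*) [CommRing C] (n : ℕ) (G : MvPolynomial GV C)
    (hG : G.IsHomogeneous n) : IsWeightedHomogeneous wt (gam C G) n := by
  have h0 : ∀ i, IsWeightedHomogeneous wt (xpt (X 0) (X 1) i : MvPolynomial (Fin 4) C) 0 := by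
    intro i
    have hv : IsWeightedHomogeneous wt (X 0 : MvPolynomial (Fin 4) C) 0 :=
      isWeightedHomogeneous_X _ _ _
    have hz : IsWeightedHomogeneous wt (X 1 : MvPolynomial (Fin 4) C) 0 :=
      isWeightedHomogeneous_X _ _ _
    have h1 : IsWeightedHomogeneous wt (1 : MvPolynomial (Fin 4) C) 0 :=
      isWeightedHomogeneous_one _ _
    have h2 : IsWeightedHomogeneous wt (2 : MvPolynomial (Fin 4) C) 0 := by
      have := h1.add h1
      norm_num at this
      exact this
    have hvz := hv.mul hz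
    fin_cases i
    · simpa [xpt] using h1.add hvz
    · have := (hv.mul (hvz.add h2)).neg
      simpa [xpt] using this
    · simpa [xpt] using hz
  have h3 : ∀ o : GV, IsWeightedHomogeneous wt (gam C (X o)) 1 := by
    intro o
    rcases o with _ | ⟨b, i⟩
    · simp only [gam, aeval_X]
      exact isWeightedHomogeneous_X _ _ _
    · cases b
      · simp only [gam, aeval_X]
        have := (isWeightedHomogeneous_X C wt 2).mul (h0 i)
        simpa [wt] using this
      · simp only [gam, aeval_X]
        have := (isWeightedHomogeneous_X C wt 3).mul (h0 i)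
        simpa [wt] using this
  rw [G.as_sum, map_sum]
  apply IsWeightedHomogeneous.sum
  intro m hm
  have hdeg : ∑ i ∈ m.support, m i = n := by
    have := hG (mem_support_iff.mp hm)
    rw [Finsupp.weight_apply, Finsupp.sum] at this
    simpa using this
  rw [monomial_eq, map_mul, MvPolynomial.algHom_C, MvPolynomial.algebraMap_eq, Finsupp.prod, map_prod]
  apply IsWeightedHomogeneous.C_mul
  rw [← hdeg]
  apply IsWeightedHomogeneous.prod
  intro i _
  rw [map_pow]
  have := (h3 i).pow (m i)
  simpa using this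

theorem evE_coeff (d : A) (n : ℕ) (H : MvPolynomial (Fin 4) A)
    (hH : IsWeightedHomogeneous wt H n) (m : Fin 4 →₀ ℕ) (hm : m 2 + m 3 = n) :
    MvPowerSeries.coeff (Finsupp.equivFunOnFinite.symm ![m 0, m 1, m 2]) (evE d H) =
      d ^ (m 3) * H.coeff m := by
  classical
  have h1 : evE d H = ∑ m' ∈ H.support, MvPowerSeries.monomial
      (Finsupp.equivFunOnFinite.symm ![m' 0, m' 1, m' 2]) (d ^ (m' 3) * H.coeff m') := by
    conv_lhs => rw [H.as_sum, map_sum]
    refine Finset.sum_congr rfl fun m' _ => ?_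
    rw [evE, aeval_monomial, Finsupp.prod_fintype _ _ (by intro i; rw [pow_zero])]
    rw [Fin.prod_univ_four]
    simp only [Matrix.cons_val_zero, Matrix.cons_val_one, Matrix.cons_val]
    rw [MvPowerSeries.X_pow_eq, MvPowerSeries.X_pow_eq, MvPowerSeries.X_pow_eq, ← map_pow]
    have h2 : (Finsupp.equivFunOnFinite.symm ![m' 0, m' 1, m' 2] : Fin 3 →₀ ℕ) =
        Finsupp.single 0 (m' 0) + Finsupp.single 1 (m' 1) + Finsupp.single 2 (m' 2) := by
      ext i
      fin_cases i <;> simp
    rw [h2]
    have h3 : ∀ c : A, MvPowerSeries.C (σ := Fin 3) c = MvPowerSeries.monomial 0 c := fun c => rfl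
    rw [show algebraMap A (EA A) (H.coeff m') = MvPowerSeries.C (H.coeff m') from rfl, h3, h3]
    simp only [MvPowerSeries.monomial_mul_monomial, one_mul, mul_one, zero_add, add_zero]
    rw [mul_comm]
  rw [h1, map_sum]
  have hinj : ∀ m' ∈ H.support, m' ≠ m →
      (Finsupp.equivFunOnFinite.symm ![m' 0, m' 1, m' 2] : Fin 3 →₀ ℕ) ≠
        Finsupp.equivFunOnFinite.symm ![m 0, m 1, m 2] := by
    intro m' hm' hne heq
    apply hne
    have hw := hH (mem_support_iff.mp hm')
    rw [Finsupp.weight_apply, Finsupp.sum_fintype _ _ (by intro i; simp), Fin.sum_univ_four] at hw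
    simp [wt] at hw
    have h4 := Finsupp.equivFunOnFinite.symm.injective heq
    have h40 : m' 0 = m 0 := by simpa using congrFun h4 0
    have h41 : m' 1 = m 1 := by simpa using congrFun h4 1
    have h42 : m' 2 = m 2 := by simpa using congrFun h4 2
    ext i
    fin_cases i
    · exact h40
    · exact h41
    · exact h42
    · show m' 3 = m 3
      omega
  by_cases hms : m ∈ H.support
  · rw [Finset.sum_eq_single m]
    · rw [MvPowerSeries.coeff_monomial_same]
    · intro m' hm' hne
      rw [MvPowerSeries.coeff_monomial_ne (hinj m' hm' hne).symm]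
    · intro h; exact absurd hms h
  · rw [Finset.sum_eq_zero]
    · rw [notMem_support_iff.mp hms, mul_zero]
    · intro m' hm'
      rw [MvPowerSeries.coeff_monomial_ne (hinj m' hm' (by rintro rfl; exact hms hm')).symm]

theorem coeff_mem_of_evE_mem (d : A) (hd : d ∈ nonZeroDivisors A) (n : ℕ)
    (H : MvPolynomial (Fin 4) A) (hH : IsWeightedHomogeneous wt H n)
    (hmem : evE d H ∈ filtE d (n + 1)) (m : Fin 4 →₀ ℕ) : H.coeff m ∈ Ideal.span {d} := by
  by_cases hm : m 2 + m 3 = n
  · have h1 := hmem (Finsupp.equivFunOnFinite.symm ![m 0, m 1, m 2])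
    rw [evE_coeff d n H hH m hm] at h1
    have h2 : (Finsupp.equivFunOnFinite.symm ![m 0, m 1, m 2] : Fin 3 →₀ ℕ) 2 = m 2 := rfl
    rw [h2, show n + 1 - m 2 = m 3 + 1 by omega, Ideal.mem_span_singleton] at h1
    obtain ⟨c, hc⟩ := h1
    rw [Ideal.mem_span_singleton]
    refine ⟨c, ?_⟩
    have h3 : d ^ (m 3) * (H.coeff m - d * c) = 0 := by
      rw [mul_sub, hc]; ring
    have h4 := (mul_left_mem_nonZeroDivisors_eq_zero_iff (pow_mem hd (m 3))).mp h3
    exact sub_eq_zero.mp h4
  · have : H.coeff m = 0 := by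
      by_contra hne
      have hw := hH hne
      rw [Finsupp.weight_apply, Finsupp.sum_fintype _ _ (by intro i; simp),
        Fin.sum_univ_four] at hw
      simp [wt] at hw
      exact hm hw
    rw [this]
    exact Ideal.zero_mem _

theorem relIdeal_homogeneousComponent (R : MvPolynomial GV A) (hR : R ∈ relIdeal A) (n : ℕ) :
    homogeneousComponent n R ∈ relIdeal A := by
  let _ : GradedAlgebra (homogeneousSubmodule GV A) := MvPolynomial.gradedAlgebra
  refine homogeneousComponent_mem_of_mem (I := relIdeal A) ?_ hR n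
  apply Ideal.homogeneous_span
  rintro x (⟨⟨i, j⟩, rfl⟩ | rfl)
  · refine ⟨2, ?_⟩
    exact ((isHomogeneous_X A _).mul (isHomogeneous_X A _)).sub
      ((isHomogeneous_X A _).mul (isHomogeneous_X A _))
  · refine ⟨2, ?_⟩
    exact (((isHomogeneous_X A _).pow 2).add
      ((isHomogeneous_X A _).mul (isHomogeneous_X A _))).sub ((isHomogeneous_X A _).pow 2)

theorem relIdeal_map {B : Type*} [CommRing B] (f : A →+* B) :
    (relIdeal A).map (MvPolynomial.map f) = relIdeal B := by
  rw [relIdeal, relIdeal, Ideal.map_span]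
  congr 1
  rw [Set.image_union, Set.image_singleton, ← Set.range_comp]
  congr 1
  · congr 1
    funext p
    simp
  · simp

/-- lifting membership in the relations ideal along `A → A / d`. -/
theorem mem_relIdeal_of_map (d : A) (n : ℕ) (G : MvPolynomial GV A) (hG : G.IsHomogeneous n)
    (h : MvPolynomial.map (Ideal.Quotient.mk (Ideal.span {d})) G ∈
      relIdeal (A ⧸ Ideal.span {d})) :
    ∃ R ∈ relIdeal A, ∃ G' : MvPolynomial GV A, G'.IsHomogeneous n ∧
      G = R + MvPolynomial.C d * G' := by
  rw [← relIdeal_map (Ideal.Quotient.mk (Ideal.span {d}))] at h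
  have hsurj : Function.Surjective (MvPolynomial.map (σ := GV)
      (Ideal.Quotient.mk (Ideal.span {d}))) :=
    MvPolynomial.map_surjective _ Ideal.Quotient.mk_surjective
  rw [Ideal.mem_map_iff_of_surjective _ hsurj] at h
  obtain ⟨R, hR, hRG⟩ := h
  have h1 : G - R ∈ RingHom.ker (MvPolynomial.map (σ := GV)
      (Ideal.Quotient.mk (Ideal.span {d}))) := by
    rw [RingHom.mem_ker, map_sub, hRG, sub_self]
  rw [MvPolynomial.ker_map, Ideal.mk_ker, Ideal.map_span, Set.image_singleton,
    Ideal.mem_span_singleton] at h1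
  obtain ⟨G'', hG''⟩ := h1
  refine ⟨homogeneousComponent n R, relIdeal_homogeneousComponent R hR n,
    homogeneousComponent n G'', homogeneousComponent_isHomogeneous n _, ?_⟩
  have h2 : G = R + MvPolynomial.C d * G'' := by rw [← hG'']; ring
  conv_lhs => rw [← homogeneousComponent_eq_self hG, h2]
  rw [map_add, homogeneousComponent_C_mul]

theorem map_gam {B : Type*} [CommRing B] (f : A →+* B) (G : MvPolynomial GV A) :
    MvPolynomial.map f (gam A G) = gam B (MvPolynomial.map f G) := by
  have h : (MvPolynomial.map f).comp (gam A : MvPolynomial GV A →+* MvPolynomial (Fin 4) A) =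
      (gam B : MvPolynomial GV B →+* MvPolynomial (Fin 4) B).comp (MvPolynomial.map f) := by
    apply MvPolynomial.ringHom_ext
    · intro c
      simp [gam]
    · intro o
      rcases o with _ | ⟨b, i⟩
      · simp [gam]
      · cases b <;> fin_cases i <;> simp [gam, xpt]
  exact DFunLike.congr_fun h G

variable [IsLocalRing A] [IsNoetherianRing A]

/-- The kernel of the parametrisation `f ↦ w x`, `s ↦ d x` is generated by the obvious relations. -/
theorem mem_relPS_of_eq_zero (d : A) (hd : d ∈ nonZeroDivisors A) (hdm : d ∈ maximalIdeal A)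
    (Θ : PA A →ₐ[A] EA A)
    (hf : ∀ i, Θ (MvPowerSeries.X (false, i)) = MvPowerSeries.X 2 *
      xpt (MvPowerSeries.X 0) (MvPowerSeries.X 1) i)
    (hs : ∀ i, Θ (MvPowerSeries.X (true, i)) = MvPowerSeries.C d *
      xpt (MvPowerSeries.X 0) (MvPowerSeries.X 1) i)
    (g : PA A) (hg : Θ g = 0) : g ∈ relPS d := by
  have hC : ∀ c : A, Θ (MvPowerSeries.C c) = MvPowerSeries.C c := fun c => Θ.commutes c
  have hcomp : ∀ G, Θ (evJ d G) = evE d (gam A G) := by
    intro G
    have h : Θ.comp (evJ d) = (evE d).comp (gam A) := by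
      apply MvPolynomial.algHom_ext
      intro o
      rcases o with _ | ⟨b, i⟩
      · simp [evJ, evE, gam, genJ, hC]
      · cases b
        · simp only [AlgHom.comp_apply, evJ, gam, aeval_X, genJ, hf]
          fin_cases i <;> simp [evE, xpt]
        · simp only [AlgHom.comp_apply, evJ, gam, aeval_X, genJ, hs]
          fin_cases i <;> simp [evE, xpt]
    exact DFunLike.congr_fun h G
  have hJK : ∀ N, ∀ h ∈ idJ d ^ N, Θ h ∈ idK d ^ N := by
    intro N h hh
    have h1 : idJ d ≤ (idK d).comap Θ := by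
      rw [idJ, Ideal.span_le]
      rintro _ ⟨o, rfl⟩
      show Θ (genJ d o) ∈ idK d
      rcases o with _ | ⟨b, i⟩
      · rw [genJ, hC]
        exact Ideal.subset_span (by simp)
      · cases b
        · rw [genJ, hf]
          exact Ideal.mul_mem_right _ _ (Ideal.subset_span (by simp))
        · rw [genJ, hs]
          exact Ideal.mul_mem_right _ _ (Ideal.subset_span (by simp))
    have h2 : idJ d ^ N ≤ (idK d ^ N).comap Θ :=
      (Ideal.pow_right_mono h1 N).trans (Ideal.le_comap_pow _ N)
    exact h2 hh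
  have hrel : ∀ r ∈ relPS d, Θ r = 0 := by
    intro r hr
    have h1 : relPS d ≤ RingHom.ker Θ := by
      rw [relPS, Ideal.span_le]
      rintro x (⟨⟨i, j⟩, rfl⟩ | rfl)
      · show Θ _ = 0
        rw [map_sub, map_mul, map_mul, hf, hf, hs, hs]
        ring
      · show Θ _ = 0
        rw [map_sub, map_add, map_pow, map_mul, map_pow, hs, hs, hs, hC]
        have := xpt_quad (MvPowerSeries.X 0 : EA A) (MvPowerSeries.X 1)
        linear_combination (MvPowerSeries.C d : EA A) ^ 2 * this
    exact h1 hr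
  have step : ∀ N, ∀ h ∈ idJ d ^ N, Θ h = 0 → h ∈ relPS d ⊔ idJ d ^ (N + 1) := by
    intro N h hh h0
    obtain ⟨G, hG, hGh⟩ := exists_homogeneous d N h hh
    have h1 : evE d (gam A G) ∈ filtE d (N + 1) := by
      rw [← hcomp]
      have h2 := idK_pow_le d _ (hJK _ _ hGh)
      rw [map_sub, h0, zero_sub] at h2
      exact neg_mem_iff.mp h2
    have h3 := coeff_mem_of_evE_mem d hd N (gam A G) (gam_weighted A N G hG) h1
    have h4 : gam (A ⧸ Ideal.span {d}) (MvPolynomial.map (Ideal.Quotient.mk (Ideal.span {d})) G)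
        = 0 := by
      rw [← map_gam]
      ext m
      rw [coeff_map, coeff_zero, Ideal.Quotient.eq_zero_iff_mem]
      exact h3 m
    obtain ⟨R, hR, G', hG', hGG'⟩ := mem_relIdeal_of_map d N G hG
      (mem_relIdeal_of_gam_eq_zero _ _ h4)
    have h5 : evJ d G = evJ d R + MvPowerSeries.C d * evJ d G' := by
      rw [hGG', map_add, map_mul, MvPolynomial.algHom_C]
      rfl
    have h6 : h = evJ d R + (MvPowerSeries.C d * evJ d G' + (h - evJ d G)) := by
      rw [h5]; ring
    rw [h6]
    refine Submodule.add_mem_sup (evJ_relIdeal d hR) (Ideal.add_mem _ ?_ hGh)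
    rw [pow_succ']
    exact Ideal.mul_mem_mul (genJ_mem d none) (evJ_mem_of_homogeneous d N G' hG')
  have hall : ∀ N, g ∈ relPS d ⊔ idJ d ^ N := by
    intro N
    induction N with
    | zero => rw [pow_zero, Ideal.one_eq_top, sup_top_eq]; trivial
    | succ N ih =>
      obtain ⟨r, hr, h, hh, hrh⟩ := Submodule.mem_sup.mp ih
      have h1 : Θ h = 0 := by
        have := hrel r hr
        rw [← hrh, map_add, this, zero_add] at hg
        exact hg
      have h2 := step N h hh h1
      rw [← hrh]
      exact Ideal.add_mem _ (Ideal.mem_sup_left hr) h2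
  -- Krull intersection
  by_cases htop : relPS d = ⊤
  · rw [htop]; trivial
  have hJm : idJ d ≤ maximalIdeal (PA A) := by
    rw [idJ, Ideal.span_le]
    rintro _ ⟨o, rfl⟩
    rcases o with _ | p
    · show MvPowerSeries.C d ∈ _
      rw [SetLike.mem_coe, mem_maximalIdeal, mem_nonunits_iff,
        MvPowerSeries.isUnit_iff_constantCoeff, MvPowerSeries.constantCoeff_C]
      exact hdm
    · exact DefRing.X_mem_maximalIdeal p
  have hne : Nontrivial (PA A ⧸ relPS d) := Ideal.Quotient.nontrivial_iff.mpr htop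
  have hloc : IsLocalRing (PA A ⧸ relPS d) :=
    IsLocalRing.of_surjective' (Ideal.Quotient.mk (relPS d)) Ideal.Quotient.mk_surjective
  rw [← Ideal.Quotient.eq_zero_iff_mem]
  have h7 : Ideal.Quotient.mk (relPS d) g ∈
      ⨅ N : ℕ, ((maximalIdeal (PA A)).map (Ideal.Quotient.mk (relPS d))) ^ N := by
    rw [Ideal.mem_iInf]
    intro N
    obtain ⟨r, hr, h, hh, hrh⟩ := Submodule.mem_sup.mp (hall N)
    rw [← hrh, map_add, Ideal.Quotient.eq_zero_iff_mem.mpr hr, zero_add, ← Ideal.map_pow]
    exact Ideal.mem_map_of_mem _ (Ideal.pow_right_mono hJm N hh)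
  rw [Ideal.iInf_pow_eq_bot_of_isLocalRing] at h7
  · exact h7
  · intro h8
    have h9 : relPS d ≤ maximalIdeal (PA A) := le_maximalIdeal htop
    have h10 := Ideal.comap_map_of_surjective (Ideal.Quotient.mk (relPS d))
      Ideal.Quotient.mk_surjective (maximalIdeal (PA A))
    rw [h8, Ideal.comap_top, ← RingHom.ker_eq_comap_bot, Ideal.mk_ker,
      sup_eq_left.mpr h9] at h10
    exact (maximalIdeal.isMaximal (PA A)).ne_top h10.symm

end

end Fermat.Agent.Patch
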