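import Mathlib
import Fermat.Agent.Patch.Kernel
import Fermat.Prelude.Thm_IsLocalRing_isAdicComplete_of_module_finite

/-!
# Primes of full dimension containing the relations of one block
-/

set_option autoImplicit false

namespace Fermat.Agent.Patch

open IsLocalRing

section

variable {P₀ : Type*} [CommRing P₀]

/-- a power series all of whose coefficients lie in a f.g. ideal `I` lies in `I P`. -/
theorem mem_map_C_of_coeff {σ : Type*} (I : Ideal P₀) (hI : I.FG) (h : MvPowerSeries σ P₀)
    (hh : ∀ e, MvPowerSeries.coeff e h ∈ I) : h ∈ I.map (MvPowerSeries.C (σ := σ)) := by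
  obtain ⟨s, rfl⟩ := hI
  have h1 : ∀ e, ∃ c : P₀ → P₀, ∑ a ∈ s, c a * a = MvPowerSeries.coeff e h := by
    intro e
    obtain ⟨c, -, hc⟩ := (Submodule.mem_span_finset (s := s) (R := P₀)).mp (hh e)
    exact ⟨c, by simpa using hc⟩
  choose c hc using h1
  have h2 : h = ∑ a ∈ s, DefRing.ofCoeff (fun e => c e a) * MvPowerSeries.C a := by
    ext e
    rw [map_sum, ← hc e]
    refine Finset.sum_congr rfl fun a _ => ?_
    rw [MvPowerSeries.coeff_mul_C, DefRing.coeff_ofCoeff]
  rw [h2]
  refine Ideal.sum_mem _ fun a ha => Ideal.mul_mem_left _ _ ?_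
  exact Ideal.mem_map_of_mem _ (Submodule.subset_span ha)

variable [IsLocalRing P₀] [IsNoetherianRing P₀] [IsAdicComplete (maximalIdeal P₀) P₀]

omit [IsNoetherianRing P₀] [IsAdicComplete (maximalIdeal P₀) P₀] in
theorem C_mem_maximalIdeal_iff {σ : Type*} {a : P₀} :
    (MvPowerSeries.C a : MvPowerSeries σ P₀) ∈ maximalIdeal (MvPowerSeries σ P₀) ↔
      a ∈ maximalIdeal P₀ := by
  rw [mem_maximalIdeal, mem_nonunits_iff, MvPowerSeries.isUnit_iff_constantCoeff,
    MvPowerSeries.constantCoeff_C, mem_maximalIdeal, mem_nonunits_iff]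

theorem block_notMem (p : Ideal (PA P₀)) [hp : p.IsPrime] (d : P₀) (hdm : d ∈ maximalIdeal P₀)
    (hd : MvPowerSeries.C d ∉ p) (hrel : relPS d ≤ p) (s : Finset (PA P₀))
    (hs : ∀ x ∈ s, x ∈ maximalIdeal (PA P₀))
    (hdim : (s.card : WithBot ℕ∞) ≤ ringKrullDim (PA P₀ ⧸ p))
    (hprim : ∀ q : Ideal (PA P₀), q.IsPrime → (∀ a : P₀, MvPowerSeries.C a ∈ p →
      MvPowerSeries.C a ∈ q) → relPS d ≤ q → (∀ x ∈ s, x ∈ q) → q = maximalIdeal (PA P₀))
    (ϖ c : P₀) (hϖ : ϖ ∈ maximalIdeal P₀) (hc : c ∈ Ideal.span {ϖ}) (N : ℕ) :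
    (MvPowerSeries.X (false, 0) ^ 2 + MvPowerSeries.X (false, 1) * MvPowerSeries.X (false, 2) -
      MvPowerSeries.C c) ^ N ∉ p ⊔ Ideal.span {MvPowerSeries.C ϖ} := by
  classical
  set p₀ : Ideal P₀ := p.comap MvPowerSeries.C with hp₀
  have hp₀prime : p₀.IsPrime := Ideal.comap_isPrime _ _
  set A := P₀ ⧸ p₀ with hA
  have hAloc : IsLocalRing A :=
    IsLocalRing.of_surjective' (Ideal.Quotient.mk p₀) Ideal.Quotient.mk_surjective
  have hlochom : IsLocalHom (algebraMap P₀ A) :=
    IsLocalHom.of_surjective (Ideal.Quotient.mk p₀) Ideal.Quotient.mk_surjective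
  have hAcomp : IsAdicComplete (maximalIdeal A) A :=
    IsLocalRing.isAdicComplete_of_module_finite (𝒪 := P₀)
  have hAdom : IsDomain A := Ideal.Quotient.isDomain p₀
  have hEdom : IsDomain (EA A) := NoZeroDivisors.to_isDomain _
  set π : P₀ →+* A := Ideal.Quotient.mk p₀ with hπ
  have hπm : ∀ a ∈ maximalIdeal P₀, π a ∈ maximalIdeal A := by
    intro a ha
    exact map_nonunit (algebraMap P₀ A) a ha
  have hdA : π d ∈ nonZeroDivisors A := by
    rw [mem_nonZeroDivisors_iff_ne_zero]
    intro h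
    exact hd ((Ideal.Quotient.eq_zero_iff_mem (I := p₀)).mp h)
  have hCloc : IsLocalHom (algebraMap A (EA A)) := by
    constructor
    intro a ha
    have : IsUnit (MvPowerSeries.C a : EA A) := ha
    rwa [MvPowerSeries.isUnit_iff_constantCoeff, MvPowerSeries.constantCoeff_C] at this
  have hX : ∀ i : Fin 3, (MvPowerSeries.X i : EA A) ∈ maximalIdeal (EA A) :=
    fun i => DefRing.X_mem_maximalIdeal i
  obtain ⟨Θ, hΘ, -⟩ := exists_eval (A := A) (R := EA A) (σ := Bool × Fin 3)
    (fun q => (if q.1 then MvPowerSeries.C (π d) else MvPowerSeries.X 2) *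
      xpt (MvPowerSeries.X 0) (MvPowerSeries.X 1) q.2) (by
      intro q
      apply Ideal.mul_mem_right
      by_cases hq : q.1 = true
      · rw [if_pos hq]; exact C_mem_maximalIdeal_iff.mpr (hπm d hdm)
      · rw [if_neg hq]; exact hX 2)
  have hf : ∀ i, Θ (MvPowerSeries.X (false, i)) = MvPowerSeries.X 2 *
      xpt (MvPowerSeries.X 0) (MvPowerSeries.X 1) i := fun i => by rw [hΘ]; simp
  have hss : ∀ i, Θ (MvPowerSeries.X (true, i)) = MvPowerSeries.C (π d) *
      xpt (MvPowerSeries.X 0) (MvPowerSeries.X 1) i := fun i => by rw [hΘ]; simp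
  let μ : PA P₀ →+* PA A := MvPowerSeries.map π
  have hμcoeff : ∀ g e, MvPowerSeries.coeff e (μ g) = π (MvPowerSeries.coeff e g) := fun g e => rfl
  have hμsurj : Function.Surjective μ := by
    intro g
    choose b hb using fun e => Ideal.Quotient.mk_surjective (I := p₀) (MvPowerSeries.coeff e g)
    refine ⟨DefRing.ofCoeff b, ?_⟩
    ext e
    rw [hμcoeff, DefRing.coeff_ofCoeff]
    exact hb e
  have hμrel : (relPS d).map μ = relPS (π d) := by
    rw [relPS, relPS, Ideal.map_span]
    congr 1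
    rw [Set.image_union, Set.image_singleton, ← Set.range_comp]
    congr 1
    · congr 1
      funext q
      simp only [Function.comp_apply, map_sub, map_mul]
      simp only [μ, MvPowerSeries.map_X]
    · simp only [μ, map_sub, map_add, map_mul, map_pow, MvPowerSeries.map_X, MvPowerSeries.map_C]
  let Ψ : PA P₀ →+* EA A := (Θ : PA A →+* EA A).comp μ
  have hΨ : ∀ g, Ψ g = Θ (μ g) := fun g => rfl
  -- kernel of Ψ is contained in p
  have hker : RingHom.ker Ψ ≤ p := by
    intro g hg
    rw [RingHom.mem_ker, hΨ] at hg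
    have h1 := mem_relPS_of_eq_zero (π d) hdA (hπm d hdm) Θ hf hss (μ g) hg
    rw [← hμrel, Ideal.mem_map_iff_of_surjective _ hμsurj] at h1
    obtain ⟨r, hr, hrg⟩ := h1
    have h2 : g - r ∈ p₀.map (MvPowerSeries.C (σ := Bool × Fin 3)) := by
      apply mem_map_C_of_coeff _ (IsNoetherian.noetherian _)
      intro e
      have h3 := congrArg (MvPowerSeries.coeff e) hrg
      rw [hμcoeff, hμcoeff] at h3
      rw [map_sub]
      exact (Ideal.Quotient.eq (I := p₀)).mp h3.symm
    have h4 : p₀.map (MvPowerSeries.C (σ := Bool × Fin 3)) ≤ p := Ideal.map_comap_le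
    have h5 := Ideal.add_mem _ (h4 h2) (hrel hr)
    simpa using h5
  have hker_prime : (RingHom.ker Ψ).IsPrime := RingHom.ker_isPrime Ψ
  have hrel' : relPS d ≤ RingHom.ker Ψ := by
    intro r hr
    rw [RingHom.mem_ker, hΨ]
    have h1 : μ r ∈ relPS (π d) := by rw [← hμrel]; exact Ideal.mem_map_of_mem _ hr
    have h2 : relPS (π d) ≤ RingHom.ker Θ := by
      rw [relPS, Ideal.span_le]
      rintro x (⟨⟨i, j⟩, rfl⟩ | rfl)
      · show Θ _ = 0
        rw [map_sub, map_mul, map_mul, hf, hf, hss, hss]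
        ring
      · show Θ _ = 0
        rw [map_sub, map_add, map_pow, map_mul, map_pow, hss, hss, hss,
          show Θ (MvPowerSeries.C (π d)) = MvPowerSeries.C (π d) from Θ.commutes _]
        have := xpt_quad (MvPowerSeries.X 0 : EA A) (MvPowerSeries.X 1)
        linear_combination (MvPowerSeries.C (π d) : EA A) ^ 2 * this
    exact h2 h1
  -- equality by dimension
  have heq : RingHom.ker Ψ = p := by
    by_contra hne
    obtain ⟨x, hxp, hxk⟩ := SetLike.exists_of_lt (lt_of_le_of_ne hker hne)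
    set D := PA P₀ ⧸ RingHom.ker Ψ with hD
    have hDdom : IsDomain D := inferInstance
    have hDloc : IsLocalRing D :=
      IsLocalRing.of_surjective' (Ideal.Quotient.mk _) Ideal.Quotient.mk_surjective
    have h1 : ringKrullDim (PA P₀ ⧸ p) + 1 ≤ ringKrullDim D := by
      refine ringKrullDim_succ_le_of_surjective (Ideal.Quotient.factor hker)
        (Ideal.Quotient.factor_surjective hker) (r := Ideal.Quotient.mk _ x) ?_ ?_
      · rw [mem_nonZeroDivisors_iff_ne_zero]
        intro h0
        exact hxk ((Ideal.Quotient.eq_zero_iff_mem).mp h0)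
      · rw [Ideal.Quotient.factor_mk]
        exact (Ideal.Quotient.eq_zero_iff_mem).mpr hxp
    have h2 : ringKrullDim D ≤ s.card := by
      rw [← IsLocalRing.maximalIdeal_height_eq_ringKrullDim]
      have h3 : maximalIdeal D ∈ (Ideal.span
          ((s.image (Ideal.Quotient.mk (RingHom.ker Ψ)) : Finset D) : Set D)).minimalPrimes := by
        refine ⟨⟨(maximalIdeal.isMaximal D).isPrime, ?_⟩, ?_⟩
        · rw [Ideal.span_le]
          intro y hy
          rw [Finset.mem_coe, Finset.mem_image] at hy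
          obtain ⟨x', hx', rfl⟩ := hy
          have h4 : IsLocalHom (Ideal.Quotient.mk (RingHom.ker Ψ)) :=
            IsLocalHom.of_surjective _ Ideal.Quotient.mk_surjective
          exact map_nonunit (Ideal.Quotient.mk (RingHom.ker Ψ)) _ (hs x' hx')
        · rintro q' ⟨hq'1, hq'2⟩ -
          have h4 : q'.comap (Ideal.Quotient.mk (RingHom.ker Ψ)) = maximalIdeal (PA P₀) := by
            apply hprim
            · exact Ideal.comap_isPrime _ _
            · intro a ha
              rw [Ideal.mem_comap]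
              have h5 : Ideal.Quotient.mk (RingHom.ker Ψ) (MvPowerSeries.C a) = 0 := by
                rw [Ideal.Quotient.eq_zero_iff_mem, RingHom.mem_ker, hΨ]
                have h6 : π a = 0 := (Ideal.Quotient.eq_zero_iff_mem (I := p₀)).mpr ha
                simp only [μ, MvPowerSeries.map_C, h6, map_zero]
              rw [h5]
              exact Ideal.zero_mem _
            · intro r hr
              rw [Ideal.mem_comap, (Ideal.Quotient.eq_zero_iff_mem).mpr (hrel' hr)]
              exact Ideal.zero_mem _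
            · intro x' hx'
              rw [Ideal.mem_comap]
              apply hq'2
              apply Ideal.subset_span
              rw [Finset.mem_coe]
              exact Finset.mem_image_of_mem _ hx'
          intro y hy
          obtain ⟨y', rfl⟩ := Ideal.Quotient.mk_surjective y
          rw [← Ideal.mem_comap, h4]
          rw [mem_maximalIdeal, mem_nonunits_iff] at hy ⊢
          exact fun hu => hy (hu.map _)
      have h4 := Ideal.height_le_card_of_mem_minimalPrimes_span_finset h3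
      have h5 := h4.trans (Nat.cast_le.mpr Finset.card_image_le)
      exact_mod_cast h5
    have h6 := h1.trans (h2.trans hdim)
    have h7 : ringKrullDim (PA P₀ ⧸ p) ≤ s.card :=
      (le_add_of_nonneg_right zero_le_one).trans (h1.trans h2)
    have h8 : (0 : WithBot ℕ∞) ≤ ringKrullDim (PA P₀ ⧸ p) := ringKrullDim_nonneg_of_nontrivial
    have h9 : ringKrullDim (PA P₀ ⧸ p) = (s.card : WithBot ℕ∞) := le_antisymm h7 hdim
    rw [h9] at h6
    have h10 : (s.card + 1 : ℕ) ≤ s.card := by exact_mod_cast h6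
    omega
  -- conclusion
  intro hmem
  obtain ⟨a, ha, b, hb, hab⟩ := Submodule.mem_sup.mp hmem
  have h1 : Ψ a = 0 := by
    rw [← heq] at ha
    exact ha
  have h2 : Ψ b ∈ Ideal.span {(MvPowerSeries.C (π ϖ) : EA A)} := by
    rw [Ideal.mem_span_singleton] at hb ⊢
    obtain ⟨b', rfl⟩ := hb
    rw [map_mul]
    refine Dvd.intro _ (congrArg (· * _) ?_)
    rw [hΨ]
    simp only [μ, MvPowerSeries.map_C]
    exact (Θ.commutes _).symm
  have h3 : Ψ (MvPowerSeries.X (false, 0) ^ 2 + MvPowerSeries.X (false, 1) *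
      MvPowerSeries.X (false, 2) - MvPowerSeries.C c) =
      MvPowerSeries.X 2 ^ 2 - MvPowerSeries.C (π c) := by
    rw [hΨ]
    have h4 : μ (MvPowerSeries.X (false, 0) ^ 2 + MvPowerSeries.X (false, 1) *
      MvPowerSeries.X (false, 2) - MvPowerSeries.C c) = MvPowerSeries.X (false, 0) ^ 2 +
        MvPowerSeries.X (false, 1) * MvPowerSeries.X (false, 2) - MvPowerSeries.C (π c) := by
      simp only [μ, map_sub, map_add, map_mul, map_pow, MvPowerSeries.map_X, MvPowerSeries.map_C]
    rw [h4, map_sub, map_add, map_pow, map_mul, hf, hf, hf,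
      show Θ (MvPowerSeries.C (π c)) = MvPowerSeries.C (π c) from Θ.commutes _]
    have := xpt_quad (MvPowerSeries.X 0 : EA A) (MvPowerSeries.X 1)
    linear_combination (MvPowerSeries.X 2 : EA A) ^ 2 * this
  have h5 : (MvPowerSeries.X 2 ^ 2 - MvPowerSeries.C (π c) : EA A) ^ N ∈
      Ideal.span {(MvPowerSeries.C (π ϖ) : EA A)} := by
    rw [← h3, ← map_pow, ← hab, map_add, h1, zero_add]
    exact h2
  have h6 : (MvPowerSeries.C (π c) : EA A) ∈ Ideal.span {(MvPowerSeries.C (π ϖ) : EA A)} := by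
    rw [Ideal.mem_span_singleton] at hc ⊢
    obtain ⟨c', rfl⟩ := hc
    rw [map_mul, map_mul]
    exact Dvd.intro _ rfl
  have h7 : (MvPowerSeries.X 2 ^ 2 : EA A) ^ N ∈ Ideal.span {(MvPowerSeries.C (π ϖ) : EA A)} := by
    have h8 : (MvPowerSeries.X 2 ^ 2 : EA A) ^ N - (MvPowerSeries.X 2 ^ 2 -
        MvPowerSeries.C (π c)) ^ N ∈ Ideal.span {(MvPowerSeries.C (π ϖ) : EA A)} := by
      rw [Ideal.mem_span_singleton] at h6 ⊢
      refine dvd_trans ?_ (sub_dvd_pow_sub_pow _ _ N)
      rw [sub_sub_cancel]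
      exact h6
    have := Ideal.add_mem _ h8 h5
    simpa using this
  rw [Ideal.mem_span_singleton, ← pow_mul] at h7
  obtain ⟨y, hy⟩ := h7
  have h8 := congrArg (MvPowerSeries.coeff (Finsupp.single 2 (2 * N))) hy
  rw [MvPowerSeries.coeff_X_pow, if_pos rfl, MvPowerSeries.coeff_C_mul] at h8
  have h9 : π ϖ ∈ maximalIdeal A := hπm ϖ hϖ
  exact h9 (IsUnit.of_mul_eq_one _ h8.symm)

end

end Fermat.Agent.Patch
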