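import Mathlib

/-!
# Ultrafilter limits in complete rings with finite quotients
-/

set_option autoImplicit false

namespace Fermat.Agent.Patch

open Filter

section

variable {R : Type*} [CommRing R] (𝓤 : Ultrafilter ℕ) (I : Ideal R)

/-- `L` is the limit of the sequence `a` along `𝓤`. -/
def IsULim (a : ℕ → R) (L : R) : Prop := ∀ k, ∀ᶠ n in (𝓤 : Filter ℕ), a n - L ∈ I ^ k

variable {𝓤 I}

theorem IsULim.add {a b : ℕ → R} {L M : R} (ha : IsULim 𝓤 I a L) (hb : IsULim 𝓤 I b M) :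
    IsULim 𝓤 I (fun n => a n + b n) (L + M) := by
  intro k
  filter_upwards [ha k, hb k] with n h1 h2
  rw [show a n + b n - (L + M) = (a n - L) + (b n - M) by ring]
  exact Ideal.add_mem _ h1 h2

theorem IsULim.sub {a b : ℕ → R} {L M : R} (ha : IsULim 𝓤 I a L) (hb : IsULim 𝓤 I b M) :
    IsULim 𝓤 I (fun n => a n - b n) (L - M) := by
  intro k
  filter_upwards [ha k, hb k] with n h1 h2
  rw [show a n - b n - (L - M) = (a n - L) - (b n - M) by ring]
  exact Ideal.sub_mem _ h1 h2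

theorem IsULim.mul {a b : ℕ → R} {L M : R} (ha : IsULim 𝓤 I a L) (hb : IsULim 𝓤 I b M) :
    IsULim 𝓤 I (fun n => a n * b n) (L * M) := by
  intro k
  filter_upwards [ha k, hb k] with n h1 h2
  rw [show a n * b n - L * M = (a n - L) * b n + L * (b n - M) by ring]
  exact Ideal.add_mem _ (Ideal.mul_mem_right _ _ h1) (Ideal.mul_mem_left _ _ h2)

theorem IsULim.const (c : R) : IsULim 𝓤 I (fun _ => c) c := by
  intro k
  filter_upwards with n
  simp

theorem IsULim.sum {ι : Type*} (s : Finset ι) {a : ι → ℕ → R} {L : ι → R}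
    (h : ∀ i ∈ s, IsULim 𝓤 I (a i) (L i)) :
    IsULim 𝓤 I (fun n => ∑ i ∈ s, a i n) (∑ i ∈ s, L i) := by
  classical
  induction s using Finset.induction_on with
  | empty => simpa using IsULim.const (𝓤 := 𝓤) (I := I) (0 : R)
  | insert i s hi ih =>
    simp only [Finset.sum_insert hi]
    exact (h i (Finset.mem_insert_self i s)).add
      (ih fun j hj => h j (Finset.mem_insert_of_mem hj))

theorem IsULim.unique [IsHausdorff I R] {a : ℕ → R} {L M : R} (h1 : IsULim 𝓤 I a L)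
    (h2 : IsULim 𝓤 I a M) : L = M := by
  rw [← sub_eq_zero]
  refine IsHausdorff.haus (I := I) inferInstance _ (fun k => ?_)
  rw [SModEq.zero, smul_eq_mul, Ideal.mul_top]
  obtain ⟨n, hn1, hn2⟩ := ((h1 k).and (h2 k)).exists
  rw [show L - M = (a n - M) - (a n - L) by ring]
  exact Ideal.sub_mem _ hn2 hn1

theorem isULim_zero_of_mem (h𝓤 : (𝓤 : Filter ℕ) ≤ atTop) {a : ℕ → R}
    (ha : ∀ n, a n ∈ I ^ n) : IsULim 𝓤 I a 0 := by
  intro k
  filter_upwards [h𝓤 (eventually_ge_atTop k)] with n hn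
  rw [sub_zero]
  exact Ideal.pow_le_pow_right hn (ha n)

theorem exists_ulim [IsPrecomplete I R] (hfin : ∀ k, Finite (R ⧸ I ^ k)) (a : ℕ → R) :
    ∃ L, IsULim 𝓤 I a L := by
  have h1 : ∀ k, ∃ u : R, ∀ᶠ n in (𝓤 : Filter ℕ), a n - u ∈ I ^ k := by
    intro k
    have := hfin k
    have h2 : ∀ᶠ n in (𝓤 : Filter ℕ), ∃ c ∈ (Set.univ : Set (R ⧸ I ^ k)),
        Ideal.Quotient.mk (I ^ k) (a n) = c := by
      filter_upwards with n
      exact ⟨_, trivial, rfl⟩
    rw [Ultrafilter.eventually_exists_mem_iff Set.finite_univ] at h2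
    obtain ⟨c, -, hc⟩ := h2
    obtain ⟨u, rfl⟩ := Ideal.Quotient.mk_surjective c
    refine ⟨u, ?_⟩
    filter_upwards [hc] with n hn
    exact Ideal.Quotient.eq.mp hn
  choose u hu using h1
  obtain ⟨L, hL⟩ := IsPrecomplete.prec' (I := I) u (by
    intro m n hmn
    rw [SModEq.sub_mem, smul_eq_mul, Ideal.mul_top]
    obtain ⟨j, hj1, hj2⟩ := ((hu m).and (hu n)).exists
    rw [show u m - u n = (a j - u n) - (a j - u m) by ring]
    exact Ideal.sub_mem _ (Ideal.pow_le_pow_right hmn hj2) hj1)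
  refine ⟨L, fun k => ?_⟩
  filter_upwards [hu k] with n hn
  have h3 := hL k
  rw [SModEq.sub_mem, smul_eq_mul, Ideal.mul_top] at h3
  rw [show a n - L = (a n - u k) + (u k - L) by ring]
  exact Ideal.add_mem _ hn h3

theorem IsULim.mem {k : ℕ} {a : ℕ → R} {L : R} (h : IsULim 𝓤 I a L)
    (ha : ∀ᶠ n in (𝓤 : Filter ℕ), a n ∈ I ^ k) : L ∈ I ^ k := by
  obtain ⟨n, h1, h2⟩ := ((h k).and ha).exists
  have := Ideal.sub_mem _ h2 h1
  simpa using this

end

end Fermat.Agent.Patch
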