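import Mathlib
import Fermat.Agent.Patch.ULim

/-!
# Patching by ultrafilter limits of matrices
-/

set_option autoImplicit false

namespace Fermat.Agent.Patch

open Filter IsLocalRing

/-- `N` is a `P`-module which is free of rank `d` over `Λ / J` (with `Λ` acting through `φ`). -/
structure Lev {Λ P : Type*} [CommRing Λ] [CommRing P] (J : Ideal Λ) (φ : Λ →+* P) (d : ℕ)
    (N : Type*) [AddCommGroup N] [Module P N] where
  /-- basis -/
  b : Fin d → N
  b_span : ∀ x : N, ∃ c : Fin d → Λ, x = ∑ i, φ (c i) • b i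
  b_rel : ∀ c : Fin d → Λ, ∑ i, φ (c i) • b i = 0 ↔ ∀ i, c i ∈ J

namespace Lev

section

variable {Λ P : Type*} [CommRing Λ] [CommRing P] {J : Ideal Λ} {φ : Λ →+* P} {d : ℕ}
  {N : Type*} [AddCommGroup N] [Module P N] (L : Lev J φ d N)

include L

theorem congr_of_eq {c c' : Fin d → Λ} (h : ∑ i, φ (c i) • L.b i = ∑ i, φ (c' i) • L.b i) (i : Fin d) :
    c i - c' i ∈ J := by
  have h1 : ∑ i, φ ((c - c') i) • L.b i = 0 := by
    simp only [Pi.sub_apply, map_sub, sub_smul, Finset.sum_sub_distrib, h, sub_self]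
  exact (L.b_rel _).mp h1 i

/-- matrix of the action of `f : P`, well defined modulo `J`. -/
noncomputable def mat (f : P) : Matrix (Fin d) (Fin d) Λ :=
  Matrix.of fun i j => (L.b_span (f • L.b j)).choose i

theorem mat_spec (f : P) (j : Fin d) : f • L.b j = ∑ i, φ (L.mat f i j) • L.b i :=
  (L.b_span (f • L.b j)).choose_spec

theorem mat_add (f g : P) (i j : Fin d) :
    L.mat (f + g) i j - (L.mat f i j + L.mat g i j) ∈ J := by
  apply L.congr_of_eq (c := fun i => L.mat (f + g) i j) (c' := fun i => L.mat f i j + L.mat g i j)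
  simp only [map_add, add_smul, Finset.sum_add_distrib, ← L.mat_spec]

theorem mat_sub (f g : P) (i j : Fin d) :
    L.mat (f - g) i j - (L.mat f i j - L.mat g i j) ∈ J := by
  apply L.congr_of_eq (c := fun i => L.mat (f - g) i j) (c' := fun i => L.mat f i j - L.mat g i j)
  simp only [map_sub, sub_smul, Finset.sum_sub_distrib, ← L.mat_spec]

theorem mat_mul (f g : P) (i j : Fin d) :
    L.mat (f * g) i j - (L.mat f * L.mat g) i j ∈ J := by
  apply L.congr_of_eq (c := fun i => L.mat (f * g) i j) (c' := fun i => (L.mat f * L.mat g) i j)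
  rw [← L.mat_spec, mul_smul, L.mat_spec g, Finset.smul_sum]
  have h1 : ∀ k, f • φ (L.mat g k j) • L.b k = ∑ i, φ (L.mat f i k * L.mat g k j) • L.b i := by
    intro k
    rw [smul_comm, L.mat_spec f, Finset.smul_sum]
    refine Finset.sum_congr rfl fun i _ => ?_
    rw [smul_smul, map_mul, mul_comm]
  simp only [h1]
  rw [Finset.sum_comm]
  refine Finset.sum_congr rfl fun i _ => ?_
  rw [Matrix.mul_apply, map_sum, Finset.sum_smul]

theorem mat_phi (s : Λ) (i j : Fin d) :
    L.mat (φ s) i j - (if i = j then s else 0) ∈ J := by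
  apply L.congr_of_eq (c := fun i => L.mat (φ s) i j) (c' := fun i => if i = j then s else 0)
  rw [← L.mat_spec]
  rw [Finset.sum_eq_single j]
  · rw [if_pos rfl]
  · intro k _ hk
    rw [if_neg hk, map_zero, zero_smul]
  · intro h; exact absurd (Finset.mem_univ j) h

theorem mat_mem_of_smul_mem (f : P) (K : Ideal Λ)
    (h : ∀ x : N, f • x ∈ (K.map φ) • (⊤ : Submodule P N)) (i j : Fin d) :
    L.mat f i j ∈ K ⊔ J := by
  -- every element of `K N` is a combination with coefficients in `K`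
  have h1 : ∀ y ∈ (K.map φ) • (⊤ : Submodule P N), ∃ c : Fin d → Λ, (∀ i, c i ∈ K) ∧
      y = ∑ i, φ (c i) • L.b i := by
    intro y hy
    refine Submodule.smul_induction_on hy ?_ ?_
    · intro a ha n _
      refine Submodule.span_induction ?_ ?_ ?_ ?_ ha (p := fun a _ => ∀ n : N, ∃ c : Fin d → Λ,
        (∀ i, c i ∈ K) ∧ a • n = ∑ i, φ (c i) • L.b i) n
      · rintro _ ⟨k, hk, rfl⟩ n
        obtain ⟨c, hc⟩ := L.b_span n
        refine ⟨fun i => k * c i, fun i => Ideal.mul_mem_right _ _ hk, ?_⟩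
        rw [hc, Finset.smul_sum]
        refine Finset.sum_congr rfl fun i _ => ?_
        rw [smul_smul, map_mul]
      · intro n
        exact ⟨0, fun i => K.zero_mem, by simp⟩
      · intro a a' _ _ h h' n
        obtain ⟨c, hc, hcn⟩ := h n
        obtain ⟨c', hc', hcn'⟩ := h' n
        refine ⟨c + c', fun i => K.add_mem (hc i) (hc' i), ?_⟩
        simp only [Pi.add_apply, map_add, add_smul, Finset.sum_add_distrib, hcn, hcn']
      · intro r a _ h n
        obtain ⟨c, hc, hcn⟩ := h (r • n)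
        refine ⟨c, hc, ?_⟩
        rw [← hcn, smul_smul, smul_eq_mul, mul_comm]
    · rintro y y' ⟨c, hc, rfl⟩ ⟨c', hc', rfl⟩
      refine ⟨c + c', fun i => K.add_mem (hc i) (hc' i), ?_⟩
      simp only [Pi.add_apply, map_add, add_smul, Finset.sum_add_distrib]
  obtain ⟨c, hc, hcn⟩ := h1 _ (h (L.b j))
  have h2 := L.congr_of_eq (c := fun i => L.mat f i j) (c' := c) (by rw [← hcn, L.mat_spec]) i
  have h3 : L.mat f i j = c i + (L.mat f i j - c i) := by ring
  rw [h3]
  exact Submodule.add_mem_sup (hc i) h2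

end

end Lev

/-- A finite module over a local ring is killed by the power of the maximal ideal of exponent its
cardinality. -/
theorem pow_card_smul_eq_bot {P V : Type*} [CommRing P] [IsLocalRing P] [AddCommGroup V] [Module P V]
    [Finite V] (n : ℕ) (hn : Nat.card V ≤ n) :
    (maximalIdeal P) ^ n • (⊤ : Submodule P V) = ⊥ := by
  have key : ∀ j : ℕ, (maximalIdeal P) ^ j • (⊤ : Submodule P V) = ⊥ ∨
      Nat.card ((maximalIdeal P) ^ j • (⊤ : Submodule P V) : Submodule P V) + j ≤ Nat.card V := by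
    intro j
    induction j with
    | zero =>
      right
      rw [pow_zero, Ideal.one_eq_top, Submodule.top_smul, add_zero]
      exact Nat.card_mono (Set.toFinite _) le_rfl |>.trans (by
        simp)
    | succ j ih =>
      rcases ih with h | h
      · left
        rw [pow_succ', Submodule.mul_smul, h, Submodule.smul_bot]
      · by_cases h0 : (maximalIdeal P) ^ j • (⊤ : Submodule P V) = ⊥
        · left
          rw [pow_succ', Submodule.mul_smul, h0, Submodule.smul_bot]
        · right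
          have hlt : (maximalIdeal P) ^ (j + 1) • (⊤ : Submodule P V) <
              (maximalIdeal P) ^ j • (⊤ : Submodule P V) := by
            rw [pow_succ', Submodule.mul_smul]
            refine lt_of_le_of_ne Submodule.smul_le_right ?_
            intro heq
            apply h0
            refine Submodule.eq_bot_of_le_smul_of_le_jacobson_bot (maximalIdeal P) _ ?_ heq.ge
              (IsLocalRing.maximalIdeal_le_jacobson _)
            exact Submodule.FG.of_finite
          have h3 : Nat.card ((maximalIdeal P) ^ (j + 1) • (⊤ : Submodule P V) : Submodule P V) <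
              Nat.card ((maximalIdeal P) ^ j • (⊤ : Submodule P V) : Submodule P V) :=
            Set.ncard_lt_ncard hlt (Set.toFinite _)
          omega
  rcases key n with h | h
  · exact h
  · exfalso
    have : 0 < Nat.card ((maximalIdeal P) ^ n • (⊤ : Submodule P V) : Submodule P V) :=
      Nat.card_pos
    omega

/-- uniform continuity of the action -/
theorem Lev.smul_mem {Λ P : Type*} [CommRing Λ] [IsLocalRing Λ] [CommRing P] [IsLocalRing P]
    {J : Ideal Λ} {φ : Λ →+* P} {d : ℕ} {N : Type*} [AddCommGroup N] [Module P N]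
    (L : Lev J φ d N) [Finite (ResidueField Λ)] (c : ℕ)
    (hc : Nat.card (Fin d → ResidueField Λ) ≤ c)
    (k : ℕ) (f : P) (hf : f ∈ maximalIdeal P ^ (c * k)) (x : N) :
    f • x ∈ (((maximalIdeal Λ) ^ k).map φ) • (⊤ : Submodule P N) := by
  set K : Ideal P := (maximalIdeal Λ).map φ with hK
  let V := N ⧸ (K • (⊤ : Submodule P N))
  -- surjection from a finite set
  let g : (Fin d → ResidueField Λ) → V := fun u =>
    Submodule.Quotient.mk (∑ i, φ ((residue_surjective (R := Λ) (u i)).choose) • L.b i)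
  have hg : Function.Surjective g := by
    intro v
    obtain ⟨y, rfl⟩ := Submodule.Quotient.mk_surjective _ v
    obtain ⟨a, rfl⟩ := L.b_span y
    refine ⟨fun i => residue Λ (a i), ?_⟩
    simp only [g]
    rw [Submodule.Quotient.eq, ← Finset.sum_sub_distrib]
    refine Submodule.sum_mem _ fun i _ => ?_
    rw [← sub_smul, ← map_sub]
    refine Submodule.smul_mem_smul (Ideal.mem_map_of_mem _ ?_) trivial
    rw [← residue_eq_zero_iff, map_sub,
      (residue_surjective (R := Λ) (residue Λ (a i))).choose_spec, sub_self]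
  have hVfin : Finite V := Finite.of_surjective g hg
  have hVcard : Nat.card V ≤ c := (Nat.card_le_card_of_surjective g hg).trans hc
  have h1 := pow_card_smul_eq_bot (P := P) (V := V) c hVcard
  have h2 : (maximalIdeal P) ^ c • (⊤ : Submodule P N) ≤ K • (⊤ : Submodule P N) := by
    have h3 : Submodule.map (K • (⊤ : Submodule P N)).mkQ ((maximalIdeal P) ^ c • ⊤) = ⊥ := by
      rw [Submodule.map_smul'', Submodule.map_top, Submodule.range_mkQ]
      exact h1
    intro y hy
    have h5 : (K • (⊤ : Submodule P N)).mkQ y ∈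
        Submodule.map (K • (⊤ : Submodule P N)).mkQ ((maximalIdeal P) ^ c • ⊤) := ⟨y, hy, rfl⟩
    rw [h3, Submodule.mem_bot, Submodule.mkQ_apply, Submodule.Quotient.mk_eq_zero] at h5
    exact h5
  have h4 : ∀ j : ℕ, (maximalIdeal P) ^ (c * j) • (⊤ : Submodule P N) ≤
      K ^ j • (⊤ : Submodule P N) := by
    intro j
    induction j with
    | zero => simp
    | succ j ih =>
      rw [mul_add, mul_one, pow_add, Submodule.mul_smul, pow_succ, Submodule.mul_smul]
      calc (maximalIdeal P) ^ (c * j) • (maximalIdeal P) ^ c • (⊤ : Submodule P N)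
          ≤ (maximalIdeal P) ^ (c * j) • K • (⊤ : Submodule P N) := Submodule.smul_mono le_rfl h2
        _ = K • (maximalIdeal P) ^ (c * j) • (⊤ : Submodule P N) := by
          rw [← Submodule.mul_smul, ← Submodule.mul_smul, mul_comm]
        _ ≤ K • K ^ j • (⊤ : Submodule P N) := Submodule.smul_mono le_rfl ih
        _ = K ^ j • K • (⊤ : Submodule P N) := by
          rw [← Submodule.mul_smul, ← Submodule.mul_smul, mul_comm]
  rw [Ideal.map_pow]
  exact h4 k (Submodule.smul_mem_smul hf trivial)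

theorem Lev.mat_mem_pow {Λ P : Type*} [CommRing Λ] [IsLocalRing Λ] [CommRing P] [IsLocalRing P]
    {J : Ideal Λ} {φ : Λ →+* P} {d : ℕ} {N : Type*} [AddCommGroup N] [Module P N]
    (L : Lev J φ d N) [Finite (ResidueField Λ)] (c : ℕ)
    (hc : Nat.card (Fin d → ResidueField Λ) ≤ c)
    (k : ℕ) (f : P) (hf : f ∈ maximalIdeal P ^ (c * k)) (i j : Fin d) :
    L.mat f i j ∈ (maximalIdeal Λ) ^ k ⊔ J :=
  L.mat_mem_of_smul_mem f _ (L.smul_mem c hc k f hf) i j

theorem finite_quotient_pow {R : Type*} [CommRing R] [IsLocalRing R] [IsNoetherianRing R]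
    [h : Finite (ResidueField R)] (k : ℕ) : Finite (R ⧸ (maximalIdeal R) ^ k) := by
  have : Finite (R ⧸ maximalIdeal R) := h
  exact Ideal.finite_quotient_pow (IsNoetherian.noetherian _) k

theorem mem_of_forall_mem_sup_pow {R : Type*} [CommRing R] [IsLocalRing R] [IsNoetherianRing R]
    (K : Ideal R) (x : R) (h : ∀ k : ℕ, x ∈ K ⊔ maximalIdeal R ^ k) : x ∈ K := by
  by_cases htop : K = ⊤
  · rw [htop]; trivial
  have hne : Nontrivial (R ⧸ K) := Ideal.Quotient.nontrivial_iff.mpr htop
  have hloc : IsLocalRing (R ⧸ K) :=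
    IsLocalRing.of_surjective' (Ideal.Quotient.mk K) Ideal.Quotient.mk_surjective
  rw [← Ideal.Quotient.eq_zero_iff_mem]
  have h7 : Ideal.Quotient.mk K x ∈
      ⨅ N : ℕ, ((maximalIdeal R).map (Ideal.Quotient.mk K)) ^ N := by
    rw [Ideal.mem_iInf]
    intro N
    obtain ⟨r, hr, y, hy, hry⟩ := Submodule.mem_sup.mp (h N)
    rw [← hry, map_add, Ideal.Quotient.eq_zero_iff_mem.mpr hr, zero_add, ← Ideal.map_pow]
    exact Ideal.mem_map_of_mem _ hy
  rw [Ideal.iInf_pow_eq_bot_of_isLocalRing] at h7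
  · exact h7
  · intro h8
    have h9 : K ≤ maximalIdeal R := le_maximalIdeal htop
    have h10 := Ideal.comap_map_of_surjective (Ideal.Quotient.mk K)
      Ideal.Quotient.mk_surjective (maximalIdeal R)
    rw [h8, Ideal.comap_top, ← RingHom.ker_eq_comap_bot, Ideal.mk_ker,
      sup_eq_left.mpr h9] at h10
    exact (maximalIdeal.isMaximal R).ne_top h10.symm

/-- **Patching.** -/
theorem exists_patch {Λ P : Type*} [CommRing Λ] [IsLocalRing Λ] [IsNoetherianRing Λ]
    [IsAdicComplete (maximalIdeal Λ) Λ] [Finite (ResidueField Λ)]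
    [CommRing P] [IsLocalRing P] [IsNoetherianRing P]
    [IsAdicComplete (maximalIdeal P) P] [Finite (ResidueField P)]
    (d : ℕ) (J : ℕ → Ideal Λ) (hJ : ∀ n, J n ≤ maximalIdeal Λ ^ n) (φ : ℕ → (Λ →+* P))
    (N : ℕ → Type*) [∀ n, AddCommGroup (N n)] [∀ n, Module P (N n)]
    (L : ∀ n, Lev (J n) (φ n) d (N n)) :
    ∃ (A : P →+* Matrix (Fin d) (Fin d) Λ) (ψ : Λ →+* P),
      (∀ s, A (ψ s) = s • (1 : Matrix (Fin d) (Fin d) Λ)) ∧
      (∀ s c, (∀ n, φ n s = c) → ψ s = c) ∧
      (∀ f (K : Ideal Λ), (∀ n, ∀ x : N n, f • x ∈ (K.map (φ n)) • (⊤ : Submodule P (N n))) →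
        ∀ i j, A f i j ∈ K) := by
  classical
  let 𝓤 : Ultrafilter ℕ := hyperfilter ℕ
  have h𝓤 : (𝓤 : Filter ℕ) ≤ atTop := Nat.hyperfilter_le_atTop
  -- limits in `Λ`
  have hΛ : ∀ a : ℕ → Λ, ∃ l, IsULim 𝓤 (maximalIdeal Λ) a l := fun a =>
    exists_ulim (fun k => finite_quotient_pow k) a
  have hP : ∀ a : ℕ → P, ∃ l, IsULim 𝓤 (maximalIdeal P) a l := fun a =>
    exists_ulim (fun k => finite_quotient_pow k) a
  choose lim hlim using hΛ
  choose limP hlimP using hP
  have huniq : ∀ {a : ℕ → Λ} {l : Λ}, IsULim 𝓤 (maximalIdeal Λ) a l → lim a = l := fun h =>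
    (hlim _).unique h
  have huniqP : ∀ {a : ℕ → P} {l : P}, IsULim 𝓤 (maximalIdeal P) a l → limP a = l := fun h =>
    (hlimP _).unique h
  -- changing a sequence by elements of `J n`
  have hcongr : ∀ {a b : ℕ → Λ} {l : Λ}, (∀ n, a n - b n ∈ J n) →
      IsULim 𝓤 (maximalIdeal Λ) b l → IsULim 𝓤 (maximalIdeal Λ) a l := by
    intro a b l hab hb
    have h1 := (isULim_zero_of_mem h𝓤 (fun n => hJ n (hab n))).add hb
    simpa using h1
  let A₀ : P → Matrix (Fin d) (Fin d) Λ := fun f => Matrix.of fun i j => lim fun n => (L n).mat f i j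
  have hA₀ : ∀ f i j, IsULim 𝓤 (maximalIdeal Λ) (fun n => (L n).mat f i j) (A₀ f i j) :=
    fun f i j => hlim _
  let ψ₀ : Λ → P := fun s => limP fun n => φ n s
  have hψ₀ : ∀ s, IsULim 𝓤 (maximalIdeal P) (fun n => φ n s) (ψ₀ s) := fun s => hlimP _
  have hphi : ∀ (t : Λ) i j, IsULim 𝓤 (maximalIdeal Λ) (fun n => (L n).mat (φ n t) i j)
      (if i = j then t else 0) := fun t i j =>
    hcongr (fun n => (L n).mat_phi t i j) (IsULim.const _)
  have hA1 : A₀ 1 = 1 := by
    ext i j
    rw [Matrix.one_apply]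
    refine (hA₀ 1 i j).unique ?_
    have := hphi 1 i j
    simpa using this
  have hAmul : ∀ f g, A₀ (f * g) = A₀ f * A₀ g := by
    intro f g
    ext i j
    refine (hA₀ (f * g) i j).unique (hcongr (fun n => (L n).mat_mul f g i j) ?_)
    simp only [Matrix.mul_apply]
    exact IsULim.sum _ fun k _ => (hA₀ f i k).mul (hA₀ g k j)
  have hAadd : ∀ f g, A₀ (f + g) = A₀ f + A₀ g := by
    intro f g
    ext i j
    refine (hA₀ (f + g) i j).unique (hcongr (fun n => (L n).mat_add f g i j) ?_)
    exact (hA₀ f i j).add (hA₀ g i j)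
  let A : P →+* Matrix (Fin d) (Fin d) Λ := RingHom.mk' ⟨⟨A₀, hA1⟩, hAmul⟩ hAadd
  have hψ1 : ψ₀ 1 = 1 := by
    refine (hψ₀ 1).unique ?_
    simp only [map_one]
    exact IsULim.const _
  have hψmul : ∀ s t, ψ₀ (s * t) = ψ₀ s * ψ₀ t := by
    intro s t
    refine (hψ₀ _).unique ?_
    simp only [map_mul]
    exact (hψ₀ s).mul (hψ₀ t)
  have hψadd : ∀ s t, ψ₀ (s + t) = ψ₀ s + ψ₀ t := by
    intro s t
    refine (hψ₀ _).unique ?_
    simp only [map_add]
    exact (hψ₀ s).add (hψ₀ t)
  let ψ : Λ →+* P := RingHom.mk' ⟨⟨ψ₀, hψ1⟩, hψmul⟩ hψadd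
  refine ⟨A, ψ, ?_, ?_, ?_⟩
  · intro s
    ext i j
    have h1 : (s • (1 : Matrix (Fin d) (Fin d) Λ)) i j = if i = j then s else 0 := by
      rw [Matrix.smul_apply, Matrix.one_apply, smul_eq_mul, mul_ite, mul_one, mul_zero]
    rw [h1]
    show A₀ (ψ₀ s) i j = _
    refine (hA₀ _ i j).unique ?_
    -- `mat (ψ s) - mat (φ n s) → 0`
    have h2 : IsULim 𝓤 (maximalIdeal Λ) (fun n => (L n).mat (ψ₀ s - φ n s) i j) 0 := by
      intro k
      have hc := le_refl (Nat.card (Fin d → ResidueField Λ))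
      filter_upwards [hψ₀ s (Nat.card (Fin d → ResidueField Λ) * k),
        h𝓤 (eventually_ge_atTop k)] with n hn hkn
      rw [sub_zero]
      have h3 : ψ₀ s - φ n s ∈ maximalIdeal P ^ (Nat.card (Fin d → ResidueField Λ) * k) := by
        rw [← neg_mem_iff, neg_sub]; exact hn
      have h4 := (L n).mat_mem_pow _ hc k _ h3 i j
      have h5 : (maximalIdeal Λ) ^ k ⊔ J n ≤ (maximalIdeal Λ) ^ k :=
        sup_le le_rfl ((hJ n).trans (Ideal.pow_le_pow_right hkn))
      exact h5 h4
    have h6 := h2.add (hphi s i j)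
    rw [zero_add] at h6
    refine hcongr (fun n => ?_) h6
    have h7 := (L n).mat_add (ψ₀ s - φ n s) (φ n s) i j
    rwa [sub_add_cancel] at h7
  · intro s c h
    show ψ₀ s = c
    refine (hψ₀ s).unique ?_
    simp only [h]
    exact IsULim.const _
  · intro f K h i j
    show A₀ f i j ∈ K
    apply mem_of_forall_mem_sup_pow
    intro k
    obtain ⟨n, hn1, hn2⟩ := ((hA₀ f i j k).and (h𝓤 (eventually_ge_atTop k))).exists
    have h1 := (L n).mat_mem_of_smul_mem f K (h n) i j
    have h2 : K ⊔ J n ≤ K ⊔ maximalIdeal Λ ^ k :=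
      sup_le_sup le_rfl ((hJ n).trans (Ideal.pow_le_pow_right hn2))
    have h3 := Ideal.sub_mem _ (h2 h1) (Ideal.mem_sup_right (S := K) (T := maximalIdeal Λ ^ k) hn1)
    simpa using h3

end Fermat.Agent.Patch
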