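import Mathlib
import Fermat.Agent.Patch.Block
import Fermat.Agent.Patch.Limit
import Fermat.Agent.CommAlg.RegularGlobalDim

/-!
# The patched situation is contradictory
-/

set_option autoImplicit false

namespace Fermat.Agent.Patch

open IsLocalRing

theorem dim_lambda (𝒪 : Type) [CommRing 𝒪] [IsDomain 𝒪] [IsDiscreteValuationRing 𝒪] (r : ℕ) :
    ((r + 1 : ℕ) : WithBot ℕ∞) ≤ ringKrullDim (MvPowerSeries (Fin r) 𝒪) := by
  obtain ⟨ϖ, hϖ⟩ := IsDiscreteValuationRing.exists_irreducible 𝒪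
  obtain ⟨rs, hlen, hreg, hmax, -⟩ := CommAlg.exists_regular_generators 𝒪 ϖ hϖ r
  have hreg' : RingTheory.Sequence.IsRegular (MvPowerSeries (Fin r) 𝒪) rs := by
    refine ⟨hreg, ?_⟩
    rw [hmax]
    intro h
    have h1 : (maximalIdeal (MvPowerSeries (Fin r) 𝒪)) = ⊤ := by
      rw [h]; simp
    exact (maximalIdeal.isMaximal (MvPowerSeries (Fin r) 𝒪)).ne_top h1
  rw [← ringKrullDim_add_length_eq_ringKrullDim_of_isRegular rs hreg', hlen]
  have h2 : Nontrivial (MvPowerSeries (Fin r) 𝒪 ⧸ Ideal.ofList rs) := by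
    rw [hmax]; infer_instance
  have h3 := ringKrullDim_nonneg_of_nontrivial (R := MvPowerSeries (Fin r) 𝒪 ⧸ Ideal.ofList rs)
  calc ((r + 1 : ℕ) : WithBot ℕ∞) = 0 + ((r + 1 : ℕ) : WithBot ℕ∞) := by rw [zero_add]
    _ ≤ _ := by gcongr

theorem dim_le_of_integral {Λ S : Type*} [CommRing Λ] [CommRing S] [Algebra Λ S]
    [Algebra.IsIntegral Λ S] (hinj : Function.Injective (algebraMap Λ S)) :
    ringKrullDim Λ ≤ ringKrullDim S := by
  refine iSup_le fun l => ?_
  obtain ⟨Q, -, hQ, hQl⟩ := Ideal.exists_ideal_over_prime_of_isIntegral (S := S)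
    (RelSeries.head l).asIdeal (⊥ : Ideal S) (by
      intro x hx
      have : algebraMap Λ S x = 0 := by simpa using hx
      rw [(injective_iff_map_eq_zero _).mp hinj x this]
      exact Ideal.zero_mem _)
  have hlo : Q.LiesOver (RelSeries.head l).asIdeal := ⟨hQl.symm⟩
  obtain ⟨L, hL, -, -⟩ := Ideal.exists_ltSeries_of_hasGoingUp l Q
  rw [← hL]
  exact le_iSup (fun L : LTSeries (PrimeSpectrum S) => (L.length : WithBot ℕ∞)) L

theorem exists_prime_of_matrix {Λ P : Type*} [CommRing Λ] [IsDomain Λ] [CommRing P] {d : ℕ}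
    (hd : 0 < d) (A : P →+* Matrix (Fin d) (Fin d) Λ) (ψ : Λ →+* P)
    (hψ : ∀ s, A (ψ s) = s • (1 : Matrix (Fin d) (Fin d) Λ)) :
    ∃ p : Ideal P, p.IsPrime ∧ RingHom.ker A ≤ p ∧ (∀ s, ψ s ∈ p → s = 0) ∧
      ringKrullDim Λ ≤ ringKrullDim (P ⧸ p) := by
  have hne : Nonempty (Fin d) := ⟨⟨0, hd⟩⟩
  let π : P →+* P ⧸ RingHom.ker A := Ideal.Quotient.mk _
  let _ : Algebra Λ (P ⧸ RingHom.ker A) := (π.comp ψ).toAlgebra
  have halg : ∀ s, algebraMap Λ (P ⧸ RingHom.ker A) s = π (ψ s) := fun s => rfl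
  have hA1 : ∀ s : Λ, s • (1 : Matrix (Fin d) (Fin d) Λ) = 0 → s = 0 := by
    intro s hs
    have := congrFun (congrFun hs ⟨0, hd⟩) ⟨0, hd⟩
    simpa using this
  have hinj : Function.Injective (algebraMap Λ (P ⧸ RingHom.ker A)) := by
    rw [injective_iff_map_eq_zero]
    intro s hs
    rw [halg] at hs
    have h1 : ψ s ∈ RingHom.ker A := Ideal.Quotient.eq_zero_iff_mem.mp hs
    rw [RingHom.mem_ker, hψ] at h1
    exact hA1 s h1
  have hint : Algebra.IsIntegral Λ (P ⧸ RingHom.ker A) := by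
    constructor
    intro x
    obtain ⟨f, rfl⟩ := Ideal.Quotient.mk_surjective x
    refine ⟨(A f).charpoly, (A f).charpoly_monic, ?_⟩
    rw [Polynomial.eval₂_eq_sum_range]
    have h1 : ∑ i ∈ Finset.range ((A f).charpoly.natDegree + 1),
        algebraMap Λ (P ⧸ RingHom.ker A) ((A f).charpoly.coeff i) * (Ideal.Quotient.mk _ f) ^ i =
        π (∑ i ∈ Finset.range ((A f).charpoly.natDegree + 1), ψ ((A f).charpoly.coeff i) * f ^ i) := by
      rw [map_sum]
      refine Finset.sum_congr rfl fun i _ => ?_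
      rw [map_mul, map_pow]
      rfl
    rw [h1]
    refine Ideal.Quotient.eq_zero_iff_mem.mpr ?_
    rw [RingHom.mem_ker, map_sum]
    have h2 := (A f).aeval_self_charpoly
    rw [Polynomial.aeval_eq_sum_range] at h2
    rw [← h2]
    refine Finset.sum_congr rfl fun i _ => ?_
    rw [map_mul, map_pow, hψ, smul_mul_assoc, one_mul]
  obtain ⟨Q, -, hQ, hQl⟩ := Ideal.exists_ideal_over_prime_of_isIntegral
    (S := P ⧸ RingHom.ker A) (⊥ : Ideal Λ) (⊥ : Ideal (P ⧸ RingHom.ker A)) (by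
      intro x hx
      have : algebraMap Λ (P ⧸ RingHom.ker A) x = 0 := by simpa using hx
      rw [(injective_iff_map_eq_zero _).mp hinj x this]
      exact Ideal.zero_mem _)
  refine ⟨Q.comap π, Ideal.comap_isPrime _ _, ?_, ?_, ?_⟩
  · intro x hx
    have : π x = 0 := Ideal.Quotient.eq_zero_iff_mem.mpr hx
    show π x ∈ Q
    rw [this]; exact Q.zero_mem
  · intro s hs
    have h1 : s ∈ Q.comap (algebraMap Λ (P ⧸ RingHom.ker A)) := hs
    rw [hQl] at h1
    simpa using h1
  · have hinj2 : Function.Injective (algebraMap Λ ((P ⧸ RingHom.ker A) ⧸ Q)) := by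
      rw [injective_iff_map_eq_zero]
      intro s hs
      have h1 : algebraMap Λ (P ⧸ RingHom.ker A) s ∈ Q := Ideal.Quotient.eq_zero_iff_mem.mp hs
      have h2 : s ∈ Q.comap (algebraMap Λ (P ⧸ RingHom.ker A)) := h1
      rw [hQl] at h2
      simpa using h2
    have h3 := dim_le_of_integral hinj2
    refine h3.trans (ringKrullDim_le_of_surjective (Ideal.quotientMap Q π le_rfl) ?_)
    exact Ideal.quotientMap_surjective Ideal.Quotient.mk_surjective

theorem pow_mem_of_matrix {Λ P : Type*} [CommRing Λ] [CommRing P] {d : ℕ}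
    (A : P →+* Matrix (Fin d) (Fin d) Λ) (ψ : Λ →+* P)
    (hψ : ∀ s, A (ψ s) = s • (1 : Matrix (Fin d) (Fin d) Λ)) (ϖ : Λ) (e : P)
    (he : ∀ i j, A e i j ∈ Ideal.span {ϖ}) :
    e ^ d ∈ RingHom.ker A ⊔ Ideal.span {ψ ϖ} := by
  rcases subsingleton_or_nontrivial Λ with hΛ | hΛ
  · have : RingHom.ker A = ⊤ := by
      rw [eq_top_iff]; intro x _
      rw [RingHom.mem_ker]
      ext i j
      exact Subsingleton.elim _ _
    rw [this, top_sup_eq]; trivial
  let π : Λ →+* Λ ⧸ Ideal.span {ϖ} := Ideal.Quotient.mk _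
  have h1 : (A e).map π = 0 := by
    ext i j
    exact Ideal.Quotient.eq_zero_iff_mem.mpr (he i j)
  have h2 : ∀ k, k < d → (A e).charpoly.coeff k ∈ Ideal.span {ϖ} := by
    intro k hk
    refine Ideal.Quotient.eq_zero_iff_mem.mp ?_
    show π _ = 0
    rw [← Polynomial.coeff_map, ← Matrix.charpoly_map]
    show (((A e).map π).charpoly).coeff k = 0
    rw [h1, Matrix.charpoly_zero, Fintype.card_fin, Polynomial.coeff_X_pow, if_neg hk.ne]
  have h3 : e ^ d + ∑ k ∈ Finset.range d, ψ ((A e).charpoly.coeff k) * e ^ k ∈ RingHom.ker A := by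
    rw [RingHom.mem_ker, map_add, map_sum]
    have h4 := (A e).aeval_self_charpoly
    rw [Polynomial.aeval_eq_sum_range, Matrix.charpoly_natDegree_eq_dim, Fintype.card_fin,
      Finset.sum_range_succ] at h4
    have h5 : (A e).charpoly.coeff d = 1 := by
      have := (A e).charpoly_monic.coeff_natDegree
      rwa [Matrix.charpoly_natDegree_eq_dim, Fintype.card_fin] at this
    rw [h5, one_smul, add_comm] at h4
    rw [← h4, map_pow]
    congr 1
    refine Finset.sum_congr rfl fun i _ => ?_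
    rw [map_mul, map_pow, hψ, smul_mul_assoc, one_mul]
  have h6 : ∑ k ∈ Finset.range d, ψ ((A e).charpoly.coeff k) * e ^ k ∈ Ideal.span {ψ ϖ} := by
    refine Ideal.sum_mem _ fun k hk => Ideal.mul_mem_right _ _ ?_
    obtain ⟨c, hc⟩ := Ideal.mem_span_singleton'.mp (h2 k (Finset.mem_range.mp hk))
    rw [← hc, map_mul]
    exact Ideal.mul_mem_left _ _ (Ideal.mem_span_singleton_self _)
  have h7 := Ideal.sub_mem _ (Ideal.mem_sup_left (T := Ideal.span {ψ ϖ}) h3)
    (Ideal.mem_sup_right (S := RingHom.ker A) h6)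
  simpa using h7

/-- the maximal ideal of a power series ring -/
theorem eq_maximalIdeal_of_mem {A σ : Type*} [CommRing A] [IsLocalRing A] [Finite σ]
    (q : Ideal (MvPowerSeries σ A)) [hq : q.IsPrime]
    (hC : ∀ a ∈ maximalIdeal A, MvPowerSeries.C a ∈ q) (hX : ∀ i, MvPowerSeries.X i ∈ q) :
    q = maximalIdeal (MvPowerSeries σ A) := by
  refine le_antisymm (le_maximalIdeal hq.ne_top) ?_
  intro c hc
  have h1 : c - MvPowerSeries.C (MvPowerSeries.constantCoeff c) ∈
      (Ideal.span (Set.range (MvPowerSeries.X : σ → MvPowerSeries σ A))) ^ 1 := by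
    apply DefRing.mem_span_X_pow_of_coeff
    intro e he
    have : e = 0 := (Finsupp.degree_eq_zero_iff e).mp (by omega)
    subst this
    simp
  rw [pow_one] at h1
  have h2 : Ideal.span (Set.range (MvPowerSeries.X : σ → MvPowerSeries σ A)) ≤ q := by
    rw [Ideal.span_le]
    rintro _ ⟨i, rfl⟩
    exact hX i
  have h3 : MvPowerSeries.constantCoeff c ∈ maximalIdeal A := by
    rw [mem_maximalIdeal, mem_nonunits_iff] at hc ⊢
    rwa [MvPowerSeries.isUnit_iff_constantCoeff] at hc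
  have h4 := Ideal.add_mem _ (h2 h1) (hC _ h3)
  simpa using h4

end Fermat.Agent.Patch
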