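import Mathlib
import Fermat.Agent.Patch.Core

/-!
# The patched situation is contradictory, final form
-/

set_option autoImplicit false

namespace Fermat.Agent.Patch

open IsLocalRing

/-- index set of the variables of the coefficient ring: the blocks other than the
distinguished one, and the remaining variables. -/
abbrev Idx (ι : Type) (g : ℕ) := (ι × Bool × Fin 3) ⊕ Fin g

/-- the quadratic form -/
def quad {R : Type*} [CommRing R] (x : Fin 3 → R) : R := x 0 ^ 2 + x 1 * x 2

/-- the explicit computation with one block -/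
theorem block_zero {R : Type*} [CommRing R] (q : Ideal R) [hq : q.IsPrime] (f s : Fin 3 → R)
    (hm : ∀ i j, f i * s j - f j * s i ∈ q) (hQ : s 0 ^ 2 + s 1 * s 2 ∈ q)
    (h0 : f 0 ∈ q) (h1 : f 1 + s 2 ∈ q) (h2 : f 2 + s 1 ∈ q) : (∀ i, f i ∈ q) ∧ ∀ i, s i ∈ q := by
  -- `s₂ s₀ ∈ q`, `s₁ s₀ ∈ q`, `s₁² - s₂² ∈ q`
  have a1 : s 2 * s 0 ∈ q := by
    have := Ideal.add_mem _ (hm 0 1) (Ideal.sub_mem _ (Ideal.mul_mem_right (s 0) _ h1)
      (Ideal.mul_mem_right (s 1) _ h0))
    convert this using 1; ring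
  have a2 : s 1 * s 0 ∈ q := by
    have := Ideal.add_mem _ (hm 0 2) (Ideal.sub_mem _ (Ideal.mul_mem_right (s 0) _ h2)
      (Ideal.mul_mem_right (s 2) _ h0))
    convert this using 1; ring
  have a3 : s 1 * s 1 - s 2 * s 2 ∈ q := by
    have := Ideal.add_mem _ (hm 1 2) (Ideal.sub_mem _ (Ideal.mul_mem_right (s 1) _ h2)
      (Ideal.mul_mem_right (s 2) _ h1))
    convert this using 1; ring
  have s0 : s 0 ∈ q := by
    by_contra hs0
    have b2 : s 2 ∈ q := (hq.mem_or_mem a1).resolve_right hs0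
    have b1 : s 1 ∈ q := (hq.mem_or_mem a2).resolve_right hs0
    have b3 : s 0 ^ 2 ∈ q := by
      have := Ideal.sub_mem _ hQ (Ideal.mul_mem_right (s 2) _ b1)
      simpa using this
    exact hs0 (hq.mem_of_pow_mem _ b3)
  have b3 : s 1 * s 2 ∈ q := by
    have := Ideal.sub_mem _ hQ (Ideal.mul_mem_left _ (s 0) s0)
    convert this using 1; ring
  have s12 : s 1 ∈ q ∧ s 2 ∈ q := by
    rcases hq.mem_or_mem b3 with h | h
    · refine ⟨h, ?_⟩
      have : s 2 * s 2 ∈ q := by
        have := Ideal.sub_mem _ (Ideal.mul_mem_left _ (s 1) h) a3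
        convert this using 1; ring
      rcases hq.mem_or_mem this with h | h <;> exact h
    · refine ⟨?_, h⟩
      have : s 1 * s 1 ∈ q := by
        have := Ideal.add_mem _ (Ideal.mul_mem_left _ (s 2) h) a3
        convert this using 1; ring
      rcases hq.mem_or_mem this with h | h <;> exact h
  have f1 : f 1 ∈ q := by
    have := Ideal.sub_mem _ h1 s12.2
    simpa using this
  have f2 : f 2 ∈ q := by
    have := Ideal.sub_mem _ h2 s12.1
    simpa using this
  constructor
  · intro i; fin_cases i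
    · exact h0
    · exact f1
    · exact f2
  · intro i; fin_cases i
    · exact s0
    · exact s12.1
    · exact s12.2

section core

variable {𝒪 : Type} [CommRing 𝒪] [IsDomain 𝒪] [IsDiscreteValuationRing 𝒪]
  [IsAdicComplete (maximalIdeal 𝒪) 𝒪] {ι : Type} [Fintype ι] [DecidableEq ι] {g : ℕ}

/-- the polynomial of one of the other blocks -/
noncomputable abbrev oX (t : ι) (b : Bool) (i : Fin 3) : MvPowerSeries (Idx ι g) 𝒪 :=
  MvPowerSeries.X (Sum.inl (t, b, i))

/-- parameters -/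
noncomputable def params (𝒪 : Type) [CommRing 𝒪] (ι : Type) (g : ℕ) (ϖ : 𝒪) :
    Option (Option ι × Fin 3 ⊕ Fin g) → PA (MvPowerSeries (Idx ι g) 𝒪)
  | none => MvPowerSeries.C (MvPowerSeries.C ϖ)
  | some (Sum.inr j) => MvPowerSeries.C (MvPowerSeries.X (Sum.inr j))
  | some (Sum.inl (none, i)) =>
      ![MvPowerSeries.X (false, 0), MvPowerSeries.X (false, 1) + MvPowerSeries.X (true, 2),
        MvPowerSeries.X (false, 2) + MvPowerSeries.X (true, 1)] i
  | some (Sum.inl (some t, i)) =>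
      MvPowerSeries.C (![oX t false 0, oX t false 1 + oX t true 2, oX t false 2 + oX t true 1] i)

theorem core {r : ℕ} (hr : r = 3 * (Fintype.card ι + 1) + g)
    (ϖ : 𝒪) (hϖ : Irreducible ϖ) (B : Finset 𝒪) (hB : ∀ b ∈ B, b ≠ 0 ∧ b ∈ maximalIdeal 𝒪)
    (c : 𝒪) (hc : c ∈ Ideal.span {ϖ}) {d : ℕ} (hd : 0 < d)
    (A : PA (MvPowerSeries (Idx ι g) 𝒪) →+* Matrix (Fin d) (Fin d) (MvPowerSeries (Fin r) 𝒪))
    (ψ : MvPowerSeries (Fin r) 𝒪 →+* PA (MvPowerSeries (Idx ι g) 𝒪))
    (hψ : ∀ s, A (ψ s) = s • (1 : Matrix (Fin d) (Fin d) (MvPowerSeries (Fin r) 𝒪)))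
    (hψC : ∀ a : 𝒪, ψ (MvPowerSeries.C a) = MvPowerSeries.C (MvPowerSeries.C a))
    (hminor : ∀ i j : Fin 3, A (MvPowerSeries.X (false, i) * MvPowerSeries.X (true, j) -
      MvPowerSeries.X (false, j) * MvPowerSeries.X (true, i)) = 0)
    (hquad : A (∏ b ∈ B, (MvPowerSeries.X (true, 0) ^ 2 +
      MvPowerSeries.X (true, 1) * MvPowerSeries.X (true, 2) -
      MvPowerSeries.C (MvPowerSeries.C b) ^ 2)) = 0)
    (hminor' : ∀ (t : ι) (i j : Fin 3), A (MvPowerSeries.C (oX t false i * oX t true j -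
      oX t false j * oX t true i)) = 0)
    (hquad' : ∀ t : ι, A (∏ b ∈ B, MvPowerSeries.C (oX t true 0 ^ 2 +
      oX t true 1 * oX t true 2 - MvPowerSeries.C b ^ 2)) = 0)
    (he : ∀ i j, A (MvPowerSeries.X (false, 0) ^ 2 +
      MvPowerSeries.X (false, 1) * MvPowerSeries.X (false, 2) -
      MvPowerSeries.C (MvPowerSeries.C c)) i j ∈ Ideal.span {MvPowerSeries.C ϖ}) : False := by
  classical
  have hΛdom : IsDomain (MvPowerSeries (Fin r) 𝒪) := NoZeroDivisors.to_isDomain _
  obtain ⟨p, hp, hker, hinj, hdim⟩ := exists_prime_of_matrix hd A ψ hψ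
  have hϖm : ϖ ∈ maximalIdeal 𝒪 := by
    rw [hϖ.maximalIdeal_eq]; exact Ideal.mem_span_singleton_self _
  have hmax : ∀ a ∈ maximalIdeal 𝒪, ∃ a', a = a' * ϖ := by
    intro a ha
    rw [hϖ.maximalIdeal_eq, Ideal.mem_span_singleton'] at ha
    obtain ⟨a', h⟩ := ha
    exact ⟨a', h.symm⟩
  have hmem : ∀ f, A f = 0 → f ∈ p := fun f hf => hker (RingHom.mem_ker.mpr hf)
  -- choice of the points
  have h1 : ∃ b ∈ B, MvPowerSeries.X (true, 0) ^ 2 +
      MvPowerSeries.X (true, 1) * MvPowerSeries.X (true, 2) -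
      MvPowerSeries.C (MvPowerSeries.C b) ^ 2 ∈ p := (hp.prod_mem_iff).mp (hmem _ hquad)
  obtain ⟨b₀, hb₀, hb₀p⟩ := h1
  have h2 : ∀ t : ι, ∃ b ∈ B, MvPowerSeries.C (oX t true 0 ^ 2 +
      oX t true 1 * oX t true 2 - MvPowerSeries.C b ^ 2) ∈ p := fun t =>
    (hp.prod_mem_iff).mp (hmem _ (hquad' t))
  choose bt hbt hbtp using h2
  have hrel : relPS (MvPowerSeries.C b₀ : MvPowerSeries (Idx ι g) 𝒪) ≤ p := by
    rw [relPS, Ideal.span_le]
    rintro x (⟨⟨i, j⟩, rfl⟩ | rfl)
    · exact hmem _ (hminor i j)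
    · exact hb₀p
  -- the parameters
  set S : Finset (PA (MvPowerSeries (Idx ι g) 𝒪)) := Finset.univ.image (params 𝒪 ι g ϖ) with hS
  have hcard : S.card ≤ r + 1 := by
    refine Finset.card_image_le.trans ?_
    rw [Finset.card_univ]
    simp only [Fintype.card_option, Fintype.card_sum, Fintype.card_prod, Fintype.card_fin]
    omega
  have hXm : ∀ q, (MvPowerSeries.X q : PA (MvPowerSeries (Idx ι g) 𝒪)) ∈ maximalIdeal _ :=
    fun q => DefRing.X_mem_maximalIdeal q
  have hXm' : ∀ q, (MvPowerSeries.X q : MvPowerSeries (Idx ι g) 𝒪) ∈ maximalIdeal _ :=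
    fun q => DefRing.X_mem_maximalIdeal q
  have hSm : ∀ x ∈ S, x ∈ maximalIdeal (PA (MvPowerSeries (Idx ι g) 𝒪)) := by
    intro x hx
    rw [hS, Finset.mem_image] at hx
    obtain ⟨o, -, rfl⟩ := hx
    match o with
    | none => exact C_mem_maximalIdeal_iff.mpr (C_mem_maximalIdeal_iff.mpr hϖm)
    | some (Sum.inr j) => exact C_mem_maximalIdeal_iff.mpr (hXm' _)
    | some (Sum.inl (none, i)) =>
      fin_cases i
      · exact hXm _
      · exact Ideal.add_mem _ (hXm _) (hXm _)
      · exact Ideal.add_mem _ (hXm _) (hXm _)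
    | some (Sum.inl (some t, i)) =>
      refine C_mem_maximalIdeal_iff.mpr ?_
      fin_cases i
      · exact hXm' _
      · exact Ideal.add_mem _ (hXm' _) (hXm' _)
      · exact Ideal.add_mem _ (hXm' _) (hXm' _)
  have hprim : ∀ q : Ideal (PA (MvPowerSeries (Idx ι g) 𝒪)), q.IsPrime →
      (∀ a : MvPowerSeries (Idx ι g) 𝒪, MvPowerSeries.C a ∈ p → MvPowerSeries.C a ∈ q) →
      relPS (MvPowerSeries.C b₀ : MvPowerSeries (Idx ι g) 𝒪) ≤ q → (∀ x ∈ S, x ∈ q) →
      q = maximalIdeal (PA (MvPowerSeries (Idx ι g) 𝒪)) := by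
    intro q hq hpq hrelq hSq
    have hpar : ∀ o, params 𝒪 ι g ϖ o ∈ q := fun o =>
      hSq _ (Finset.mem_image_of_mem _ (Finset.mem_univ _))
    have hϖq : (MvPowerSeries.C (MvPowerSeries.C ϖ) : PA (MvPowerSeries (Idx ι g) 𝒪)) ∈ q :=
      hpar none
    have hmq : ∀ a ∈ maximalIdeal 𝒪,
        (MvPowerSeries.C (MvPowerSeries.C a) : PA (MvPowerSeries (Idx ι g) 𝒪)) ∈ q := by
      intro a ha
      obtain ⟨a', rfl⟩ := hmax a ha
      rw [map_mul, map_mul]
      exact Ideal.mul_mem_left _ _ hϖq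
    -- distinguished block
    have hblock := block_zero q (fun i => MvPowerSeries.X (false, i))
      (fun i => MvPowerSeries.X (true, i))
      (fun i j => hrelq (Ideal.subset_span (Or.inl ⟨(i, j), rfl⟩))) (by
        have h3 : MvPowerSeries.X (true, 0) ^ 2 +
          MvPowerSeries.X (true, 1) * MvPowerSeries.X (true, 2) -
          MvPowerSeries.C (MvPowerSeries.C b₀) ^ 2 ∈ q :=
            hrelq (Ideal.subset_span (Or.inr rfl))
        have h4 := Ideal.add_mem _ h3 (Ideal.mul_mem_left _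
          (MvPowerSeries.C (MvPowerSeries.C b₀)) (hmq b₀ (hB b₀ hb₀).2))
        convert h4 using 1; ring)
      (hpar (some (Sum.inl (none, 0)))) (hpar (some (Sum.inl (none, 1))))
      (hpar (some (Sum.inl (none, 2))))
    -- the other blocks
    have hCq : (q.comap (MvPowerSeries.C : MvPowerSeries (Idx ι g) 𝒪 →+* _)).IsPrime :=
      Ideal.comap_isPrime _ _
    have hblock' : ∀ t : ι, (∀ i, (MvPowerSeries.C (oX t false i) :
        PA (MvPowerSeries (Idx ι g) 𝒪)) ∈ q) ∧ ∀ i, (MvPowerSeries.C (oX t true i) :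
        PA (MvPowerSeries (Idx ι g) 𝒪)) ∈ q := by
      intro t
      refine block_zero (q.comap (MvPowerSeries.C : MvPowerSeries (Idx ι g) 𝒪 →+* _))
        (fun i => oX t false i) (fun i => oX t true i) ?_ ?_
        (hpar (some (Sum.inl (some t, 0)))) (hpar (some (Sum.inl (some t, 1))))
        (hpar (some (Sum.inl (some t, 2))))
      · intro i j
        exact hpq _ (hmem _ (hminor' t i j))
      · have h3 := hpq _ (hbtp t)
        have h4 : (MvPowerSeries.C (MvPowerSeries.C (bt t)) :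
            PA (MvPowerSeries (Idx ι g) 𝒪)) ∈ q := hmq _ (hB _ (hbt t)).2
        show MvPowerSeries.C _ ∈ q
        have h5 := Ideal.add_mem _ h3 (Ideal.mul_mem_left _
          (MvPowerSeries.C (MvPowerSeries.C (bt t))) h4)
        convert h5 using 1
        rw [← map_mul, ← map_add]
        congr 1
        ring
    have hP₀ : q.comap (MvPowerSeries.C : MvPowerSeries (Idx ι g) 𝒪 →+* _) =
        maximalIdeal (MvPowerSeries (Idx ι g) 𝒪) := by
      apply eq_maximalIdeal_of_mem
      · intro a ha; exact hmq a ha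
      · rintro (⟨t, b, i⟩ | j)
        · cases b
          · exact (hblock' t).1 i
          · exact (hblock' t).2 i
        · exact hpar (some (Sum.inr j))
    apply eq_maximalIdeal_of_mem
    · intro a ha
      rw [← hP₀] at ha
      exact ha
    · rintro ⟨b, i⟩
      cases b
      · exact hblock.1 i
      · exact hblock.2 i
  have hmain := block_notMem p (MvPowerSeries.C b₀ : MvPowerSeries (Idx ι g) 𝒪)
    (C_mem_maximalIdeal_iff.mpr (hB b₀ hb₀).2) (by
      intro h
      rw [← hψC] at h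
      have := hinj _ h
      exact (hB b₀ hb₀).1 (MvPowerSeries.C_injective (by simpa using this))) hrel S hSm
    (by
      refine le_trans ?_ hdim
      refine le_trans ?_ (dim_lambda 𝒪 r)
      exact_mod_cast hcard) hprim (MvPowerSeries.C ϖ) (MvPowerSeries.C c)
    (C_mem_maximalIdeal_iff.mpr hϖm) (by
      obtain ⟨c', rfl⟩ := Ideal.mem_span_singleton'.mp hc
      rw [map_mul]
      exact Ideal.mul_mem_left _ _ (Ideal.mem_span_singleton_self _)) d
  apply hmain
  have h6 := pow_mem_of_matrix A ψ hψ (MvPowerSeries.C ϖ) _ he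
  rw [hψC] at h6
  exact sup_le_sup_right hker _ h6

end core

end Fermat.Agent.Patch
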