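import Mathlib
import Fermat.Agent.Patch.Eval
import Fermat.Prelude.Thm_IsLocalRing_isAdicComplete_of_module_finite

/-!
# Group rings of finite abelian `p`-groups and power series rings
-/

set_option autoImplicit false

namespace Fermat.Agent.Patch

open IsLocalRing

section

variable {𝒪 : Type*} [CommRing 𝒪] {Δ : Type*} [CommGroup Δ]

/-- augmentation -/
noncomputable def aug (𝒪 : Type*) [CommRing 𝒪] (Δ : Type*) [CommGroup Δ] :
    MonoidAlgebra 𝒪 Δ →ₐ[𝒪] 𝒪 := MonoidAlgebra.lift 𝒪 𝒪 Δ 1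

theorem aug_single (γ : Δ) (a : 𝒪) : aug 𝒪 Δ (MonoidAlgebra.single γ a) = a := by
  simp [aug]

theorem aug_of (γ : Δ) : aug 𝒪 Δ (MonoidAlgebra.of 𝒪 Δ γ) = 1 := by
  simp [aug]

variable {R : Type*} [CommRing R] [Algebra 𝒪 R]

/-- an element is congruent to its augmentation modulo the ideal generated by the `γ - 1`. -/
theorem map_sub_aug_mem (T : MonoidAlgebra 𝒪 Δ →ₐ[𝒪] R) (I : Ideal R)
    (h : ∀ γ, T (MonoidAlgebra.of 𝒪 Δ γ) - 1 ∈ I) (x : MonoidAlgebra 𝒪 Δ) :
    T x - algebraMap 𝒪 R (aug 𝒪 Δ x) ∈ I := by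
  induction x using MonoidAlgebra.induction_on with
  | of γ =>
    rw [aug_of, map_one]
    exact h γ
  | add x y hx hy =>
    have := Ideal.add_mem _ hx hy
    rw [map_add, map_add, map_add]
    convert this using 1; ring
  | smul a x hx =>
    rw [map_smul, map_smul, Algebra.smul_def, smul_eq_mul, map_mul, ← mul_sub]
    exact Ideal.mul_mem_left _ _ hx

omit [CommGroup Δ] in
theorem finite_groupRing [Finite Δ] : Module.Finite 𝒪 (MonoidAlgebra 𝒪 Δ) :=
  Module.Finite.equiv (MonoidAlgebra.coeffLinearEquiv (M := Δ) (S := 𝒪) 𝒪).symm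

theorem isLocalHom_aug [IsLocalRing 𝒪] [Finite Δ] (p : ℕ) [Fact p.Prime]
    (hp : (p : 𝒪) ∈ maximalIdeal 𝒪) (hΔ : IsPGroup p Δ) :
    IsLocalHom (aug 𝒪 Δ : MonoidAlgebra 𝒪 Δ →+* 𝒪) := by
  classical
  have := Fintype.ofFinite Δ
  constructor
  intro x hx
  by_contra hnu
  obtain ⟨M, hM, hxM⟩ := exists_max_ideal_of_mem_nonunits hnu
  have hfin := finite_groupRing (𝒪 := 𝒪) (Δ := Δ)
  have hint : Algebra.IsIntegral 𝒪 (MonoidAlgebra 𝒪 Δ) := Algebra.IsIntegral.of_finite _ _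
  have hcomap : M.comap (algebraMap 𝒪 (MonoidAlgebra 𝒪 Δ)) = maximalIdeal 𝒪 :=
    eq_maximalIdeal (Ideal.isMaximal_comap_of_isIntegral_of_isMaximal M)
  have hpM : (p : MonoidAlgebra 𝒪 Δ) ∈ M := by
    rw [← hcomap, Ideal.mem_comap] at hp
    simpa using hp
  let _ : Field (MonoidAlgebra 𝒪 Δ ⧸ M) := Ideal.Quotient.field M
  have hchar : CharP (MonoidAlgebra 𝒪 Δ ⧸ M) p := by
    refine (CharP.charP_iff_prime_eq_zero (Fact.out : p.Prime)).mpr ?_
    have := (Ideal.Quotient.eq_zero_iff_mem (I := M)).mpr hpM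
    simpa using this
  have hγ : ∀ γ, (AlgHom.id 𝒪 (MonoidAlgebra 𝒪 Δ)) (MonoidAlgebra.of 𝒪 Δ γ) - 1 ∈ M := by
    intro γ
    obtain ⟨m, hm⟩ := hΔ γ
    rw [← Ideal.Quotient.eq_zero_iff_mem, map_sub, map_one]
    have h1 : (Ideal.Quotient.mk M ((AlgHom.id 𝒪 _) (MonoidAlgebra.of 𝒪 Δ γ)) - 1) ^ p ^ m = 0 := by
      rw [sub_pow_char_pow, one_pow, ← map_pow, AlgHom.id_apply, ← map_pow, hm, map_one, map_one,
        sub_self]
    exact pow_eq_zero_iff (pow_pos (Fact.out : p.Prime).pos m).ne' |>.mp h1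
  have h2 := map_sub_aug_mem (AlgHom.id 𝒪 (MonoidAlgebra 𝒪 Δ)) M hγ x
  have h3 := Ideal.sub_mem _ hxM h2
  rw [AlgHom.id_apply, sub_sub_cancel] at h3
  have h4 : IsUnit (algebraMap 𝒪 (MonoidAlgebra 𝒪 Δ) (aug 𝒪 Δ x)) := hx.map _
  exact hM.ne_top (Ideal.eq_top_of_isUnit_mem _ h3 h4)

theorem isLocalRing_groupRing [IsLocalRing 𝒪] [Finite Δ] (p : ℕ) [Fact p.Prime]
    (hp : (p : 𝒪) ∈ maximalIdeal 𝒪) (hΔ : IsPGroup p Δ) : IsLocalRing (MonoidAlgebra 𝒪 Δ) := by
  have := isLocalHom_aug (𝒪 := 𝒪) p hp hΔ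
  exact RingHom.domain_isLocalRing (aug 𝒪 Δ : MonoidAlgebra 𝒪 Δ →+* 𝒪)

/-- uniqueness of continuous homs out of a power series ring -/
theorem algHom_eq_of_X {A R : Type*} [CommRing A] [IsLocalRing A] [CommRing R]
    [Algebra A R] {σ : Type*} [Finite σ] (I : Ideal R) (hI : IsHausdorff I R)
    (f g : MvPowerSeries σ A →ₐ[A] R)
    (hf : ∀ i, f (MvPowerSeries.X i) ∈ I) (hX : ∀ i, f (MvPowerSeries.X i) = g (MvPowerSeries.X i)) :
    f = g := by
  classical
  have hpow : ∀ (f : MvPowerSeries σ A →ₐ[A] R), (∀ i, f (MvPowerSeries.X i) ∈ I) → ∀ n,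
      ∀ s ∈ (Ideal.span (Set.range (MvPowerSeries.X : σ → MvPowerSeries σ A))) ^ n, f s ∈ I ^ n := by
    intro f hf n
    have h1 : Ideal.span (Set.range (MvPowerSeries.X : σ → MvPowerSeries σ A)) ≤
        I.comap (f : MvPowerSeries σ A →+* R) := by
      rw [Ideal.span_le]
      rintro _ ⟨i, rfl⟩
      exact hf i
    exact (Ideal.pow_right_mono h1 n).trans (Ideal.le_comap_pow _ n)
  have hg : ∀ i, g (MvPowerSeries.X i) ∈ I := fun i => by rw [← hX i]; exact hf i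
  ext s
  rw [← sub_eq_zero]
  refine hI.haus _ fun n => ?_
  rw [SModEq.zero, smul_eq_mul, Ideal.mul_top]
  set t : MvPowerSeries σ A := (MvPowerSeries.truncTotal n s).toMvPowerSeries with ht
  have h2 : s - t ∈ (Ideal.span (Set.range (MvPowerSeries.X : σ → MvPowerSeries σ A))) ^ n := by
    apply DefRing.mem_span_X_pow_of_coeff
    intro e he
    rw [map_sub, ht, MvPolynomial.coeff_coe, MvPowerSeries.coeff_truncTotal _ he, sub_self]
  have h3 : f t = g t := by
    have h4 : (f : MvPowerSeries σ A →+* R).comp MvPolynomial.coeToMvPowerSeries.ringHom =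
        (g : MvPowerSeries σ A →+* R).comp MvPolynomial.coeToMvPowerSeries.ringHom := by
      apply MvPolynomial.ringHom_ext
      · intro a
        simp only [RingHom.comp_apply, MvPolynomial.coeToMvPowerSeries.ringHom_apply,
          MvPolynomial.coe_C]
        exact (f.commutes a).trans (g.commutes a).symm
      · intro i
        simp only [RingHom.comp_apply, MvPolynomial.coeToMvPowerSeries.ringHom_apply,
          MvPolynomial.coe_X]
        exact hX i
    exact congrArg (fun h => h (MvPowerSeries.truncTotal n s)) h4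
  have h5 : f s - g s = f (s - t) - g (s - t) := by
    rw [map_sub, map_sub, h3]; ring
  rw [h5]
  exact Ideal.sub_mem _ (hpow f hf n _ h2) (hpow g hg n _ h2)

end

end Fermat.Agent.Patch
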