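import Mathlib
import Fermat.Agent.Patch.GroupRing
import Fermat.Agent.Patch.Limit

/-!
# Patching levels from free modules over group rings
-/

set_option autoImplicit false

namespace Fermat.Agent.Patch

open IsLocalRing

section

variable {𝒪 : Type*} [CommRing 𝒪] [IsLocalRing 𝒪]

theorem pow_sub_one_mem {R : Type*} [CommRing R] (m : Ideal R) (p : ℕ) (hp : (p : R) ∈ m)
    (u : R) (hu : u - 1 ∈ m) (n : ℕ) : u ^ p ^ n - 1 ∈ m ^ (n + 1) := by
  induction n with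
  | zero => simpa using hu
  | succ n ih =>
    have h1 : u ^ p ^ (n + 1) - 1 = (u ^ p ^ n - 1) * ∑ i ∈ Finset.range p, (u ^ p ^ n) ^ i := by
      rw [pow_succ, pow_mul, mul_comm, geom_sum_mul]
    rw [h1, pow_succ]
    refine Ideal.mul_mem_mul ih ?_
    have h2 : u ^ p ^ n - 1 ∈ m := Ideal.pow_le_self (Nat.succ_ne_zero n) ih
    have h3 : ∑ i ∈ Finset.range p, (u ^ p ^ n) ^ i =
        ∑ i ∈ Finset.range p, ((u ^ p ^ n) ^ i - 1) + (p : R) := by
      rw [Finset.sum_sub_distrib]; simp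
    rw [h3]
    refine Ideal.add_mem _ (Ideal.sum_mem _ fun i _ => ?_) hp
    have h4 := (sub_one_dvd_pow_sub_one (u ^ p ^ n) i)
    exact Ideal.mem_of_dvd _ h4 h2

/-- the hom from `(ℤ/p^n)^r` to units of a ring given by elements `u j` with `u j ^ p ^ n = 1`. -/
theorem exists_hom_of_pow_eq_one {R : Type*} [CommRing R] {r : ℕ} (N : ℕ)
    (u : Fin r → Rˣ) (hu : ∀ j, u j ^ N = 1) :
    ∃ ξ : (Fin r → Multiplicative (ZMod N)) →* Rˣ,
      ∀ j, ξ (Pi.mulSingle j (Multiplicative.ofAdd 1)) = u j := by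
  classical
  have h1 : ∀ j, ∃ ξ : Multiplicative (ZMod N) →* Rˣ, ξ (Multiplicative.ofAdd 1) = u j := by
    intro j
    let f : ℤ →+ Additive Rˣ := zmultiplesHom _ (Additive.ofMul (u j))
    have hf : f N = 0 := by
      show (N : ℤ) • Additive.ofMul (u j) = 0
      rw [natCast_zsmul, ← ofMul_pow, hu j]
      rfl
    let F : ZMod N →+ Additive Rˣ := ZMod.lift N ⟨f, hf⟩
    refine ⟨AddMonoidHom.toMultiplicativeLeft F, ?_⟩
    show Additive.toMul (F 1) = u j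
    have h2 : F 1 = f 1 := by
      have := ZMod.lift_coe N ⟨f, hf⟩ 1
      simpa using this
    rw [h2]
    simp [f]
  choose ξ hξ using h1
  refine ⟨∏ j, (ξ j).comp (Pi.evalMonoidHom _ j), fun j => ?_⟩
  rw [MonoidHom.finsetProd_apply, Finset.prod_eq_single j]
  · simp [hξ]
  · intro k _ hk
    simp [Pi.mulSingle_eq_of_ne hk]
  · simp

variable [IsNoetherianRing 𝒪] [IsAdicComplete (maximalIdeal 𝒪) 𝒪]

omit [IsNoetherianRing 𝒪] [IsAdicComplete (maximalIdeal 𝒪) 𝒪] in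
theorem ev_factor {Δ : Type*} [CommGroup Δ] (p : ℕ)
    (hp : (p : 𝒪) ∈ maximalIdeal 𝒪) {r : ℕ} (δ : Fin r → Δ) (n : ℕ)
    (χ : Δ →* (Fin r → Multiplicative (ZMod (p ^ n))))
    (hχ : ∀ j, χ (δ j) = Pi.mulSingle j (Multiplicative.ofAdd 1))
    (ev : MvPowerSeries (Fin r) 𝒪 →ₐ[𝒪] MonoidAlgebra 𝒪 Δ)
    (hev : ∀ j, ev (MvPowerSeries.X j) = MonoidAlgebra.of 𝒪 Δ (δ j) - 1)
    {C : Type*} [CommRing C] [Algebra 𝒪 C] (mk : MvPowerSeries (Fin r) 𝒪 →ₐ[𝒪] C) (I : Ideal C)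
    (hIn : I ^ n = ⊥) (hmk : ∀ x ∈ maximalIdeal (MvPowerSeries (Fin r) 𝒪), mk x ∈ I) :
    ∃ T : MonoidAlgebra 𝒪 Δ →ₐ[𝒪] C, T.comp ev = mk := by
  classical
  have hpI : (p : C) ∈ I := by
    have h1 : (MvPowerSeries.C (p : 𝒪) : MvPowerSeries (Fin r) 𝒪) ∈
        maximalIdeal (MvPowerSeries (Fin r) 𝒪) := by
      rw [mem_maximalIdeal, mem_nonunits_iff, MvPowerSeries.isUnit_iff_constantCoeff,
        MvPowerSeries.constantCoeff_C]
      exact hp
    have h2 := hmk _ h1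
    rwa [map_natCast, map_natCast] at h2
  -- units
  have hunit : ∀ j, IsUnit (mk (1 + MvPowerSeries.X j)) := by
    intro j
    have h1 : IsUnit (1 + MvPowerSeries.X j : MvPowerSeries (Fin r) 𝒪) := by
      rw [MvPowerSeries.isUnit_iff_constantCoeff]; simp
    exact h1.map mk
  choose u hu using hunit
  have hXI : ∀ j, mk (MvPowerSeries.X j) ∈ I := fun j => hmk _ (DefRing.X_mem_maximalIdeal j)
  have hup : ∀ j, u j ^ p ^ n = 1 := by
    intro j
    apply Units.ext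
    rw [Units.val_pow_eq_pow_val, Units.val_one, ← sub_eq_zero]
    have h1 := pow_sub_one_mem I p hpI (u j : C) (by
      rw [hu, map_add, map_one, add_sub_cancel_left]; exact hXI j) n
    rw [pow_succ, hIn, Ideal.bot_mul] at h1
    simpa using h1
  obtain ⟨ξ, hξ⟩ := exists_hom_of_pow_eq_one (p ^ n) u hup
  let T : MonoidAlgebra 𝒪 Δ →ₐ[𝒪] C :=
    MonoidAlgebra.lift 𝒪 _ Δ ((Units.coeHom _).comp (ξ.comp χ))
  have hT : ∀ γ, T (MonoidAlgebra.of 𝒪 Δ γ) = (ξ (χ γ) : C) := by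
    intro γ; simp [T]
  have hTδ : ∀ j, T (MonoidAlgebra.of 𝒪 Δ (δ j)) = mk (1 + MvPowerSeries.X j) := by
    intro j
    rw [hT, hχ, hξ, hu]
  refine ⟨T, algHom_eq_of_X I ⟨fun x hx => ?_⟩ _ _ ?_ ?_⟩
  · have := hx n
    rw [SModEq.zero, hIn, Submodule.bot_smul, Submodule.mem_bot] at this
    exact this
  · intro j
    rw [AlgHom.comp_apply, hev, map_sub, map_one, hTδ, map_add, map_one, add_sub_cancel_left]
    exact hXI j
  · intro j
    rw [AlgHom.comp_apply, hev, map_sub, map_one, hTδ, map_add, map_one, add_sub_cancel_left]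

/-- evaluation `X j ↦ δ j - 1` into the group ring. -/
theorem exists_ev {Δ : Type*} [CommGroup Δ] [Finite Δ] (p : ℕ) [Fact p.Prime]
    (hp : (p : 𝒪) ∈ maximalIdeal 𝒪) (hΔ : IsPGroup p Δ) {r : ℕ} (δ : Fin r → Δ) (n : ℕ)
    (χ : Δ →* (Fin r → Multiplicative (ZMod (p ^ n))))
    (hχ : ∀ j, χ (δ j) = Pi.mulSingle j (Multiplicative.ofAdd 1)) :
    ∃ ev : MvPowerSeries (Fin r) 𝒪 →ₐ[𝒪] MonoidAlgebra 𝒪 Δ,
      (∀ j, ev (MvPowerSeries.X j) = MonoidAlgebra.of 𝒪 Δ (δ j) - 1) ∧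
      RingHom.ker ev ≤ maximalIdeal (MvPowerSeries (Fin r) 𝒪) ^ n := by
  classical
  have hloc := isLocalRing_groupRing (𝒪 := 𝒪) (Δ := Δ) p hp hΔ
  have haug := isLocalHom_aug (𝒪 := 𝒪) (Δ := Δ) p hp hΔ
  have hfin := finite_groupRing (𝒪 := 𝒪) (Δ := Δ)
  have halg : IsLocalHom (algebraMap 𝒪 (MonoidAlgebra 𝒪 Δ)) := by
    constructor
    intro a ha
    have := ha.map (aug 𝒪 Δ)
    rwa [AlgHom.commutes] at this
  have hcomp : IsAdicComplete (maximalIdeal (MonoidAlgebra 𝒪 Δ)) (MonoidAlgebra 𝒪 Δ) :=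
    IsLocalRing.isAdicComplete_of_module_finite (𝒪 := 𝒪)
  have hmem : ∀ x : MonoidAlgebra 𝒪 Δ, x ∈ maximalIdeal (MonoidAlgebra 𝒪 Δ) ↔
      aug 𝒪 Δ x ∈ maximalIdeal 𝒪 := by
    intro x
    rw [mem_maximalIdeal, mem_maximalIdeal, mem_nonunits_iff, mem_nonunits_iff, not_iff_not]
    exact ⟨fun h => h.map (aug 𝒪 Δ), fun h => haug.map_nonunit x h⟩
  have hδm : ∀ γ : Δ, MonoidAlgebra.of 𝒪 Δ γ - 1 ∈ maximalIdeal (MonoidAlgebra 𝒪 Δ) := by
    intro γ
    rw [hmem, map_sub, aug_of, map_one, sub_self]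
    exact Ideal.zero_mem _
  obtain ⟨ev, hev, -⟩ := exists_eval (A := 𝒪) (R := MonoidAlgebra 𝒪 Δ)
    (fun j => MonoidAlgebra.of 𝒪 Δ (δ j) - 1) (fun j => hδm _)
  refine ⟨ev, hev, ?_⟩
  obtain ⟨T, hT⟩ := ev_factor p hp δ n χ hχ ev hev
    (Ideal.Quotient.mkₐ 𝒪 (maximalIdeal (MvPowerSeries (Fin r) 𝒪) ^ n))
    ((maximalIdeal (MvPowerSeries (Fin r) 𝒪)).map (Ideal.Quotient.mk _)) (by
      rw [← Ideal.map_pow, Ideal.map_eq_bot_iff_le_ker, Ideal.mk_ker])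
    (fun x hx => Ideal.mem_map_of_mem _ hx)
  intro x hx
  rw [RingHom.mem_ker] at hx
  have h2 : Ideal.Quotient.mkₐ 𝒪 (maximalIdeal (MvPowerSeries (Fin r) 𝒪) ^ n) x = 0 := by
    rw [← hT, AlgHom.comp_apply]
    rw [show ev x = 0 from hx, map_zero]
  exact Ideal.Quotient.eq_zero_iff_mem.mp h2

omit [IsLocalRing 𝒪] [IsNoetherianRing 𝒪] [IsAdicComplete (maximalIdeal 𝒪) 𝒪] in
theorem ev_surjective {Δ : Type*} [CommGroup Δ] [Finite Δ] {S : Type*} [CommRing S] [Algebra 𝒪 S]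
    {r : ℕ} (δ : Fin r → Δ) (hδ : Subgroup.closure (Set.range δ) = ⊤)
    (ev : S →ₐ[𝒪] MonoidAlgebra 𝒪 Δ)
    (hev : ∀ j, MonoidAlgebra.of 𝒪 Δ (δ j) ∈ ev.range) : Function.Surjective ev := by
  have h1 : ∀ γ : Δ, MonoidAlgebra.of 𝒪 Δ γ ∈ ev.range := by
    intro γ
    have hγ : γ ∈ Subgroup.closure (Set.range δ) := by rw [hδ]; trivial
    induction hγ using Subgroup.closure_induction with
    | mem x hx => obtain ⟨j, rfl⟩ := hx; exact hev j
    | one => rw [map_one]; exact ev.range.one_mem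
    | mul x y _ _ hx hy => rw [map_mul]; exact ev.range.mul_mem hx hy
    | inv x _ hx =>
      have h2 : x⁻¹ ∈ Submonoid.powers x := by
        rw [mem_powers_iff_mem_zpowers]
        exact Subgroup.inv_mem _ (Subgroup.mem_zpowers x)
      obtain ⟨k, hk⟩ := h2
      have h3 : x ^ k = x⁻¹ := hk
      rw [← h3, map_pow]
      exact ev.range.pow_mem hx k
  intro x
  show x ∈ ev.range
  induction x using MonoidAlgebra.induction_on with
  | of γ => exact h1 γ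
  | add x y hx hy => exact ev.range.add_mem hx hy
  | smul a x hx => exact ev.range.smul_mem hx a

theorem exists_lev {Δ : Type*} [CommGroup Δ] [Finite Δ] (p : ℕ) [Fact p.Prime]
    (hp : (p : 𝒪) ∈ maximalIdeal 𝒪) (hΔ : IsPGroup p Δ) {r : ℕ} (δ : Fin r → Δ)
    (hδ : Subgroup.closure (Set.range δ) = ⊤) (n : ℕ)
    (χ : Δ →* (Fin r → Multiplicative (ZMod (p ^ n))))
    (hχ : ∀ j, χ (δ j) = Pi.mulSingle j (Multiplicative.ofAdd 1))
    {R : Type*} [CommRing R] [IsLocalRing R] [IsHausdorff (maximalIdeal R) R] [Algebra 𝒪 R]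
    (κ : Δ →* R) (hκ : ∀ γ, κ γ - 1 ∈ maximalIdeal R)
    {N : Type*} [AddCommGroup N] [Module R N] {d : ℕ} (b : Fin d → N)
    (hb : Function.Bijective fun u : Fin d → MonoidAlgebra 𝒪 Δ =>
      ∑ i, MonoidAlgebra.lift 𝒪 R Δ κ (u i) • b i)
    {P : Type*} [CommRing P] [IsLocalRing P] [IsAdicComplete (maximalIdeal P) P] [Algebra 𝒪 P]
    [IsLocalHom (algebraMap 𝒪 P)] (π : P →ₐ[𝒪] R) (hπ : Function.Surjective π)
    [Module P N] (hPN : ∀ (f : P) (x : N), f • x = π f • x) :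
    ∃ (J : Ideal (MvPowerSeries (Fin r) 𝒪)) (φ : MvPowerSeries (Fin r) 𝒪 →ₐ[𝒪] P),
      J ≤ maximalIdeal _ ^ n ∧ Nonempty (Lev J (φ : MvPowerSeries (Fin r) 𝒪 →+* P) d N) := by
  classical
  obtain ⟨ev, hev, hker⟩ := exists_ev p hp hΔ δ n χ hχ
  have hsurj : Function.Surjective ev := by
    apply ev_surjective δ hδ
    intro j
    exact ⟨1 + MvPowerSeries.X j, by
      show ev (1 + MvPowerSeries.X j) = _
      rw [map_add, map_one, hev, add_sub_cancel]⟩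
  choose y hy using fun j => hπ (κ (δ j) - 1)
  have hym : ∀ j, y j ∈ maximalIdeal P := by
    intro j
    rw [mem_maximalIdeal, mem_nonunits_iff]
    intro h
    have h1 := h.map π
    rw [hy] at h1
    exact (mem_nonunits_iff.mp ((mem_maximalIdeal _).mp (hκ (δ j)))) h1
  obtain ⟨φ, hφ, -⟩ := exists_eval (A := 𝒪) (R := P) y hym
  set K : MonoidAlgebra 𝒪 Δ →ₐ[𝒪] R := MonoidAlgebra.lift 𝒪 R Δ κ with hK
  have hKδ : ∀ γ, K (MonoidAlgebra.of 𝒪 Δ γ) = κ γ := fun γ => by simp [hK]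
  have heq : π.comp φ = K.comp ev := by
    apply algHom_eq_of_X (maximalIdeal R) inferInstance
    · intro j
      rw [AlgHom.comp_apply, hφ, hy]
      exact hκ _
    · intro j
      rw [AlgHom.comp_apply, hφ, hy, AlgHom.comp_apply, hev, map_sub, map_one, hKδ]
  have heq' : ∀ c, π (φ c) = K (ev c) := fun c => by
    rw [← AlgHom.comp_apply, heq, AlgHom.comp_apply]
  refine ⟨RingHom.ker ev, φ, hker, ⟨⟨b, ?_, ?_⟩⟩⟩
  · intro x
    obtain ⟨u, hu⟩ := hb.2 x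
    choose c hc using fun i => hsurj (u i)
    refine ⟨c, ?_⟩
    rw [← hu]
    refine Finset.sum_congr rfl fun i _ => ?_
    rw [RingHom.coe_coe, hPN, heq', hc]
  · intro c
    have h1 : ∑ i, (φ : MvPowerSeries (Fin r) 𝒪 →+* P) (c i) • b i = ∑ i, K (ev (c i)) • b i := by
      refine Finset.sum_congr rfl fun i _ => ?_
      rw [RingHom.coe_coe, hPN, heq']
    rw [h1]
    have h2 : ∑ i, K ((0 : Fin d → MonoidAlgebra 𝒪 Δ) i) • b i = 0 := by simp
    constructor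
    · intro h i
      have h3 : (fun i => ev (c i)) = 0 := hb.1 (by
        show ∑ i, K (ev (c i)) • b i = ∑ i, K ((0 : Fin d → MonoidAlgebra 𝒪 Δ) i) • b i
        rw [h, h2])
      exact congrFun h3 i
    · intro h
      have h3 : ∀ i, ev (c i) = 0 := fun i => h i
      simp [h3]

end

end Fermat.Agent.Patch
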