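import Mathlib
import Fermat.Agent.Patch.Final
import Fermat.Agent.Patch.GroupLev

/-!
# Patching: main theorem

`Datum … n` is what the Taylor–Wiles method provides at level `n`; `main` says that such data
cannot exist for all `n`.
-/

set_option autoImplicit false

namespace Fermat.Agent.Patch

open IsLocalRing

theorem surjective_of_maximalIdeal_le {S R : Type*} [CommRing S] [IsLocalRing S]
    [IsAdicComplete (maximalIdeal S) S] [CommRing R] [IsLocalRing R] [IsNoetherianRing R]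
    [IsHausdorff (maximalIdeal R) R] (γ : S →+* R)
    (hγ : ∀ s ∈ maximalIdeal S, γ s ∈ maximalIdeal R)
    (hres : ∀ b : R, ∃ a : S, γ a - b ∈ maximalIdeal R)
    (hgen : maximalIdeal R ≤ (maximalIdeal S).map γ ⊔ maximalIdeal R ^ 2) :
    Function.Surjective γ := by
  have hmap : (maximalIdeal S).map γ = maximalIdeal R := by
    apply le_antisymm
    · rw [Ideal.map_le_iff_le_comap]
      exact fun s hs => hγ s hs
    · refine Submodule.le_of_le_smul_of_le_jacobson_bot (I := maximalIdeal R)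
        (IsNoetherian.noetherian _) (by rw [IsLocalRing.jacobson_eq_maximalIdeal _ bot_ne_top]) ?_
      refine hgen.trans (sup_le le_sup_left ?_)
      refine le_trans ?_ le_sup_right
      rw [sq]; rfl
  have hH : IsHausdorff ((maximalIdeal S).map γ) R := by
    rw [hmap]; infer_instance
  apply surjective_of_mk_map_comp_surjective (I := maximalIdeal S) γ
  intro y
  obtain ⟨b, rfl⟩ := Ideal.Quotient.mk_surjective y
  obtain ⟨a, ha⟩ := hres b
  refine ⟨a, ?_⟩
  rw [RingHom.comp_apply, Ideal.Quotient.eq, hmap]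
  exact ha

theorem C_mem_maximalIdeal_iff' {A σ : Type*} [CommRing A] [IsLocalRing A] {a : A} :
    (MvPowerSeries.C a : MvPowerSeries σ A) ∈ maximalIdeal (MvPowerSeries σ A) ↔
      a ∈ maximalIdeal A := by
  rw [mem_maximalIdeal, mem_nonunits_iff, MvPowerSeries.isUnit_iff_constantCoeff,
    MvPowerSeries.constantCoeff_C, mem_maximalIdeal, mem_nonunits_iff]

/-- The data provided at level `n` by the method of Taylor and Wiles.  `T = Option ι` is the set of
blocks. -/
structure Datum (𝒪 : Type) [CommRing 𝒪] [IsLocalRing 𝒪] (p : ℕ) (T : Type) (t₀ : T) (g r : ℕ)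
    (ϖ : 𝒪) (B : Finset 𝒪) (c : 𝒪) (D n : ℕ) where
  /-- the deformation ring -/
  R : Type
  [instCommRing : CommRing R]
  [instLocal : IsLocalRing R]
  [instNoeth : IsNoetherianRing R]
  [instComplete : IsAdicComplete (maximalIdeal R) R]
  [instAlg : Algebra 𝒪 R]
  [instLocalHom : IsLocalHom (algebraMap 𝒪 R)]
  residue_surj : ∀ b : R, ∃ a : 𝒪, algebraMap 𝒪 R a - b ∈ maximalIdeal R
  /-- entries of Frobenius and of the tame generator at the blocks -/
  f : T → Fin 3 → R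
  /-- entries of the tame generator at the blocks -/
  s : T → Fin 3 → R
  /-- the other generators -/
  x : Fin g → R
  f_mem : ∀ t i, f t i ∈ maximalIdeal R
  s_mem : ∀ t i, s t i ∈ maximalIdeal R
  x_mem : ∀ j, x j ∈ maximalIdeal R
  gen : maximalIdeal R ≤ (maximalIdeal 𝒪).map (algebraMap 𝒪 R) ⊔
    Ideal.span ({y | ∃ t i, y = f t i} ∪ {y | ∃ t i, y = s t i} ∪ Set.range x) ⊔ maximalIdeal R ^ 2
  /-- the group of diamond operators -/
  Δ : Type
  [instGroup : CommGroup Δ]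
  [instFinite : Finite Δ]
  isPGroup : IsPGroup p Δ
  /-- generators -/
  δ : Fin r → Δ
  closure_δ : Subgroup.closure (Set.range δ) = ⊤
  /-- projection to `(ℤ/p^n)^r` -/
  χ : Δ →* (Fin r → Multiplicative (ZMod (p ^ n)))
  χ_δ : ∀ j, χ (δ j) = Pi.mulSingle j (Multiplicative.ofAdd 1)
  /-- action of the diamond operators -/
  κ : Δ →* R
  κ_mem : ∀ γ, κ γ - 1 ∈ maximalIdeal R
  /-- the module -/
  N : Type
  [instAdd : AddCommGroup N]
  [instModule : Module R N]
  /-- its rank over the group ring -/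
  d : ℕ
  d_pos : 0 < d
  d_le : d ≤ D
  /-- a basis over the group ring -/
  b : Fin d → N
  b_basis : Function.Bijective fun u : Fin d → MonoidAlgebra 𝒪 Δ =>
      ∑ i, MonoidAlgebra.lift 𝒪 R Δ κ (u i) • b i
  minor : ∀ t i j (y : N), (f t i * s t j - f t j * s t i) • y = 0
  quad : ∀ t (y : N), (∏ b ∈ B, (s t 0 ^ 2 + s t 1 * s t 2 - algebraMap 𝒪 R b ^ 2)) • y = 0
  low : ∀ y : N, ∃ z : N, (f t₀ 0 ^ 2 + f t₀ 1 * f t₀ 2 - algebraMap 𝒪 R c) • y =
    algebraMap 𝒪 R ϖ • z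

attribute [instance] Datum.instCommRing Datum.instLocal Datum.instNoeth Datum.instComplete
  Datum.instAlg Datum.instLocalHom Datum.instGroup Datum.instFinite Datum.instAdd Datum.instModule

section

variable {𝒪 : Type} [CommRing 𝒪] [IsLocalRing 𝒪] [IsNoetherianRing 𝒪]
  [IsAdicComplete (maximalIdeal 𝒪) 𝒪] {p : ℕ} {ι : Type} [Finite ι] {g r : ℕ} {ϖ : 𝒪}
  {B : Finset 𝒪} {c : 𝒪} {D n : ℕ}

omit [IsNoetherianRing 𝒪] [IsAdicComplete (maximalIdeal 𝒪) 𝒪] in
theorem Datum.exists_surj (X : Datum 𝒪 p (Option ι) none g r ϖ B c D n)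
    [IsAdicComplete (maximalIdeal (PA (MvPowerSeries (Idx ι g) 𝒪)))
      (PA (MvPowerSeries (Idx ι g) 𝒪))] :
    ∃ π : PA (MvPowerSeries (Idx ι g) 𝒪) →ₐ[𝒪] X.R, Function.Surjective π ∧
      (∀ i, π (MvPowerSeries.X (false, i)) = X.f none i) ∧
      (∀ i, π (MvPowerSeries.X (true, i)) = X.s none i) ∧
      (∀ t i, π (MvPowerSeries.C (oX t false i)) = X.f (some t) i) ∧
      (∀ t i, π (MvPowerSeries.C (oX t true i)) = X.s (some t) i) ∧
      (∀ a : 𝒪, π (MvPowerSeries.C (MvPowerSeries.C a)) = algebraMap 𝒪 X.R a) := by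
  classical
  obtain ⟨γ₀, hγ₀, hγ₀m⟩ := exists_eval (A := 𝒪) (R := X.R) (σ := Idx ι g)
    (Sum.elim (fun q => if q.2.1 then X.s (some q.1) q.2.2 else X.f (some q.1) q.2.2) X.x) (by
      rintro (⟨t, b, i⟩ | j)
      · cases b
        · exact X.f_mem _ _
        · exact X.s_mem _ _
      · exact X.x_mem j)
  let _ : Algebra (MvPowerSeries (Idx ι g) 𝒪) X.R := (γ₀ : _ →+* X.R).toAlgebra
  have halg : ∀ a : MvPowerSeries (Idx ι g) 𝒪, algebraMap _ X.R a = γ₀ a := fun a => rfl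
  have hloc : IsLocalHom (algebraMap (MvPowerSeries (Idx ι g) 𝒪) X.R) := by
    constructor
    intro a ha
    by_contra h
    have h1 := hγ₀m a ((mem_maximalIdeal _).mpr h)
    exact (mem_nonunits_iff.mp ((mem_maximalIdeal _).mp h1)) ha
  obtain ⟨γ, hγ, hγm⟩ := exists_eval (A := MvPowerSeries (Idx ι g) 𝒪) (R := X.R)
    (σ := Bool × Fin 3) (fun q => if q.1 then X.s none q.2 else X.f none q.2) (by
      rintro ⟨b, i⟩
      cases b
      · exact X.f_mem _ _
      · exact X.s_mem _ _)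
  have hγC : ∀ a, γ (MvPowerSeries.C a) = γ₀ a := fun a => γ.commutes a
  let π : PA (MvPowerSeries (Idx ι g) 𝒪) →ₐ[𝒪] X.R :=
    { (γ : PA (MvPowerSeries (Idx ι g) 𝒪) →+* X.R) with
      commutes' := fun a => by
        show γ (algebraMap 𝒪 (PA (MvPowerSeries (Idx ι g) 𝒪)) a) = _
        rw [MvPowerSeries.algebraMap_apply, hγC]
        exact γ₀.commutes a }
  have hπ : ∀ a, π a = γ a := fun a => rfl
  have h1 : ∀ i, π (MvPowerSeries.X (false, i)) = X.f none i := fun i => by rw [hπ, hγ]; simp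
  have h2 : ∀ i, π (MvPowerSeries.X (true, i)) = X.s none i := fun i => by rw [hπ, hγ]; simp
  have h3 : ∀ t i, π (MvPowerSeries.C (oX t false i)) = X.f (some t) i := fun t i => by
    rw [hπ, hγC, hγ₀]; simp
  have h4 : ∀ t i, π (MvPowerSeries.C (oX t true i)) = X.s (some t) i := fun t i => by
    rw [hπ, hγC, hγ₀]; simp
  have h5 : ∀ j, π (MvPowerSeries.C (MvPowerSeries.X (Sum.inr j))) = X.x j := fun j => by
    rw [hπ, hγC, hγ₀]; simp
  have h6 : ∀ a : 𝒪, π (MvPowerSeries.C (MvPowerSeries.C a)) = algebraMap 𝒪 X.R a := fun a => by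
    rw [hπ, hγC]; exact γ₀.commutes a
  refine ⟨π, ?_, h1, h2, h3, h4, h6⟩
  apply surjective_of_maximalIdeal_le (π : PA (MvPowerSeries (Idx ι g) 𝒪) →+* X.R) hγm
  · intro b
    obtain ⟨a, ha⟩ := X.residue_surj b
    exact ⟨MvPowerSeries.C (MvPowerSeries.C a), by
      rw [RingHom.coe_coe, h6]; exact ha⟩
  · have hX : ∀ q, (MvPowerSeries.X q : PA (MvPowerSeries (Idx ι g) 𝒪)) ∈ maximalIdeal _ :=
      fun q => DefRing.X_mem_maximalIdeal q
    have hCX : ∀ q, (MvPowerSeries.C (MvPowerSeries.X q) : PA (MvPowerSeries (Idx ι g) 𝒪)) ∈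
      maximalIdeal _ := fun q => C_mem_maximalIdeal_iff'.mpr (DefRing.X_mem_maximalIdeal q)
    refine X.gen.trans (sup_le_sup_right (sup_le ?_ ?_) _)
    · rw [Ideal.map_le_iff_le_comap]
      intro a ha
      rw [Ideal.mem_comap, ← h6]
      exact Ideal.mem_map_of_mem (π : PA (MvPowerSeries (Idx ι g) 𝒪) →+* X.R)
        (C_mem_maximalIdeal_iff'.mpr (C_mem_maximalIdeal_iff'.mpr ha))
    · rw [Ideal.span_le]
      rintro _ ((⟨t, i, rfl⟩ | ⟨t, i, rfl⟩) | ⟨j, rfl⟩)
      · cases t with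
        | none =>
          rw [← h1]
          exact Ideal.mem_map_of_mem (π : PA (MvPowerSeries (Idx ι g) 𝒪) →+* X.R) (hX _)
        | some t =>
          rw [← h3]
          exact Ideal.mem_map_of_mem (π : PA (MvPowerSeries (Idx ι g) 𝒪) →+* X.R) (hCX _)
      · cases t with
        | none =>
          rw [← h2]
          exact Ideal.mem_map_of_mem (π : PA (MvPowerSeries (Idx ι g) 𝒪) →+* X.R) (hX _)
        | some t =>
          rw [← h4]
          exact Ideal.mem_map_of_mem (π : PA (MvPowerSeries (Idx ι g) 𝒪) →+* X.R) (hCX _)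
      · rw [← h5]
        exact Ideal.mem_map_of_mem (π : PA (MvPowerSeries (Idx ι g) 𝒪) →+* X.R) (hCX _)

end

/-- change of the index set of the blocks -/
def Datum.reindex {𝒪 : Type} [CommRing 𝒪] [IsLocalRing 𝒪] {p : ℕ} {T T' : Type} {t₀ : T}
    {g r : ℕ} {ϖ : 𝒪} {B : Finset 𝒪} {c : 𝒪} {D n : ℕ}
    (X : Datum 𝒪 p T t₀ g r ϖ B c D n) (e : T' ≃ T) : Datum 𝒪 p T' (e.symm t₀) g r ϖ B c D n where
  R := X.R
  residue_surj := X.residue_surj
  f t i := X.f (e t) i
  s t i := X.s (e t) i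
  x := X.x
  f_mem t i := X.f_mem _ i
  s_mem t i := X.s_mem _ i
  x_mem := X.x_mem
  gen := by
    refine X.gen.trans (sup_le_sup_right (sup_le_sup_left (Ideal.span_mono ?_) _) _)
    rintro _ ((⟨t, i, rfl⟩ | ⟨t, i, rfl⟩) | ⟨j, rfl⟩)
    · exact Or.inl (Or.inl ⟨e.symm t, i, by simp⟩)
    · exact Or.inl (Or.inr ⟨e.symm t, i, by simp⟩)
    · exact Or.inr ⟨j, rfl⟩
  Δ := X.Δ
  isPGroup := X.isPGroup
  δ := X.δ
  closure_δ := X.closure_δ
  χ := X.χ
  χ_δ := X.χ_δ
  κ := X.κ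
  κ_mem := X.κ_mem
  N := X.N
  d := X.d
  d_pos := X.d_pos
  d_le := X.d_le
  b := X.b
  b_basis := X.b_basis
  minor t i j y := X.minor _ i j y
  quad t y := X.quad _ y
  low y := by simpa using X.low y

theorem finite_residueField_mvPowerSeries (A σ : Type*) [CommRing A] [IsLocalRing A]
    [Finite (ResidueField A)] : Finite (ResidueField (MvPowerSeries σ A)) := by
  have h : IsLocalHom (MvPowerSeries.C : A →+* MvPowerSeries σ A) := by
    constructor
    intro a ha
    rwa [MvPowerSeries.isUnit_iff_constantCoeff, MvPowerSeries.constantCoeff_C] at ha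
  refine Finite.of_surjective (ResidueField.map (MvPowerSeries.C : A →+* MvPowerSeries σ A)) ?_
  intro y
  obtain ⟨f, rfl⟩ := residue_surjective y
  refine ⟨residue A (MvPowerSeries.constantCoeff f), ?_⟩
  rw [ResidueField.map_residue, ← sub_eq_zero, ← map_sub, residue_eq_zero_iff, mem_maximalIdeal,
    mem_nonunits_iff, MvPowerSeries.isUnit_iff_constantCoeff]
  simp

theorem main_aux {𝒪 : Type} [CommRing 𝒪] [IsDomain 𝒪] [IsDiscreteValuationRing 𝒪]
    [IsAdicComplete (maximalIdeal 𝒪) 𝒪] [Finite (ResidueField 𝒪)] {p : ℕ} [Fact p.Prime]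
    (hp : (p : 𝒪) ∈ maximalIdeal 𝒪) {ι : Type} [Fintype ι] {g r D : ℕ}
    (hr : r = 3 * (Fintype.card ι + 1) + g) (ϖ : 𝒪) (hϖ : Irreducible ϖ) (B : Finset 𝒪)
    (hB : ∀ b ∈ B, b ≠ 0 ∧ b ∈ maximalIdeal 𝒪) (c : 𝒪) (hc : c ∈ Ideal.span {ϖ})
    (X : ∀ n, Datum 𝒪 p (Option ι) none g r ϖ B c D n) : False := by
  classical
  -- constant rank
  obtain ⟨d, hd⟩ : ∃ d, ∀ m, ∃ n, m ≤ n ∧ (X n).d = d := by
    obtain ⟨y, hy⟩ := Finite.exists_infinite_fiber
      (fun n : ℕ => (⟨(X n).d, Nat.lt_succ_of_le (X n).d_le⟩ : Fin (D + 1)))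
    refine ⟨y, fun m => ?_⟩
    rw [Set.infinite_coe_iff] at hy
    obtain ⟨n, hn, hmn⟩ := hy.exists_gt m
    refine ⟨n, hmn.le, ?_⟩
    exact congrArg Fin.val hn
  choose nn hnn hdd using hd
  have hdpos : 0 < d := by rw [← hdd 0]; exact (X _).d_pos
  have hPfin : Finite (ResidueField (PA (MvPowerSeries (Idx ι g) 𝒪))) := by
    have := finite_residueField_mvPowerSeries 𝒪 (Idx ι g)
    exact finite_residueField_mvPowerSeries _ _
  have hΛfin : Finite (ResidueField (MvPowerSeries (Fin r) 𝒪)) :=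
    finite_residueField_mvPowerSeries 𝒪 (Fin r)
  have hPloc : IsLocalHom (algebraMap 𝒪 (PA (MvPowerSeries (Idx ι g) 𝒪))) := by
    constructor
    intro a ha
    rw [MvPowerSeries.algebraMap_apply, MvPowerSeries.isUnit_iff_constantCoeff,
      MvPowerSeries.constantCoeff_C, MvPowerSeries.algebraMap_apply,
      MvPowerSeries.isUnit_iff_constantCoeff, MvPowerSeries.constantCoeff_C] at ha
    exact ha
  choose π hπ h1 h2 h3 h4 h5 using fun m => (X (nn m)).exists_surj
  let _ : ∀ m, Module (PA (MvPowerSeries (Idx ι g) 𝒪)) (X (nn m)).N := fun m =>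
    Module.compHom _ (π m : PA (MvPowerSeries (Idx ι g) 𝒪) →+* (X (nn m)).R)
  have hsmul : ∀ m (f : PA (MvPowerSeries (Idx ι g) 𝒪)) (y : (X (nn m)).N),
      f • y = π m f • y := fun m f y => rfl
  have hlev : ∀ m, ∃ (J : Ideal (MvPowerSeries (Fin r) 𝒪))
      (φ : MvPowerSeries (Fin r) 𝒪 →ₐ[𝒪] PA (MvPowerSeries (Idx ι g) 𝒪)),
      J ≤ maximalIdeal _ ^ m ∧ Nonempty (Lev J (φ : MvPowerSeries (Fin r) 𝒪 →+*
        PA (MvPowerSeries (Idx ι g) 𝒪)) d (X (nn m)).N) := by
    intro m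
    obtain ⟨J, φ, hJ, ⟨L⟩⟩ := exists_lev p hp (X (nn m)).isPGroup (X (nn m)).δ (X (nn m)).closure_δ
      (nn m) (X (nn m)).χ (X (nn m)).χ_δ (X (nn m)).κ (X (nn m)).κ_mem (X (nn m)).b
      (X (nn m)).b_basis (π m) (hπ m) (hsmul m)
    exact ⟨J, φ, hJ.trans (Ideal.pow_le_pow_right (hnn m)), ⟨hdd m ▸ L⟩⟩
  choose J φ hJ hL using hlev
  obtain ⟨A, ψ, hψ, hψc, hA⟩ := exists_patch d J hJ
    (fun m => (φ m : MvPowerSeries (Fin r) 𝒪 →+* PA (MvPowerSeries (Idx ι g) 𝒪)))
    (fun m => (X (nn m)).N) (fun m => (hL m).some)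
  have hzero : ∀ f : PA (MvPowerSeries (Idx ι g) 𝒪), (∀ m (y : (X (nn m)).N), π m f • y = 0) →
      A f = 0 := by
    intro f hf
    refine Matrix.ext fun i j => ?_
    have := hA f ⊥ (fun m y => by rw [hsmul, hf]; exact Submodule.zero_mem _) i j
    simpa using this
  refine core hr ϖ hϖ B hB c hc hdpos A ψ hψ ?_ ?_ ?_ ?_ ?_ ?_
  · intro a
    apply hψc
    intro m
    have := (φ m).commutes a
    rw [MvPowerSeries.algebraMap_apply, MvPowerSeries.algebraMap_apply,
      MvPowerSeries.algebraMap_apply] at this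
    exact this
  · intro i j
    apply hzero
    intro m y
    rw [map_sub, map_mul, map_mul, h1, h1, h2, h2]
    exact (X (nn m)).minor none i j y
  · apply hzero
    intro m y
    rw [map_prod]
    simp only [map_sub, map_add, map_mul, map_pow, h2, h5]
    exact (X (nn m)).quad none y
  · intro t i j
    apply hzero
    intro m y
    rw [map_sub, map_mul, map_mul, map_sub, map_mul, map_mul, h3, h3, h4, h4]
    exact (X (nn m)).minor (some t) i j y
  · intro t
    apply hzero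
    intro m y
    rw [map_prod]
    simp only [map_sub, map_add, map_mul, map_pow, h4, h5]
    exact (X (nn m)).quad (some t) y
  · apply hA
    intro m y
    rw [hsmul, map_sub, map_add, map_mul, map_pow, h1, h1, h1, h5]
    obtain ⟨z, hz⟩ := (X (nn m)).low y
    rw [hz, ← h5 m, ← hsmul]
    refine Submodule.smul_mem_smul ?_ trivial
    have h6 : MvPowerSeries.C (MvPowerSeries.C ϖ) = (φ m) (MvPowerSeries.C ϖ) := by
      have := (φ m).commutes ϖ
      rw [MvPowerSeries.algebraMap_apply, MvPowerSeries.algebraMap_apply,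
        MvPowerSeries.algebraMap_apply] at this
      exact this.symm
    rw [h6]
    exact Ideal.mem_map_of_mem _ (Ideal.mem_span_singleton_self _)

/-- **Main theorem of the patching argument.** -/
theorem main {𝒪 : Type} [CommRing 𝒪] [IsDomain 𝒪] [IsDiscreteValuationRing 𝒪]
    [IsAdicComplete (maximalIdeal 𝒪) 𝒪] [Finite (ResidueField 𝒪)] {p : ℕ} [Fact p.Prime]
    (hp : (p : 𝒪) ∈ maximalIdeal 𝒪) {T : Type} [Fintype T] (t₀ : T) {g r D : ℕ}
    (hr : r = 3 * Fintype.card T + g) (ϖ : 𝒪) (hϖ : Irreducible ϖ) (B : Finset 𝒪)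
    (hB : ∀ b ∈ B, b ≠ 0 ∧ b ∈ maximalIdeal 𝒪) (c : 𝒪) (hc : c ∈ Ideal.span {ϖ})
    (X : ∀ n, Nonempty (Datum 𝒪 p T t₀ g r ϖ B c D n)) : False := by
  classical
  let e : Option {t : T // t ≠ t₀} ≃ T := Equiv.optionSubtypeNe t₀
  have he : e.symm t₀ = none := by
    rw [Equiv.symm_apply_eq]; simp [e]
  have hcard : Fintype.card {t : T // t ≠ t₀} + 1 = Fintype.card T := by
    rw [← Fintype.card_option, Fintype.card_congr e]
  refine main_aux (ι := {t : T // t ≠ t₀}) hp (g := g) (r := r) (D := D) (by rw [hcard]; exact hr)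
    ϖ hϖ B hB c hc (fun n => ?_)
  have := (X n).some.reindex e
  rwa [he] at this

end Fermat.Agent.Patch
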