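import Mathlib
import Fermat.Agent.DefRing.Universal
import Fermat.Agent.ChebFull.Places

/-!
# The universal ring is topologically generated by traces of Frobenius elements
-/

set_option autoImplicit false
set_option linter.style.haveILetI false
set_option linter.unusedSectionVars false

namespace Fermat.Agent.Patch

open IsLocalRing Module GaloisRep Fermat.Agent.DefRing Fermat.Agent

local notation "Γ" => (AlgebraicClosure ℚ ≃ₐ[ℚ] AlgebraicClosure ℚ)

section

variable {𝒪 : Type} [CommRing 𝒪] [IsLocalRing 𝒪]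
  {ρbar : ResidualGaloisRep (ResidueField 𝒪)} (F : Frame 𝒪 ρbar)

theorem entries_mem_of_traces (habs : ρbar.IsAbsolutelyIrreducible)
    {A : Type} [CommRing A] [IsLocalRing A] [Algebra 𝒪 A]
    [IsLocalHom (algebraMap 𝒪 A)] [Finite A] (r : Γ → Matrix (Fin 2) (Fin 2) A) (h1 : r 1 = 1)
    (hmul : ∀ σ τ, r (σ * τ) = r σ * r τ) (hres : ResOK F r) (hwp : WellPlaced F r)
    (A' : Subalgebra 𝒪 A) (htr : ∀ σ, (r σ).trace ∈ A') (σ : Γ) (i j : Fin 2) : r σ i j ∈ A' := by
  classical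
  let rh : Γ →* Matrix (Fin 2) (Fin 2) A :=
    { toFun := r, map_one' := h1, map_mul' := hmul }
  let L : MonoidAlgebra A' Γ →ₐ[A'] Matrix (Fin 2) (Fin 2) A :=
    MonoidAlgebra.lift A' (Matrix (Fin 2) (Fin 2) A) Γ rh
  have hL : ∀ σ, L (MonoidAlgebra.of A' Γ σ) = r σ := fun σ => by simp [L, rh]
  have hB : ∀ σ, r σ ∈ L.range := fun σ => ⟨_, hL σ⟩
  have htrB : ∀ Y ∈ L.range, Y.trace ∈ A' := by
    rintro _ ⟨x, rfl⟩
    induction x using MonoidAlgebra.induction_on with
    | of γ =>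
      show (L (MonoidAlgebra.of A' Γ γ)).trace ∈ A'
      rw [hL]; exact htr γ
    | add x y hx hy =>
      show (L (x + y)).trace ∈ A'
      rw [map_add, Matrix.trace_add]
      exact A'.add_mem hx hy
    | smul a x hx =>
      show (L (a • x)).trace ∈ A'
      rw [map_smul, Matrix.trace_smul]
      exact A'.mul_mem a.2 hx
  have hlin : ∀ (s : Finset Γ) (c : Γ → 𝒪), lin s c r ∈ L.range := by
    intro s c
    refine Subalgebra.sum_mem _ fun σ _ => ?_
    exact L.range.smul_mem (hB σ) (algebraMap 𝒪 A' (c σ))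
  -- the idempotent
  obtain ⟨hu00, -, -, hu11⟩ := hres.lin1 F
  set X1 := lin F.s1 F.c1 r with hX1
  have hX1d : X1 = Matrix.diagonal ![X1 0 0, X1 1 1] := by
    ext a b
    fin_cases a <;> fin_cases b
    · simp
    · simpa using hwp.w1
    · simpa using hwp.w2
    · simp
  obtain ⟨N, hN0, hN⟩ : ∃ N, (X1 0 0) ^ N = 1 ∧ (X1 1 1) ^ N = 0 := by
    have hu : IsUnit (X1 0 0) := isUnit_of_sub_one_mem hu00
    obtain ⟨u, hu⟩ := hu
    have hart : IsArtinianRing A := inferInstance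
    have hnil : IsNilpotent (X1 1 1) := by
      have hj : IsNilpotent (maximalIdeal A) := by
        have := IsArtinianRing.isNilpotent_jacobson_bot (R := A)
        rwa [IsLocalRing.jacobson_eq_maximalIdeal _ bot_ne_top] at this
      obtain ⟨k, hk⟩ := hj
      refine ⟨k, ?_⟩
      have := Ideal.pow_mem_pow hu11 k
      rw [hk] at this
      exact this
    obtain ⟨M, hM⟩ := hnil
    have hord : 0 < orderOf u := orderOf_pos u
    refine ⟨M * orderOf u, ?_, ?_⟩
    · rw [← hu, ← Units.val_pow_eq_pow_val, mul_comm, pow_mul, pow_orderOf_eq_one, one_pow,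
        Units.val_one]
    · rw [pow_mul, hM, zero_pow hord.ne']
  have hE11 : Matrix.diagonal ![(1 : A), 0] ∈ L.range := by
    have h2 := L.range.pow_mem (hlin F.s1 F.c1) N
    rw [← hX1, hX1d, Matrix.diagonal_pow] at h2
    convert h2 using 2
    ext a
    fin_cases a
    · simp [hN0]
    · simp [hN]
  have hE22 : Matrix.diagonal ![(0 : A), 1] ∈ L.range := by
    have h2 := L.range.sub_mem L.range.one_mem hE11
    convert h2 using 1
    ext a b
    fin_cases a <;> fin_cases b <;> simp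
  have h00 : ∀ Y ∈ L.range, Y 0 0 ∈ A' := by
    intro Y hY
    have h2 := htrB _ (L.range.mul_mem hE11 hY)
    simpa [Matrix.trace_fin_two] using h2
  have h11 : ∀ Y ∈ L.range, Y 1 1 ∈ A' := by
    intro Y hY
    have h2 := htrB _ (L.range.mul_mem hE22 hY)
    simpa [Matrix.trace_fin_two] using h2
  have hprod : ∀ Y ∈ L.range, ∀ Z ∈ L.range, Y 0 1 * Z 1 0 ∈ A' := by
    intro Y hY Z hZ
    have h2 := h00 _ (L.range.mul_mem (L.range.mul_mem hY hE22) hZ)
    simpa [Matrix.mul_apply, Fin.sum_univ_two] using h2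
  have h10 : ∀ Z ∈ L.range, Z 1 0 ∈ A' := by
    intro Z hZ
    have h2 := hprod _ (hlin F.s2 F.c2) Z hZ
    rwa [hwp.w3, one_mul] at h2
  -- an element with unit lower left entry
  obtain ⟨s3, c3, h3⟩ := exists_finsupp_sum_eq ρbar habs F.real !![0, 0; 1, 0]
  let c3' : Γ → 𝒪 := fun σ => Function.surjInv residue_surjective (c3 σ)
  have hc3 : ∀ σ, residue 𝒪 (c3' σ) = c3 σ := fun σ => Function.surjInv_eq residue_surjective _
  have h4 := residue_lin F hres s3 c3' !![0, 0; 1, 0] (by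
    simp only [hc3]
    rw [h3]; ext a b; fin_cases a <;> fin_cases b <;> simp) 1 0
  have h5 : IsUnit (lin s3 c3' r 1 0) := by
    apply isUnit_of_sub_one_mem
    simpa using h4
  have h6 := h10 _ (hlin s3 c3')
  have h7 : ∃ w ∈ A', lin s3 c3' r 1 0 * w = 1 := by
    obtain ⟨u, hu⟩ := h5
    have hord : 0 < orderOf u := orderOf_pos u
    refine ⟨(lin s3 c3' r 1 0) ^ (orderOf u - 1), A'.pow_mem h6 _, ?_⟩
    rw [← pow_succ', Nat.sub_add_cancel hord, ← hu, ← Units.val_pow_eq_pow_val,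
      pow_orderOf_eq_one, Units.val_one]
  have h01 : ∀ Y ∈ L.range, Y 0 1 ∈ A' := by
    intro Y hY
    obtain ⟨w, hw, hw1⟩ := h7
    have h2 := A'.mul_mem (hprod _ hY _ (hlin s3 c3')) hw
    rwa [mul_assoc, hw1, mul_one] at h2
  fin_cases i <;> fin_cases j
  · exact h00 _ (hB σ)
  · exact h01 _ (hB σ)
  · exact h10 _ (hB σ)
  · exact h11 _ (hB σ)

end

section

variable {𝒪 : Type} [CommRing 𝒪] [IsDomain 𝒪] [IsDiscreteValuationRing 𝒪]
    [IsAdicComplete (maximalIdeal 𝒪) 𝒪] [Finite (ResidueField 𝒪)]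
  {ρbar : ResidualGaloisRep (ResidueField 𝒪)}
  {𝒟 : ∀ ⦃A : Type⦄ [CommRing A] [IsLocalRing A] [Algebra 𝒪 A], GaloisRepAdic A → Prop}

theorem _root_.Fermat.Agent.DefRing.Realizes.trace_eq {A : Type} [CommRing A] [IsLocalRing A]
    {ρ : GaloisRepAdic A} {r : Γ → Matrix (Fin 2) (Fin 2) A} (h : Realizes ρ r) (σ : Γ) :
    (r σ).trace = ρ.trace σ := by
  obtain ⟨b, hb⟩ := h
  rw [← hb, GaloisRepAdic.trace, LinearMap.trace_eq_matrix_trace A b]

/-- **The universal ring is topologically generated by traces of Frobenius elements.** -/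
theorem trace_dense (h𝒟 : IsDeformationCondition 𝒪 𝒟) (D : DeformationRingData 𝒪 ρbar 𝒟)
    (S : Finset ℕ) (B : Subalgebra 𝒪 D.R)
    (hB : ∀ ℓ : ℕ, ℓ.Prime → ℓ ∉ S → ∀ A : ValuationSubring (AlgebraicClosure ℚ),
      A.LiesOverPrime ℓ → ∀ φ : Γ, A.IsFrobeniusAt φ ℓ → D.ρ.trace φ ∈ B) (n : ℕ) (x : D.R) :
    ∃ b ∈ B, x - b ∈ maximalIdeal D.R ^ n := by
  classical
  rcases Nat.eq_zero_or_pos n with rfl | hn
  · exact ⟨0, B.zero_mem, by rw [pow_zero, Ideal.one_eq_top]; trivial⟩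
  obtain ⟨F⟩ := exists_frame 𝒪 ρbar D.absIrr
  obtain ⟨r, hr, hres, hwp⟩ := exists_wellPlaced F D.ρ D.residual_isEquiv
  obtain ⟨hloc, htest, hlh⟩ := quotient_pow_isTest (𝒪 := 𝒪) D.residue_surjective n hn
  haveI hfin := finite_quotient_maximalIdeal_pow (𝒪 := 𝒪) D.residue_surjective n
  set A := D.R ⧸ maximalIdeal D.R ^ n with hA
  set q : D.R →ₐ[𝒪] A := Ideal.Quotient.mkₐ 𝒪 (maximalIdeal D.R ^ n) with hq
  haveI hlocA : IsLocalHom (algebraMap 𝒪 A) := htest.isLocalHom
  have hrA : Realizes (D.ρ.baseChangeAlong (q : D.R →+* A) hlh) (fun σ => (r σ).map q) :=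
    hr.baseChange (q : D.R →+* A) hlh
  have hresA : ResOK F (fun σ => (r σ).map q) := hres.map q hlh
  have hwpA : WellPlaced F (fun σ => (r σ).map q) := hwp.map q
  set rA : Γ → Matrix (Fin 2) (Fin 2) A := fun σ => (r σ).map q with hrAdef
  have hone := hrA.map_one
  have hmul := hrA.map_mul
  -- finite level
  obtain ⟨L, hL, hL1⟩ := hrA.matCont.exists_eq_one htest
  let A' : Subalgebra 𝒪 A := B.map q
  have htr : ∀ σ, (rA σ).trace ∈ A' := by
    intro σ
    let rh : Γ →* Matrix (Fin 2) (Fin 2) A :=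
      { toFun := rA, map_one' := hone, map_mul' := hmul }
    obtain ⟨ℓ, hℓ, hℓS, -, A₀, hA₀, φ, hφ, hφσ⟩ := ChebFull.exists_frobenius_eq_of_factors rh
      ⟨L, hL, fun σ hσ => hL1 σ hσ⟩ σ S
    have h1 : rA φ = rA σ := hφσ
    rw [← h1]
    have h2 : (rA φ).trace = q ((r φ).trace) := by
      simp only [hrAdef, Matrix.trace_fin_two, Matrix.map_apply, map_add]
    rw [h2, hr.trace_eq]
    exact ⟨_, hB ℓ hℓ hℓS A₀ hA₀ φ hφ, rfl⟩
  have hent := entries_mem_of_traces F D.absIrr rA hone hmul hresA hwpA A' htr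
  -- the ring `A'`
  haveI hfin' : Finite A' := inferInstance
  have hunit : ∀ a : A', IsUnit (a : A) → IsUnit a := by
    intro a ha
    obtain ⟨u, hu⟩ := ha
    have hord : 0 < orderOf u := orderOf_pos u
    refine IsUnit.of_mul_eq_one (a ^ (orderOf u - 1)) ?_
    apply Subtype.ext
    rw [← pow_succ', Nat.sub_add_cancel hord]
    show (a : A) ^ orderOf u = 1
    rw [← hu, ← Units.val_pow_eq_pow_val, pow_orderOf_eq_one, Units.val_one]
  haveI hinj : IsLocalHom (A'.val : A' →+* A) := ⟨fun a ha => hunit a ha⟩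
  haveI hlocA' : IsLocalRing A' := RingHom.domain_isLocalRing (A'.val : A' →+* A)
  have hmem : ∀ a : A', a ∈ maximalIdeal A' ↔ (a : A) ∈ maximalIdeal A := by
    intro a
    rw [mem_maximalIdeal, mem_maximalIdeal, mem_nonunits_iff, mem_nonunits_iff, not_iff_not]
    exact ⟨fun h => h.map A'.val, hunit a⟩
  haveI hlocO : IsLocalHom (algebraMap 𝒪 A') := by
    constructor
    intro a ha
    have h1 : IsUnit (algebraMap 𝒪 A a) := ha.map A'.val
    exact hlocA.map_nonunit a h1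
  have htest' : IsArtinianTestAlgebra 𝒪 A' := by
    refine ⟨hlocO, ?_, inferInstance⟩
    intro y
    obtain ⟨a, rfl⟩ := residue_surjective y
    obtain ⟨o, ho⟩ := htest.residue_surjective (residue A (a : A))
    refine ⟨o, ?_⟩
    have h1 : algebraMap 𝒪 A o - (a : A) ∈ maximalIdeal A := by
      rw [← residue_eq_zero_iff, map_sub, sub_eq_zero]; exact ho
    have h2 : algebraMap 𝒪 A' o - a ∈ maximalIdeal A' := (hmem _).2 h1
    rw [← residue_eq_zero_iff, map_sub, sub_eq_zero] at h2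
    exact h2
  -- the representation over `A'`
  let r' : Γ → Matrix (Fin 2) (Fin 2) A' := fun σ => Matrix.of fun i j => ⟨rA σ i j, hent σ i j⟩
  have hr' : ∀ σ, (r' σ).map A'.val = rA σ := fun σ => rfl
  have hinj' : Function.Injective (fun M : Matrix (Fin 2) (Fin 2) A' => M.map A'.val) :=
    Matrix.map_injective Subtype.val_injective
  have hone' : r' 1 = 1 := by
    apply hinj'
    show (r' 1).map A'.val = (1 : Matrix (Fin 2) (Fin 2) A').map A'.val
    rw [hr', hone, Matrix.map_one _ (map_zero _) (map_one _)]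
  have hmul' : ∀ σ τ, r' (σ * τ) = r' σ * r' τ := by
    intro σ τ
    apply hinj'
    show (r' (σ * τ)).map A'.val = (r' σ * r' τ).map (A'.val : A' →+* A)
    rw [Matrix.map_mul]
    exact hmul σ τ
  have hcont' : MatCont r' := by
    intro m
    refine ⟨L, hL, fun σ hσ i j => ?_⟩
    have h1 : r' σ = 1 := by
      apply hinj'
      show (r' σ).map A'.val = (1 : Matrix (Fin 2) (Fin 2) A').map A'.val
      rw [hr', hL1 σ hσ, Matrix.map_one _ (map_zero _) (map_one _)]
    rw [h1, sub_self]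
    exact Ideal.zero_mem _
  obtain ⟨ρ', hρ'⟩ := exists_of_matrices r' hone' hmul' hcont'
  have hequiv : (ρ'.baseChangeAlong (A'.val : A' →+* A) hinj).IsEquiv
      (D.ρ.baseChangeAlong (q : D.R →+* A) hlh) :=
    (hρ'.baseChange (A'.val : A' →+* A) hinj).isEquiv hrA
  have hDA : 𝒟 (D.ρ.baseChangeAlong (q : D.R →+* A) hlh) :=
    (h𝒟.iff_forall_surjective inferInstance D.residue_surjective D.ρ).mp D.isOfType htest q hlh
      Ideal.Quotient.mk_surjective
  have hD' : 𝒟 ρ' := by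
    refine h𝒟.of_baseChangeAlong_injective htest' htest A'.val hinj Subtype.val_injective ?_
    exact h𝒟.of_isEquiv htest ⟨(hequiv.some).symm⟩ hDA
  have hresOK' : ResOK F r' := by
    intro σ i j
    rw [hmem]
    exact hresA σ i j
  obtain ⟨φ', ⟨hφ'loc, hφ'⟩, -⟩ := D.universal A' htest'.residue_surjective ρ' hD'
    (residual_isEquiv_of_resOK F hρ' hresOK')
  obtain ⟨ψ, -, hψuniq⟩ := D.universal A htest.residue_surjective
    (D.ρ.baseChangeAlong (q : D.R →+* A) hlh) hDA (residual_isEquiv_of_resOK F hrA hresA)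
  have hq1 : q = ψ := hψuniq q ⟨hlh, ⟨GaloisRepAdic.Equiv.refl _⟩⟩
  have hcomploc : IsLocalHom ((A'.val.comp φ' : D.R →ₐ[𝒪] A) : D.R →+* A) :=
    RingHom.isLocalHom_comp (A'.val : A' →+* A) (φ' : D.R →+* A')
  have hφ2 : A'.val.comp φ' = ψ := by
    refine hψuniq _ ⟨hcomploc, ?_⟩
    have h1 := (hr.baseChange (φ' : D.R →+* A') hφ'loc).of_isEquiv hφ'
    have h2 := h1.baseChange (A'.val : A' →+* A) hinj
    have h3 := h2.of_isEquiv hequiv
    exact (hr.baseChange ((A'.val.comp φ' : D.R →ₐ[𝒪] A) : D.R →+* A) hcomploc).isEquiv h3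
  have hx : q x = (φ' x : A) := by
    rw [hq1, ← hφ2]; rfl
  obtain ⟨b, hb, hbx⟩ := (φ' x).2
  refine ⟨b, hb, ?_⟩
  rw [← Ideal.Quotient.eq_zero_iff_mem, map_sub, sub_eq_zero]
  exact hx.trans hbx.symm

end

end Fermat.Agent.Patch
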