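import Mathlib

/-!
# Action of a complete local ring on a lattice, from its points
-/

set_option autoImplicit false

namespace Fermat.Agent.Patch

open IsLocalRing TensorProduct

/-- finitely generated modules are separated, relative version -/
theorem mem_of_forall_exists_sub_mem {𝒪 V : Type*} [CommRing 𝒪] [IsLocalRing 𝒪]
    [IsNoetherianRing 𝒪] [AddCommGroup V] [Module 𝒪 V] (W N : Submodule 𝒪 V) (hW : W.FG)
    (hN : N ≤ W) (y : V)
    (h : ∀ c : ℕ, ∃ n ∈ N, y - n ∈ (maximalIdeal 𝒪 ^ c) • W) : y ∈ N := by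
  have hyW : y ∈ W := by
    obtain ⟨n, hn, h0⟩ := h 0
    rw [pow_zero, Ideal.one_eq_top, Submodule.top_smul] at h0
    have := W.add_mem h0 (hN hn)
    simpa using this
  have hfin : Module.Finite 𝒪 W := Module.Finite.iff_fg.mpr hW
  let N' : Submodule 𝒪 W := N.comap W.subtype
  have hK := Ideal.iInf_pow_smul_eq_bot_of_isLocalRing (R := 𝒪) (M := W ⧸ N') (maximalIdeal 𝒪)
    (maximalIdeal.isMaximal 𝒪).ne_top
  have h1 : (N'.mkQ ⟨y, hyW⟩) ∈ (⨅ i : ℕ, (maximalIdeal 𝒪) ^ i • (⊤ : Submodule 𝒪 (W ⧸ N'))) := by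
    rw [Submodule.mem_iInf]
    intro c
    obtain ⟨n, hn, hc⟩ := h c
    have h2 : N'.mkQ ⟨y, hyW⟩ = N'.mkQ (⟨y, hyW⟩ - ⟨n, hN hn⟩) := by
      rw [map_sub]
      have : N'.mkQ ⟨n, hN hn⟩ = 0 := (Submodule.Quotient.mk_eq_zero N').mpr hn
      rw [this, sub_zero]
    rw [h2]
    have h3 : (⟨y, hyW⟩ - ⟨n, hN hn⟩ : W) ∈ (maximalIdeal 𝒪 ^ c) • (⊤ : Submodule 𝒪 W) := by
      have h4 : ((maximalIdeal 𝒪 ^ c) • (⊤ : Submodule 𝒪 W)).map W.subtype =
          (maximalIdeal 𝒪 ^ c) • W := by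
        rw [Submodule.map_smul'', Submodule.map_top, Submodule.range_subtype]
      rw [← h4] at hc
      obtain ⟨z, hz, hzy⟩ := hc
      have : z = ⟨y, hyW⟩ - ⟨n, hN hn⟩ := Subtype.ext hzy
      rwa [← this]
    have h5 := Submodule.mem_map_of_mem (f := N'.mkQ) h3
    rw [Submodule.map_smul'', Submodule.map_top, Submodule.range_mkQ] at h5
    exact h5
  rw [hK, Submodule.mem_bot] at h1
  exact (Submodule.Quotient.mk_eq_zero N').mp h1

/-- the maximal ideal of a finite local algebra has a power in the ideal generated by the maximal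
ideal of the base -/
theorem exists_maximalIdeal_pow_le {𝒪 B : Type*} [CommRing 𝒪] [IsLocalRing 𝒪]
    [IsNoetherianRing 𝒪] [CommRing B] [IsLocalRing B] [Algebra 𝒪 B] [Module.Finite 𝒪 B] :
    ∃ N : ℕ, maximalIdeal B ^ N ≤ (maximalIdeal 𝒪).map (algebraMap 𝒪 B) := by
  have hnoeth : IsNoetherianRing B := IsNoetherianRing.of_finite 𝒪 B
  have hint : Algebra.IsIntegral 𝒪 B := Algebra.IsIntegral.of_finite 𝒪 B
  have hrad : ((maximalIdeal 𝒪).map (algebraMap 𝒪 B)).radical = maximalIdeal B := by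
    rw [Ideal.radical_eq_sInf]
    apply le_antisymm
    · refine sInf_le ⟨?_, inferInstance⟩
      rw [Ideal.map_le_iff_le_comap]
      have : (maximalIdeal B).comap (algebraMap 𝒪 B) = maximalIdeal 𝒪 :=
        eq_maximalIdeal (Ideal.isMaximal_comap_of_isIntegral_of_isMaximal _)
      rw [this]
    · refine le_sInf ?_
      rintro q ⟨hq, hqp⟩
      have h1 : (q.comap (algebraMap 𝒪 B)).IsMaximal := by
        have h2 : maximalIdeal 𝒪 ≤ q.comap (algebraMap 𝒪 B) := Ideal.map_le_iff_le_comap.mp hq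
        have h3 : q.comap (algebraMap 𝒪 B) ≠ ⊤ := Ideal.comap_ne_top _ hqp.ne_top
        rw [← (maximalIdeal.isMaximal 𝒪).eq_of_le h3 h2]
        infer_instance
      have h4 : q.IsMaximal := Ideal.isMaximal_of_isIntegral_of_isMaximal_comap q h1
      rw [eq_maximalIdeal h4]
  obtain ⟨N, hN⟩ := Ideal.exists_radical_pow_le_of_fg ((maximalIdeal 𝒪).map (algebraMap 𝒪 B))
    (IsNoetherian.noetherian _)
  rw [hrad] at hN
  exact ⟨N, hN⟩

section

variable {𝒪 R K : Type*} [CommRing 𝒪] [IsLocalRing 𝒪] [IsNoetherianRing 𝒪]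
  [CommRing R] [IsLocalRing R] [Algebra 𝒪 R] [Field K] [Algebra 𝒪 K]

theorem exists_pow_mem_of_finite_range (θ : R →ₐ[𝒪] K) (hθ : Module.Finite 𝒪 θ.range) :
    ∃ N : ℕ, ∀ c : ℕ, ∀ s ∈ maximalIdeal R ^ (N * c),
      θ s ∈ (maximalIdeal 𝒪 ^ c) • (Subalgebra.toSubmodule θ.range) := by
  have hloc : IsLocalRing θ.range :=
    IsLocalRing.of_surjective' (θ.rangeRestrict : R →+* θ.range) θ.rangeRestrict_surjective
  have hlh : IsLocalHom (θ.rangeRestrict : R →+* θ.range) :=
    IsLocalHom.of_surjective _ θ.rangeRestrict_surjective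
  obtain ⟨N, hN⟩ := exists_maximalIdeal_pow_le (𝒪 := 𝒪) (B := θ.range)
  refine ⟨N, fun c s hs => ?_⟩
  have h1 : (maximalIdeal R).map (θ.rangeRestrict : R →+* θ.range) ≤ maximalIdeal θ.range := by
    rw [Ideal.map_le_iff_le_comap]
    intro x hx
    exact map_nonunit (θ.rangeRestrict : R →+* θ.range) x hx
  have h2 : θ.rangeRestrict s ∈ maximalIdeal θ.range ^ (N * c) := by
    have := Ideal.mem_map_of_mem (θ.rangeRestrict : R →+* θ.range) hs
    rw [Ideal.map_pow] at this
    exact Ideal.pow_right_mono h1 _ this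
  rw [pow_mul] at h2
  have h3 := Ideal.pow_right_mono hN c h2
  rw [← Ideal.map_pow] at h3
  have h4 : θ.rangeRestrict s ∈ (maximalIdeal 𝒪 ^ c) • (⊤ : Submodule 𝒪 θ.range) := by
    rw [Ideal.smul_top_eq_map]
    exact h3
  have h5 := Submodule.mem_map_of_mem (f := θ.range.val.toLinearMap) h4
  rw [Submodule.map_smul''] at h5
  have h6 : (⊤ : Submodule 𝒪 θ.range).map θ.range.val.toLinearMap =
      Subalgebra.toSubmodule θ.range := by
    ext z
    constructor
    · rintro ⟨w, -, rfl⟩; exact w.2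
    · intro hz; exact ⟨⟨z, hz⟩, trivial, rfl⟩
  rw [h6] at h5
  exact h5

variable {M : Type*} [AddCommGroup M] [Module 𝒪 M] [Module.Free 𝒪 M] [Module.Finite 𝒪 M]
  [FaithfulSMul 𝒪 K]

omit [Module.Free 𝒪 M] [Module.Finite 𝒪 M] [FaithfulSMul 𝒪 K] [AddCommGroup M] [Module 𝒪 M] in
theorem eq_of_dense (θ₁ θ₂ : R →ₐ[𝒪] K) (h₁ : Module.Finite 𝒪 θ₁.range)
    (h₂ : Module.Finite 𝒪 θ₂.range) (r : R)
    (hr : ∀ n : ℕ, ∃ b : R, θ₁ b = θ₂ b ∧ r - b ∈ maximalIdeal R ^ n) : θ₁ r = θ₂ r := by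
  rw [← sub_eq_zero, ← Submodule.mem_bot 𝒪]
  obtain ⟨N₁, hN₁⟩ := exists_pow_mem_of_finite_range θ₁ h₁
  obtain ⟨N₂, hN₂⟩ := exists_pow_mem_of_finite_range θ₂ h₂
  refine mem_of_forall_exists_sub_mem
    (Subalgebra.toSubmodule θ₁.range ⊔ Subalgebra.toSubmodule θ₂.range) ⊥
    ((Module.Finite.iff_fg.mp h₁).sup (Module.Finite.iff_fg.mp h₂)) bot_le _ fun c => ?_
  refine ⟨0, Submodule.zero_mem _, ?_⟩
  obtain ⟨b, hb, hbn⟩ := hr (N₁ * c + N₂ * c)
  have h3 := hN₁ c _ (Ideal.pow_le_pow_right (Nat.le_add_right _ _) hbn)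
  have h4 := hN₂ c _ (Ideal.pow_le_pow_right (Nat.le_add_left _ _) hbn)
  have h5 : θ₁ r - θ₂ r - 0 = θ₁ (r - b) - θ₂ (r - b) := by
    rw [map_sub, map_sub, hb]; ring
  rw [h5]
  exact Submodule.sub_mem _ (Submodule.smul_mono le_rfl le_sup_left h3)
    (Submodule.smul_mono le_rfl le_sup_right h4)

omit [FaithfulSMul 𝒪 K] in
theorem exists_end_of_dense (X : Set (K ⊗[𝒪] M)) (hX : ⊤ ≤ Submodule.span K X)
    (θ : K ⊗[𝒪] M → (R →ₐ[𝒪] K)) (hθ : ∀ x ∈ X, Module.Finite 𝒪 (θ x).range) (r : R)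
    (hr : ∀ n : ℕ, ∃ b : R, (∃ a : Module.End 𝒪 M, ∀ x ∈ X, a.baseChange K x = θ x b • x) ∧
      r - b ∈ maximalIdeal R ^ n) :
    ∃ a : Module.End 𝒪 M, ∀ x ∈ X, a.baseChange K x = θ x r • x := by
  classical
  let e := Module.finBasis 𝒪 M
  let eK : Module.Basis _ K (K ⊗[𝒪] M) := Algebra.TensorProduct.basis K e
  have hfd : FiniteDimensional K (K ⊗[𝒪] M) := Module.Basis.finiteDimensional_of_finite eK
  let β := Module.Basis.ofSpan hX
  have hβX : ∀ j, β j ∈ X := fun j => Module.Basis.ofSpan_subset hX ⟨j, rfl⟩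
  have hfinβ : Finite _ := Module.Finite.finite_basis β
  have hftβ := Fintype.ofFinite ((linearIndepOn_empty K id).extend (Set.empty_subset X) : Set _)
  -- the endomorphism of `K ⊗ M`
  let E : R → Module.End K (K ⊗[𝒪] M) := fun s => β.constr K fun j => θ (β j) s • β j
  have hE : ∀ s j, E s (β j) = θ (β j) s • β j := fun s j => β.constr_basis K _ j
  -- compatibility
  have hEa : ∀ b (a : Module.End 𝒪 M), (∀ x ∈ X, a.baseChange K x = θ x b • x) →
      a.baseChange K = E b := by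
    intro b a ha
    refine β.ext fun j => ?_
    rw [hE, ha _ (hβX j)]
  -- matrix coefficients
  have hcoef : ∀ i l, ∃ y : 𝒪, eK.repr (E r (eK i)) l = algebraMap 𝒪 K y := by
    intro i l
    let c : _ → K := fun j => β.repr (eK i) j * eK.repr (β j) l
    have hEs : ∀ s, eK.repr (E s (eK i)) l = ∑ j, c j * θ (β j) s := by
      intro s
      conv_lhs => rw [← β.sum_repr (eK i)]
      rw [map_sum, map_sum, Finsupp.finsetSum_apply]
      refine Finset.sum_congr rfl fun j _ => ?_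
      rw [map_smul, hE, map_smul, map_smul, Finsupp.smul_apply, Finsupp.smul_apply, smul_eq_mul,
        smul_eq_mul]
      ring
    -- the lattice
    let W₀ : Submodule 𝒪 K := ⨆ j, (Subalgebra.toSubmodule (θ (β j)).range).map
      (LinearMap.mulLeft 𝒪 (c j))
    let N : Submodule 𝒪 K := LinearMap.range (Algebra.linearMap 𝒪 K)
    have hW₀ : W₀.FG := by
      refine Submodule.fg_iSup _ fun j => Submodule.FG.map _ ?_
      exact Module.Finite.iff_fg.mp (hθ _ (hβX j))
    have hNfg : N.FG := by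
      have : N = Submodule.map (Algebra.linearMap 𝒪 K) ⊤ := (LinearMap.range_eq_map _)
      rw [this]
      exact Submodule.FG.map _ Module.Finite.fg_top
    have hmem : eK.repr (E r (eK i)) l ∈ N := by
      refine mem_of_forall_exists_sub_mem (W₀ ⊔ N) N (hW₀.sup hNfg) le_sup_right _ fun m => ?_
      choose Nj hNj using fun j => exists_pow_mem_of_finite_range (θ (β j)) (hθ _ (hβX j))
      obtain ⟨b, ⟨a, ha⟩, hb⟩ := hr ((∑ j, Nj j) * m)
      refine ⟨eK.repr (E b (eK i)) l, ?_, ?_⟩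
      · rw [← hEa b a ha]
        refine ⟨e.repr (a (e i)) l, ?_⟩
        rw [Algebra.linearMap_apply]
        have h1 : eK i = 1 ⊗ₜ[𝒪] e i := Algebra.TensorProduct.basis_apply e i
        rw [h1, LinearMap.baseChange_tmul, Algebra.TensorProduct.basis_repr_tmul]
        simp
      · rw [hEs, hEs, ← Finset.sum_sub_distrib]
        refine Submodule.sum_mem _ fun j _ => ?_
        rw [← mul_sub, ← map_sub]
        have h2 : r - b ∈ maximalIdeal R ^ (Nj j * m) := by
          refine Ideal.pow_le_pow_right ?_ hb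
          exact Nat.mul_le_mul_right _ (Finset.single_le_sum (f := Nj) (fun _ _ => Nat.zero_le _)
            (Finset.mem_univ j))
        have h3 := hNj j m _ h2
        have h4 := Submodule.mem_map_of_mem (f := LinearMap.mulLeft 𝒪 (c j)) h3
        rw [Submodule.map_smul''] at h4
        refine Submodule.smul_mono le_rfl ?_ h4
        exact le_trans (le_iSup (fun j => (Subalgebra.toSubmodule (θ (β j)).range).map
          (LinearMap.mulLeft 𝒪 (c j))) j) le_sup_left
    obtain ⟨y, hy⟩ := hmem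
    exact ⟨y, hy.symm⟩
  choose y hy using hcoef
  let a : Module.End 𝒪 M := e.constr 𝒪 fun i => ∑ l, y i l • e l
  refine ⟨a, ?_⟩
  have haE : a.baseChange K = E r := by
    refine eK.ext fun i => ?_
    have h1 : eK i = 1 ⊗ₜ[𝒪] e i := Algebra.TensorProduct.basis_apply e i
    rw [← eK.sum_repr (E r (eK i))]
    conv_lhs => rw [h1, LinearMap.baseChange_tmul, show a (e i) = ∑ l, y i l • e l from
      e.constr_basis 𝒪 _ i]
    rw [TensorProduct.tmul_sum]
    refine Finset.sum_congr rfl fun l _ => ?_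
    rw [hy, Algebra.TensorProduct.basis_apply, TensorProduct.tmul_smul, algebraMap_smul]
  -- now on `X`
  intro x hx
  rw [haE]
  have hcoord : ∀ s j, β.repr (E s x) j = θ (β j) s * β.repr x j := by
    intro s j
    conv_lhs => rw [← β.sum_repr x]
    rw [map_sum, map_sum, Finsupp.finsetSum_apply, Finset.sum_eq_single j]
    · rw [map_smul, hE, map_smul, map_smul, Finsupp.smul_apply, Finsupp.smul_apply,
        β.repr_self, Finsupp.single_eq_same, smul_eq_mul, smul_eq_mul, mul_one, mul_comm]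
    · intro k _ hk
      rw [map_smul, hE, map_smul, map_smul, Finsupp.smul_apply, Finsupp.smul_apply,
        β.repr_self, Finsupp.single_eq_of_ne (Ne.symm hk), smul_zero, smul_zero]
    · intro h; exact absurd (Finset.mem_univ j) h
  apply β.repr.injective
  ext j
  rw [hcoord, map_smul, Finsupp.smul_apply, smul_eq_mul]
  by_cases hj : β.repr x j = 0
  · rw [hj, mul_zero, mul_zero]
  congr 1
  refine eq_of_dense (θ (β j)) (θ x) (hθ _ (hβX j)) (hθ x hx) r fun n => ?_
  obtain ⟨b, ⟨a', ha'⟩, hb⟩ := hr n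
  refine ⟨b, ?_, hb⟩
  have h1 := hcoord b j
  rw [← hEa b a' ha', ha' x hx, map_smul, Finsupp.smul_apply, smul_eq_mul] at h1
  exact (mul_right_cancel₀ hj h1).symm

omit [IsNoetherianRing 𝒪] [IsLocalRing 𝒪] [Module.Finite 𝒪 M] in
theorem baseChange_injective {a a' : Module.End 𝒪 M} (X : Set (K ⊗[𝒪] M))
    (hX : ⊤ ≤ Submodule.span K X) (h : ∀ x ∈ X, a.baseChange K x = a'.baseChange K x) : a = a' := by
  have h1 : a.baseChange K = a'.baseChange K := by
    have h2 : (⊤ : Submodule K (K ⊗[𝒪] M)) ≤ LinearMap.eqLocus (a.baseChange K)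
        (a'.baseChange K) := hX.trans (Submodule.span_le.mpr h)
    exact LinearMap.ext fun x => h2 (Submodule.mem_top : x ∈ (⊤ : Submodule K (K ⊗[𝒪] M)))
  let e := Module.Free.chooseBasis 𝒪 M
  let eK : Module.Basis _ K (K ⊗[𝒪] M) := Algebra.TensorProduct.basis K e
  refine e.ext fun i => ?_
  apply e.repr.injective
  ext l
  have h2 := congrArg (fun f => eK.repr (f (1 ⊗ₜ[𝒪] e i)) l) h1
  simp only [LinearMap.baseChange_tmul, eK, Algebra.TensorProduct.basis_repr_tmul] at h2
  have h3 : Function.Injective (algebraMap 𝒪 K) := FaithfulSMul.algebraMap_injective 𝒪 K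
  apply h3
  simpa [Algebra.smul_def] using h2

omit [IsLocalRing 𝒪] [IsNoetherianRing 𝒪] [IsLocalRing R] [Module.Finite 𝒪 M] in
/-- **Action of a ring on a lattice from its points.** -/
theorem exists_action (X : Set (K ⊗[𝒪] M)) (hX : ⊤ ≤ Submodule.span K X)
    (θ : K ⊗[𝒪] M → (R →ₐ[𝒪] K))
    (h : ∀ r : R, ∃ a : Module.End 𝒪 M, ∀ x ∈ X, a.baseChange K x = θ x r • x) :
    ∃ A : R →ₐ[𝒪] Module.End 𝒪 M, ∀ r, ∀ x ∈ X, (A r).baseChange K x = θ x r • x := by
  choose a ha using h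
  refine ⟨AlgHom.mk ⟨⟨⟨a, ?_⟩, ?_⟩, ?_, ?_⟩ ?_, ha⟩
  · refine baseChange_injective X hX fun x hx => ?_
    rw [ha 1 x hx, map_one, one_smul, LinearMap.baseChange_one]
    rfl
  · intro r s
    refine baseChange_injective X hX fun x hx => ?_
    show (a (r * s)).baseChange K x = (a r * a s).baseChange K x
    rw [ha _ x hx, LinearMap.baseChange_mul, Module.End.mul_apply, ha s x hx, map_smul, ha r x hx,
      map_mul, smul_smul, mul_comm]
  · refine baseChange_injective X hX fun x hx => ?_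
    show (a 0).baseChange K x = (0 : Module.End 𝒪 M).baseChange K x
    rw [ha 0 x hx, map_zero, zero_smul, LinearMap.baseChange_zero, LinearMap.zero_apply]
  · intro r s
    refine baseChange_injective X hX fun x hx => ?_
    show (a (r + s)).baseChange K x = (a r + a s).baseChange K x
    rw [ha _ x hx, LinearMap.baseChange_add, LinearMap.add_apply, ha s x hx, ha r x hx,
      map_add, add_smul]
  · intro o
    refine baseChange_injective X hX fun x hx => ?_
    show (a (algebraMap 𝒪 R o)).baseChange K x = (algebraMap 𝒪 (Module.End 𝒪 M) o).baseChange K x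
    rw [ha _ x hx, AlgHom.commutes, Module.algebraMap_end_eq_smul_id, LinearMap.baseChange_smul,
      LinearMap.baseChange_id, LinearMap.smul_apply, LinearMap.id_apply, algebraMap_smul]

end

end Fermat.Agent.Patch
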